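import Fermat.Agent.Curve.Duality
import Mathlib.FieldTheory.IntermediateField.Algebraic
import Mathlib.RingTheory.Adjoin.Basic

/-!
# Extension of the field of constants: places and divisors

`φ : F → F'` lies over `i : k → L`, both algebraically closed, and `F'` is generated by `L` and the
image of `F`.  Every place of `F` has exactly one place above it, unramified.
-/

set_option autoImplicit false
set_option linter.style.haveILetI false
set_option linter.unusedSectionVars false

noncomputable section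

namespace FA.PicTors

open AlgebraicCurve FA.Curve FA.ModField IntermediateField

variable {k L F F' : Type*} [Field k] [Field L] [Field F] [Field F'] [Algebra k F] [Algebra L F']

/-- `F'` is `F` with the constants extended along `i`. -/
structure IsExt (i : k →+* L) (φ : F →+* F') : Prop where
  comm : ∀ a, φ (algebraMap k F a) = algebraMap L F' (i a)
  adjoin_top : IntermediateField.adjoin L (Set.range φ) = ⊤
  func : IsFunctionField k F
  trans : ∃ x, Transcendental k x ∧ Transcendental L (φ x)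

namespace IsExt

variable [IsAlgClosed k] [IsAlgClosed L] {i : k →+* L} {φ : F →+* F'} (h : IsExt i φ)

include h

omit [IsAlgClosed k] [IsAlgClosed L] in
theorem map_mem (f : F) {z : F} (hz : z ∈ k⟮f⟯) : φ z ∈ L⟮φ f⟯ := by
  induction hz using IntermediateField.adjoin_induction with
  | mem y hy => rw [Set.mem_singleton_iff.1 hy]; exact mem_adjoin_simple_self L _
  | algebraMap a => rw [h.comm]; exact IntermediateField.algebraMap_mem _ _
  | add a b _ _ ha hb => rw [map_add]; exact add_mem ha hb
  | inv a _ ha => rw [map_inv₀]; exact inv_mem ha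
  | mul a b _ _ ha hb => rw [map_mul]; exact mul_mem ha hb

/-- The map between the fields generated by one function. -/
def adjHom (f : F) : k⟮f⟯ →+* L⟮φ f⟯ :=
  (φ.comp k⟮f⟯.val.toRingHom).codRestrict L⟮φ f⟯ fun z => h.map_mem f z.2

theorem isIntegral_map {f z : F} (hz : IsIntegral k⟮f⟯ z) : IsIntegral L⟮φ f⟯ (φ z) :=
  IsIntegral.map_of_comp_eq (h.adjHom f) φ (RingHom.ext fun _ => rfl) hz

theorem transcendental {f : F} (hf : Transcendental k f) : Transcendental L (φ f) := by
  obtain ⟨x, -, hx⟩ := h.trans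
  intro halg
  haveI := h.func.finiteDimensional hf
  haveI : FiniteDimensional L L⟮φ f⟯ := adjoin.finiteDimensional halg.isIntegral
  haveI : Algebra.IsIntegral L L⟮φ f⟯ := Algebra.IsIntegral.of_finite L _
  exact hx (isIntegral_trans (φ x)
    (h.isIntegral_map (Algebra.IsIntegral.isIntegral (R := k⟮f⟯) x))).isAlgebraic

theorem finite_and_finrank_le {f : F} (hf : Transcendental k f) :
    Module.Finite L⟮φ f⟯ F' ∧ Module.finrank L⟮φ f⟯ F' ≤ Module.finrank k⟮f⟯ F := by
  haveI := h.func.finiteDimensional hf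
  let b := Module.finBasis k⟮f⟯ F
  set M : Submodule L⟮φ f⟯ F' := Submodule.span L⟮φ f⟯ (Set.range fun j => φ (b j))
  have hφ : ∀ z, φ z ∈ M := fun z => by
    rw [← b.sum_repr z, map_sum]
    refine Submodule.sum_mem _ fun j _ => ?_
    rw [show φ (b.repr z j • b j) = h.adjHom f (b.repr z j) • φ (b j) by
      rw [IntermediateField.smul_def, smul_eq_mul, map_mul]; rfl]
    exact Submodule.smul_mem _ _ (Submodule.subset_span ⟨j, rfl⟩)
  have htop : IntermediateField.adjoin L⟮φ f⟯ (Set.range φ) = ⊤ := by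
    refine restrictScalars_injective L ?_
    rw [restrictScalars_top, eq_top_iff, ← h.adjoin_top, adjoin_le_iff]
    exact fun g hg => mem_restrictScalars (K := L).2 (subset_adjoin L⟮φ f⟯ (Set.range φ) hg)
  have hsub : (IntermediateField.adjoin L⟮φ f⟯ (Set.range φ)).toSubalgebra =
      Algebra.adjoin L⟮φ f⟯ (Set.range φ) :=
    adjoin_toSubalgebra_of_isAlgebraic fun z ⟨w, hw⟩ => hw ▸
      (h.isIntegral_map (Algebra.IsIntegral.isIntegral (R := k⟮f⟯) w)).isAlgebraic
  rw [htop, top_toSubalgebra] at hsub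
  have hM : (⊤ : Submodule L⟮φ f⟯ F') ≤ M := by
    have hmem : ∀ z : F', z ∈ Algebra.adjoin L⟮φ f⟯ (Set.range φ) := fun z =>
      hsub ▸ Algebra.mem_top
    intro z _
    have hz : z ∈ Subalgebra.toSubmodule (Algebra.adjoin L⟮φ f⟯ (Set.range φ)) := hmem z
    rw [Algebra.adjoin_eq_span] at hz
    refine Submodule.span_le.2 ?_ hz
    rw [show (Set.range φ) = ((MonoidHom.mrange (φ : F →* F')) : Set F') from rfl,
      Submonoid.closure_eq]
    rintro _ ⟨w, rfl⟩
    exact hφ w
  haveI : Module.Finite L⟮φ f⟯ M := Module.Finite.span_of_finite _ (Set.finite_range _)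
  have hMtop : M = ⊤ := top_le_iff.1 hM
  haveI : Module.Finite L⟮φ f⟯ (⊤ : Submodule L⟮φ f⟯ F') := hMtop ▸ this
  refine ⟨Module.Finite.equiv Submodule.topEquiv, ?_⟩
  rw [← finrank_top L⟮φ f⟯ F', ← hMtop]
  exact (finrank_range_le_card (R := L⟮φ f⟯) fun j => φ (b j)).trans (by simp)

theorem isFunctionField : IsFunctionField L F' := by
  obtain ⟨x, hxk, hx⟩ := h.trans
  exact ⟨φ x, hx, (h.finite_and_finrank_le hxk).1⟩

/-- A place of `F'` at which some function of `F` is not a unit lies over a place of `F`. -/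
theorem exists_restrict {P' : Place L F'} {g : F} (hg : P'.ord (φ g) ≠ 0) :
    ∃ (R : Place k F) (e : ℤ), 0 < e ∧ ∀ f, P'.ord (φ f) = e * R.ord f := by
  let O : ValuationSubring F := P'.toValuationSubring.comap φ
  have hK : ∀ a : k, algebraMap k F a ∈ O := fun a => by
    show φ _ ∈ P'.toValuationSubring
    rw [h.comm]; exact P'.algebraMap_mem' _
  have hmem : ∀ f, f ∈ O ↔ 0 ≤ P'.ord (φ f) := fun f => mem_place_iff _
  have hne : O ≠ ⊤ := fun e => by
    have h1 := (hmem g).1 (e ▸ ValuationSubring.mem_top g)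
    have h2 := (hmem g⁻¹).1 (e ▸ ValuationSubring.mem_top g⁻¹)
    rw [map_inv₀, P'.ord_inv] at h2
    omega
  set R := toPlace h.func O hK hne
  have hR : ∀ f, 0 ≤ R.ord f ↔ 0 ≤ P'.ord (φ f) := fun f =>
    (mem_place_iff R).symm.trans (hmem f)
  have hunit : ∀ u, R.ord u = 0 → P'.ord (φ u) = 0 := fun u hu => by
    have h1 := (hR u).1 hu.ge
    have h2 := (hR u⁻¹).1 (by rw [R.ord_inv, hu]; simp)
    rw [map_inv₀, P'.ord_inv] at h2
    omega
  obtain ⟨π, hπ⟩ := exists_uniformizer R
  have hπ0 : π ≠ 0 := fun h0 => by simp [h0] at hπ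
  have he : 0 < P'.ord (φ π) := by
    by_contra hle
    have h1 := (hR π⁻¹).2 (by rw [map_inv₀, P'.ord_inv]; omega)
    rw [R.ord_inv, hπ] at h1
    omega
  refine ⟨R, P'.ord (φ π), he, fun f => ?_⟩
  rcases eq_or_ne f 0 with rfl | hf0
  · simp
  set u := f * π ^ (-R.ord f) with hu
  have hu0 : R.ord u = 0 := by rw [R.ord_mul hf0 (zpow_ne_zero _ hπ0), R.ord_zpow, hπ]; ring
  have h1 := hunit u hu0
  rw [hu, map_mul, P'.ord_mul ((map_ne_zero φ).2 hf0) ((map_ne_zero φ).2 (zpow_ne_zero _ hπ0)),
    map_zpow₀, P'.ord_zpow] at h1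
  linarith

/-- One unramified place above each place. -/
theorem exists_up (P : Place k F) : ∃ (f : F) (P' : Place L F'), P.ord f < 0 ∧
    (∀ g, P'.ord (φ g) = P.ord g) ∧ ∀ P'' : Place L F', P''.ord (φ f) < 0 → P'' = P' := by
  classical
  obtain ⟨f, hf, hfw⟩ := exists_pole_only h.func P
  have hftr : Transcendental k f := transcendental_of_ord_ne_zero P hf.ne
  have hfin := h.finite_and_finrank_le hftr
  have hF' := h.isFunctionField
  have hn : Module.finrank k⟮f⟯ F = -P.ord f := by
    have h1 := degree_poleDiv h.func hftr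
    rw [degree_eq_finset_sum h.func _ (S := {P}) fun Q hQ => by
      rw [Finsupp.mem_support_iff, poleDiv_apply] at hQ
      rw [Finset.mem_singleton]
      by_contra hne
      have := hfw Q hne
      omega, Finset.sum_singleton, poleDiv_apply, max_eq_right (by omega)] at h1
    exact h1.symm
  have hsum : ∀ S : Finset (Place L F'), (∀ Q ∈ S, Q.ord (φ f) < 0) →
      ∀ Q ∈ S, ∃ e : ℤ, 0 < e ∧ (∀ g, Q.ord (φ g) = e * P.ord g) := by
    intro S hS Q hQ
    obtain ⟨R, e, he, hord⟩ := h.exists_restrict (g := f) (hS Q hQ).ne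
    have hRP : R = P := by
      by_contra hne
      have h1 := hord f
      have := hfw R hne
      have := hS Q hQ
      nlinarith
    exact ⟨e, he, hRP ▸ hord⟩
  have hbound : ∀ S : Finset (Place L F'), (∀ Q ∈ S, Q.ord (φ f) < 0) →
      ∑ Q ∈ S, -Q.ord (φ f) ≤ -P.ord f := fun S hS => by
    have h1 := sum_ord_le_finrank hF' (transcendental_inv (h.transcendental hftr)) S
      fun Q hQ => by rw [Q.ord_inv]; have := hS Q hQ; omega
    rw [adjoin_inv_eq] at h1
    simp only [Place.ord_inv] at h1
    have h2 : (Module.finrank L⟮φ f⟯ F' : ℤ) ≤ Module.finrank k⟮f⟯ F := by exact_mod_cast hfin.2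
    omega
  obtain ⟨P', hP'⟩ := exists_ord_neg hF' (h.transcendental hftr)
  obtain ⟨e, he, hord⟩ := hsum {P'} (by simpa using hP') P' (Finset.mem_singleton_self _)
  have he1 : e = 1 := by
    have h1 := hbound {P'} (by simpa using hP')
    rw [Finset.sum_singleton, hord] at h1
    nlinarith
  refine ⟨f, P', hf, fun g => by rw [hord, he1, one_mul], fun P'' hP'' => ?_⟩
  by_contra hne
  have hS : ∀ Q ∈ ({P'', P'} : Finset (Place L F')), Q.ord (φ f) < 0 := by simp [hP', hP'']
  obtain ⟨e'', he'', hord''⟩ := hsum _ hS P'' (Finset.mem_insert_self _ _)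
  have h1 := hbound _ hS
  rw [Finset.sum_pair hne, hord, hord'', he1] at h1
  nlinarith

/-- The place above `P`. -/
def up (P : Place k F) : Place L F' := (h.exists_up P).choose_spec.choose

theorem ord_up (P : Place k F) (g : F) : (h.up P).ord (φ g) = P.ord g :=
  (h.exists_up P).choose_spec.choose_spec.2.1 g

theorem eq_up {P : Place k F} {P' : Place L F'} (hP' : ∀ g, P'.ord (φ g) < 0 ↔ P.ord g < 0) :
    P' = h.up P :=
  (h.exists_up P).choose_spec.choose_spec.2.2 P'
    ((hP' _).2 (h.exists_up P).choose_spec.choose_spec.1)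

theorem up_injective : Function.Injective h.up := fun P Q e => by
  refine Place.ext (SetLike.ext fun f => ?_)
  rw [mem_place_iff _, mem_place_iff _, ← h.ord_up P, ← h.ord_up Q, e]

/-- A place at which a function of `F` is not a unit comes from `F`. -/
theorem exists_eq_up {P' : Place L F'} {g : F} (hg : P'.ord (φ g) ≠ 0) : ∃ R, P' = h.up R := by
  obtain ⟨R, e, he, hord⟩ := h.exists_restrict hg
  refine ⟨R, h.eq_up fun f => ?_⟩
  rw [hord]
  exact ⟨fun h1 => by nlinarith, fun h1 => by nlinarith⟩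

theorem ord_eq_zero {P' : Place L F'} (hP' : ∀ R, P' ≠ h.up R) (g : F) : P'.ord (φ g) = 0 := by
  by_contra hg
  obtain ⟨R, hR⟩ := h.exists_eq_up hg
  exact hP' R hR

theorem atLeast_up {P : Place k F} {n : ℤ} {f : F} (hf : AtLeast P n f) :
    AtLeast (h.up P) n (φ f) :=
  hf.imp (fun h0 => by rw [h0, map_zero]) fun h1 => by rw [h.ord_up]; exact h1

theorem hasValue_up {P : Place k F} {f : F} {c : k} (hf : HasValue P f c) :
    HasValue (h.up P) (φ f) (i c) := by
  have := h.atLeast_up (hf : AtLeast P 1 (f - algebraMap k F c))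
  rwa [map_sub, h.comm] at this

/-- Pullback of divisors. -/
def pull : Divisor k F →+ Divisor L F' := Finsupp.mapDomain.addMonoidHom h.up

theorem pull_up (D : Divisor k F) (P : Place k F) : h.pull D (h.up P) = D P :=
  Finsupp.mapDomain_apply h.up_injective D P

theorem pull_of_notMem (D : Divisor k F) {P' : Place L F'} (hP' : ∀ R, P' ≠ h.up R) :
    h.pull D P' = 0 :=
  Finsupp.mapDomain_of_notMem_range D P' fun ⟨R, hR⟩ => hP' R hR.symm

theorem degree_pull (D : Divisor k F) : Divisor.degree (h.pull D) = Divisor.degree D := by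
  induction D using Finsupp.induction_linear with
  | zero => simp
  | add a b ha hb => rw [map_add, map_add, map_add, ha, hb]
  | single P n =>
    rw [pull, Finsupp.mapDomain.addMonoidHom_apply, Finsupp.mapDomain_single,
      Divisor.degree_single, Divisor.degree_single, h.func.deg_eq_one,
      h.isFunctionField.deg_eq_one]

theorem divOf_map (f : F) : divOf h.isFunctionField (φ f) = h.pull (divOf h.func f) := by
  refine Finsupp.ext fun P' => ?_
  rw [divOf_apply]
  by_cases hP' : ∃ R, P' = h.up R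
  · obtain ⟨R, rfl⟩ := hP'
    rw [h.pull_up, divOf_apply, h.ord_up]
  · push Not at hP'
    rw [h.pull_of_notMem _ hP', h.ord_eq_zero hP']

theorem map_mem_L_iff {D : Divisor k F} {f : F} :
    φ f ∈ riemannRochSpace (h.pull D) ↔ f ∈ riemannRochSpace D := by
  rw [mem_riemannRochSpace, mem_riemannRochSpace]
  refine ⟨fun hf P => ?_, fun hf P' => ?_⟩
  · have h1 := hf (h.up P)
    rw [h.pull_up] at h1
    rcases h1 with h1 | h1
    · exact Or.inl ((map_eq_zero φ).1 h1)
    · exact Or.inr (by rwa [h.ord_up] at h1)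
  · by_cases hP' : ∃ R, P' = h.up R
    · obtain ⟨R, rfl⟩ := hP'
      rw [h.pull_up]; exact h.atLeast_up (hf R)
    · push Not at hP'
      rw [h.pull_of_notMem _ hP', neg_zero]
      exact Or.inr (h.ord_eq_zero hP' f).ge

theorem up_comp {M F'' : Type*} [Field M] [IsAlgClosed M] [Field F''] [Algebra M F'']
    {j : L →+* M} {τ : F' →+* F''} (hτ : IsExt j τ) {i₂ : k →+* M} {φ₂ : F →+* F''}
    (h₂ : IsExt i₂ φ₂) (hc : ∀ f, τ (φ f) = φ₂ f) (P : Place k F) :
    hτ.up (h.up P) = h₂.up P :=
  h₂.eq_up fun g => by rw [← hc, hτ.ord_up, h.ord_up]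

end IsExt

end FA.PicTors

end
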