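import Fermat.Agent.PicTors.ConstExt
import Mathlib.FieldTheory.RatFunc.Basic
import Mathlib.RingTheory.AdjoinRoot
import Mathlib.RingTheory.Polynomial.GaussLemma
import Mathlib.LinearAlgebra.Lagrange
import Mathlib.Algebra.Polynomial.Eval.Irreducible

/-!
# Plane models with constants in an algebraically closed field

A monic `Q` irreducible in `k[X][Y]` stays irreducible over a larger algebraically closed field;
its function field maps to every field containing a generic root.
-/

set_option autoImplicit false
set_option linter.style.haveILetI false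
set_option linter.unusedSectionVars false

noncomputable section

namespace FA.PicTors

open AlgebraicCurve FA.Curve Polynomial

variable {k L : Type*} [Field k] [Field L]

/-- The roots of a monic divisor of `R.map i` come from `k`. -/
theorem lifts_of_monic_dvd [IsAlgClosed k] (i : k →+* L) {R : k[X]} (hR : R.Monic) {A : L[X]}
    (hA : A.Monic) (hdvd : A ∣ R.map i) : A ∈ Polynomial.lifts i := by
  have hs : (R.map i).Splits := (IsAlgClosed.splits R).map i
  have hne : R.map i ≠ 0 := (hR.map i).ne_zero
  rw [(hs.of_dvd hne hdvd).eq_prod_roots_of_monic hA]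
  refine multiset_prod_mem _ fun z hz => ?_
  obtain ⟨r, hr, rfl⟩ := Multiset.mem_map.1 hz
  have h1 : r ∈ (R.map i).roots := Multiset.mem_of_le (roots.le_of_dvd hne hdvd) hr
  rw [(IsAlgClosed.splits R).roots_map, Multiset.mem_map] at h1
  obtain ⟨s, -, rfl⟩ := h1
  exact (Polynomial.mem_lifts _).2 ⟨X - C s, by simp⟩

/-- A polynomial with values in `k` at all points of `k` has coefficients in `k`. -/
theorem lifts_of_eval [Infinite k] (i : k →+* L) (p : L[X]) (hp : ∀ a : k, p.eval (i a) ∈ i.range) :
    p ∈ Polynomial.lifts i := by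
  classical
  obtain ⟨s, hs⟩ := Infinite.exists_subset_card_eq k (p.natDegree + 1)
  choose v hv using hp
  refine (Polynomial.mem_lifts _).2 ⟨Lagrange.interpolate s id v, ?_⟩
  have hcard : (s.image i).card = p.natDegree + 1 := by
    rw [Finset.card_image_of_injective _ i.injective, hs]
  refine eq_of_degrees_lt_of_eval_finset_eq (s.image i) ?_ ?_ fun z hz => ?_
  · rw [hcard, degree_map]
    exact hs ▸ Lagrange.degree_interpolate_lt v Function.injective_id.injOn
  · rw [hcard]
    exact lt_of_le_of_lt degree_le_natDegree (by exact_mod_cast Nat.lt_succ_self _)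
  · obtain ⟨a, ha, rfl⟩ := Finset.mem_image.1 hz
    rw [eval_map_apply, show a = id a from rfl,
      Lagrange.eval_interpolate_at_node v Function.injective_id.injOn ha, hv]
    rfl

/-- Irreducibility survives extension of constants. -/
theorem irreducible_map [IsAlgClosed k] (i : k →+* L) {Q : k[X][X]} (hQ : Q.Monic)
    (hirr : Irreducible Q) : Irreducible (Q.map (mapRingHom i)) := by
  have hinj : Function.Injective (mapRingHom i) := Polynomial.map_injective i i.injective
  have hinj2 := Polynomial.map_injective _ hinj
  rw [(hQ.map _).irreducible_iff_natDegree]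
  refine ⟨fun h1 => hirr.ne_one (hinj2 (h1.trans (Polynomial.map_one _).symm)),
    fun A B hA hB hAB => ?_⟩
  have key : ∀ A : L[X][X], A.Monic → A ∣ Q.map (mapRingHom i) →
      ∃ A₀ : k[X][X], A₀.Monic ∧ A₀.map (mapRingHom i) = A := by
    intro A hA hdvd
    have hl : A ∈ Polynomial.lifts (mapRingHom i) := by
      refine (lifts_iff_coeff_lifts _).2 fun j => ?_
      obtain ⟨r, hr⟩ := (Polynomial.mem_lifts _).1 (lifts_of_eval i (A.coeff j) fun a => by
        have h1 := lifts_of_monic_dvd i (hQ.map (evalRingHom a)) (hA.map (evalRingHom (i a))) (by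
          have := Polynomial.map_dvd (evalRingHom (i a)) hdvd
          rwa [map_map, show (evalRingHom (i a)).comp (mapRingHom i) = i.comp (evalRingHom a) from
            RingHom.ext fun p => eval_map_apply i a, ← map_map] at this)
        obtain ⟨c, hc⟩ := (lifts_iff_coeff_lifts _).1 h1 j
        rw [coeff_map, coe_evalRingHom] at hc
        exact ⟨c, hc⟩)
      exact ⟨r, hr⟩
    obtain ⟨A₀, hA₀⟩ := (Polynomial.mem_lifts _).1 hl
    exact ⟨A₀, monic_of_injective hinj (hA₀ ▸ hA), hA₀⟩
  obtain ⟨A₀, hA₀, rfl⟩ := key A hA ⟨B, hAB.symm⟩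
  obtain ⟨B₀, hB₀, rfl⟩ := key B hB ⟨_, (mul_comm _ _).trans hAB |>.symm⟩
  rw [hA₀.natDegree_map, hB₀.natDegree_map]
  rw [← Polynomial.map_mul] at hAB
  exact ((hQ.irreducible_iff_natDegree.1 hirr).2 A₀ B₀ hA₀ hB₀ (hinj2 hAB))

/-- `Q` over the rational functions. -/
abbrev fracQ (Q : k[X][X]) : (RatFunc k)[X] := Q.map (algebraMap k[X] (RatFunc k))

theorem irreducible_fracQ {Q : k[X][X]} (hQ : Q.Monic) (hirr : Irreducible Q) :
    Irreducible (fracQ Q) :=
  hQ.irreducible_iff_irreducible_map_fraction_map.1 hirr

/-- The function field of the model. -/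
abbrev MField (Q : k[X][X]) : Type _ := AdjoinRoot (fracQ Q)

/-- The abscissa. -/
def mX (Q : k[X][X]) : MField Q := AdjoinRoot.of _ (algebraMap k[X] (RatFunc k) X)

/-- The ordinate. -/
def mY (Q : k[X][X]) : MField Q := AdjoinRoot.root _

variable {F' : Type*} [Field F'] [Algebra L F'] (i : k →+* L)

/-- Evaluation of a polynomial with coefficients in `k`. -/
def evalX (x' : F') : k[X] →+* F' := eval₂RingHom ((algebraMap L F').comp i) x'

theorem evalX_C (x' : F') (a : k) : evalX i x' (C a) = algebraMap L F' (i a) := by simp [evalX]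

theorem evalX_X (x' : F') : evalX i x' X = x' := by simp [evalX]

theorem evalX_eq (x' : F') (p : k[X]) : evalX i x' p = aeval x' (p.map i) := by
  rw [evalX, coe_eval₂RingHom, aeval_def, eval₂_map]

theorem evalX_comp {M : Type*} [Field M] (j : M →+* k) (x' : F') :
    (evalX i x').comp (mapRingHom j) = evalX (i.comp j) x' :=
  Polynomial.ringHom_ext (fun a => by simp [evalX]) (by simp [evalX])

theorem evalX_injective {x' : F'} (hx : Transcendental L x') : Function.Injective (evalX i x') :=
  fun p q e => by
    rw [evalX_eq, evalX_eq] at e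
    exact Polynomial.map_injective i i.injective (transcendental_iff_injective.1 hx e)

variable {Q : k[X][X]} {x' y' : F'} (hx : Transcendental L x') (hy : Q.eval₂ (evalX i x') y' = 0)

/-- The map of the model to a field with a generic point. -/
def modelHom : MField Q →+* F' :=
  AdjoinRoot.lift (IsFractionRing.lift (evalX_injective i hx)) y' (by
    rw [eval₂_map, show (IsFractionRing.lift (evalX_injective i hx)).comp
      (algebraMap k[X] (RatFunc k)) = evalX i x' from
        RingHom.ext fun p => IsFractionRing.lift_algebraMap (evalX_injective i hx) p]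
    exact hy)

theorem modelHom_mY : modelHom i hx hy (mY Q) = y' := AdjoinRoot.lift_root _

theorem modelHom_mX : modelHom i hx hy (mX Q) = x' := by
  rw [modelHom, mX, AdjoinRoot.lift_of, IsFractionRing.lift_algebraMap, evalX_X]

theorem modelHom_C (a : k) :
    modelHom i hx hy (algebraMap k (MField Q) a) = algebraMap L F' (i a) := by
  rw [IsScalarTower.algebraMap_apply k (RatFunc k) (MField Q), AdjoinRoot.algebraMap_eq,
    IsScalarTower.algebraMap_apply k k[X] (RatFunc k), modelHom, AdjoinRoot.lift_of,
    IsFractionRing.lift_algebraMap, Polynomial.algebraMap_eq, evalX_C]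

/-- Maps of the model are equal when equal on constants, abscissa and ordinate. -/
theorem modelHom_ext {R : Type*} [Field R] {f g : MField Q →+* R}
    (hc : ∀ a, f (algebraMap k (MField Q) a) = g (algebraMap k (MField Q) a))
    (hX : f (mX Q) = g (mX Q)) (hY : f (mY Q) = g (mY Q)) : f = g := by
  have h1 : f.comp (AdjoinRoot.of _) = g.comp (AdjoinRoot.of _) := by
    refine IsLocalization.ringHom_ext (nonZeroDivisors k[X]) (Polynomial.ringHom_ext (fun a => ?_) hX)
    have := hc a
    rwa [IsScalarTower.algebraMap_apply k (RatFunc k) (MField Q), AdjoinRoot.algebraMap_eq,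
      IsScalarTower.algebraMap_apply k k[X] (RatFunc k), Polynomial.algebraMap_eq] at this
  refine RingHom.ext fun z => ?_
  induction z using AdjoinRoot.induction_on with
  | _ p =>
    induction p using Polynomial.induction_on' with
    | add p q hp hq => simp only [map_add, hp, hq]
    | monomial n a =>
      rw [← C_mul_X_pow_eq_monomial, map_mul, map_pow, AdjoinRoot.mk_C, AdjoinRoot.mk_X]
      simp only [map_mul, map_pow]
      rw [show f (AdjoinRoot.of _ a) = g (AdjoinRoot.of _ a) from DFunLike.congr_fun h1 a]
      exact congrArg (fun w => _ * w ^ n) hY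

variable [Fact (Irreducible (fracQ Q))]

/-- The generators. -/
theorem adjoin_mX_mY : IntermediateField.adjoin k ({mX Q, mY Q} : Set (MField Q)) = ⊤ := by
  rw [eq_top_iff]
  rintro z -
  set E := IntermediateField.adjoin k ({mX Q, mY Q} : Set (MField Q))
  have hX : mX Q ∈ E := IntermediateField.subset_adjoin _ _ (by simp)
  have hY : mY Q ∈ E := IntermediateField.subset_adjoin _ _ (by simp)
  have hp : ∀ p : k[X], AdjoinRoot.of (fracQ Q) (algebraMap k[X] (RatFunc k) p) ∈ E := by
    intro p
    induction p using Polynomial.induction_on' with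
    | add p q hp hq => rw [map_add, map_add]; exact add_mem hp hq
    | monomial n a =>
      rw [← C_mul_X_pow_eq_monomial, map_mul, map_pow, map_mul, map_pow]
      refine mul_mem ?_ (pow_mem hX n)
      rw [← Polynomial.algebraMap_eq, ← IsScalarTower.algebraMap_apply k k[X] (RatFunc k),
        ← AdjoinRoot.algebraMap_eq, ← IsScalarTower.algebraMap_apply k (RatFunc k) (MField Q)]
      exact E.algebraMap_mem a
  induction z using AdjoinRoot.induction_on with
  | _ p =>
    induction p using Polynomial.induction_on' with
    | add p q hp hq => rw [map_add]; exact add_mem hp hq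
    | monomial n a =>
      rw [← C_mul_X_pow_eq_monomial, map_mul, map_pow, AdjoinRoot.mk_C, AdjoinRoot.mk_X]
      refine mul_mem ?_ (pow_mem hY n)
      obtain ⟨r, s, -, rfl⟩ := IsFractionRing.div_surjective (A := k[X]) a
      rw [map_div₀]
      exact div_mem (hp r) (hp s)

theorem root_mY : Q.eval₂ ((AdjoinRoot.of (fracQ Q)).comp (algebraMap k[X] (RatFunc k))) (mY Q) = 0 := by
  rw [← eval₂_map]; exact AdjoinRoot.eval₂_root _

theorem evalX_mX :
    evalX (RingHom.id k) (mX Q) = (AdjoinRoot.of (fracQ Q)).comp (algebraMap k[X] (RatFunc k)) :=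
  Polynomial.ringHom_ext (fun a => by
    rw [evalX_C, RingHom.id_apply, IsScalarTower.algebraMap_apply k (RatFunc k) (MField Q),
      AdjoinRoot.algebraMap_eq, IsScalarTower.algebraMap_apply k k[X] (RatFunc k)]
    rfl) (by rw [evalX_X]; rfl)

theorem isFunctionField_model (hQ : Q.Monic) : IsFunctionField k (MField Q) := by
  set x := mX Q
  have e : ∀ p : k[X], aeval x p = AdjoinRoot.of (fracQ Q) (algebraMap k[X] (RatFunc k) p) := by
    intro p
    refine congrFun (congrArg DFunLike.coe ((Polynomial.ringHom_ext (fun a => ?_) ?_) :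
      (aeval x).toRingHom = (AdjoinRoot.of (fracQ Q)).comp (algebraMap k[X] (RatFunc k)))) p
    · show aeval x (C a) = _
      rw [aeval_C, IsScalarTower.algebraMap_apply k (RatFunc k) (MField Q),
        AdjoinRoot.algebraMap_eq, IsScalarTower.algebraMap_apply k k[X] (RatFunc k)]
      rfl
    · show aeval x X = _
      rw [aeval_X]; rfl
  refine ⟨x, transcendental_iff_injective.2 fun p q h => ?_, ?_⟩
  · rw [e, e] at h
    exact IsFractionRing.injective _ _ ((AdjoinRoot.of (fracQ Q)).injective h)
  set E := IntermediateField.adjoin k ({x} : Set (MField Q))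
  have hint : IsIntegral E (mY Q) := by
    let ev : k[X] →+* E := ((aeval x).toRingHom).codRestrict E fun p =>
      IntermediateField.algebra_adjoin_le_adjoin k _ (aeval_mem_adjoin_singleton k x)
    refine ⟨Q.map ev, hQ.map ev, ?_⟩
    rw [eval₂_map, show (algebraMap E (MField Q)).comp ev =
      (AdjoinRoot.of (fracQ Q)).comp (algebraMap k[X] (RatFunc k)) from RingHom.ext fun p => e p,
      ← eval₂_map]
    exact AdjoinRoot.eval₂_root _
  haveI : FiniteDimensional E (IntermediateField.adjoin E ({mY Q} : Set (MField Q))) :=
    IntermediateField.adjoin.finiteDimensional hint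
  have htop : IntermediateField.adjoin E ({mY Q} : Set (MField Q)) = ⊤ := by
    refine IntermediateField.restrictScalars_injective k ?_
    rw [IntermediateField.restrictScalars_top, IntermediateField.adjoin_simple_adjoin_simple]
    exact adjoin_mX_mY
  rw [htop] at this
  exact Module.Finite.equiv
    (IntermediateField.topEquiv (F := E) (E := MField Q)).toLinearEquiv

theorem transcendental_mX : Transcendental k (mX Q) :=
  transcendental_iff_injective.2 fun p q h => by
    have e : ∀ r : k[X], aeval (mX Q) r = evalX (RingHom.id k) (mX Q) r := fun r => by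
      rw [evalX_eq, Polynomial.map_id]
    rw [e, e, evalX_mX] at h
    exact IsFractionRing.injective _ _ ((AdjoinRoot.of (fracQ Q)).injective h)

include hy in
/-- A field generated by a generic point is an extension of the model. -/
theorem isExt_modelHom (hQ : Q.Monic)
    (hgen : IntermediateField.adjoin L ({x', y'} : Set F') = ⊤) :
    IsExt i (modelHom i hx hy) := by
  refine ⟨modelHom_C i hx hy, ?_, isFunctionField_model hQ, mX Q, ?_, ?_⟩
  · rw [eq_top_iff, ← hgen, IntermediateField.adjoin_le_iff]
    intro z hz
    rcases hz with rfl | rfl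
    · exact IntermediateField.subset_adjoin _ _ ⟨_, modelHom_mX i hx hy⟩
    · exact IntermediateField.subset_adjoin _ _ ⟨_, modelHom_mY i hx hy⟩
  · rintro ⟨p, hp0, hp⟩
    refine hx ⟨p.map i, (Polynomial.map_ne_zero_iff i.injective).2 hp0, ?_⟩
    have h1 := congrArg (modelHom i hx hy) hp
    rw [map_zero, aeval_def, hom_eval₂, modelHom_mX,
      show (modelHom i hx hy).comp (algebraMap k (MField Q)) = (algebraMap L F').comp i from
        RingHom.ext (modelHom_C i hx hy)] at h1
    rwa [aeval_def, eval₂_map]
  · rw [modelHom_mX]; exact hx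

end FA.PicTors

end
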