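import Fermat.Agent.PicTors.ConstExt
import Fermat.Agent.Curve.DualityGenus
import Fermat.Prelude.Def_AlgebraicCurve_DivisorClassGroup

/-!
# Extension of the field of constants: genus and classes

The genus does not change, `L(pull D)` is spanned by `L(D)`, and the classes inject.
-/

set_option autoImplicit false
set_option linter.style.haveILetI false
set_option linter.unusedSectionVars false

noncomputable section

namespace FA.PicTors

open AlgebraicCurve FA.Curve FA.ModField IntermediateField

variable {k L F F' : Type*} [Field k] [Field L] [Field F] [Field F'] [Algebra k F] [Algebra L F']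
  [IsAlgClosed k] [IsAlgClosed L]

namespace IsExt

variable {i : k →+* L} {φ : F →+* F'} (h : IsExt i φ)

include h

/-- Independent functions stay independent. -/
theorem linearIndependent {ι : Type*} [Fintype ι] {u : ι → F} (hu : LinearIndependent k u) :
    LinearIndependent L fun j => φ (u j) := by
  classical
  rw [Fintype.linearIndependent_iff]
  intro c hc
  let W : Submodule k (ι → k) :=
    { carrier := {v | ∑ j, c j * i (v j) = 0}
      zero_mem' := by simp
      add_mem' := fun {v w} hv hw => by
        simp only [Set.mem_ofPred_eq] at hv hw ⊢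
        simp only [Pi.add_apply, map_add, mul_add, Finset.sum_add_distrib, hv, hw, add_zero]
      smul_mem' := fun a v hv => by
        simp only [Set.mem_ofPred_eq] at hv ⊢
        simp only [Pi.smul_apply, smul_eq_mul, map_mul, mul_left_comm _ (i a), ← Finset.mul_sum, hv,
          mul_zero] }
  have hval : ∀ P : Place k F, (∀ j, AtLeast P 0 (u j)) →
      ∃ v ∈ W, ∀ j, HasValue P (u j) (v j) := by
    intro P hP
    choose v hv using fun j => exists_hasValue h.func (hP j)
    refine ⟨v, ?_, hv⟩
    have h1 : HasValue (h.up P) (∑ j, algebraMap L F' (c j) * φ (u j)) (∑ j, c j * i (v j)) :=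
      HasValue.finsetSum fun j _ => (h.hasValue_up (hv j)).smul (c j)
    rw [show ∑ j, algebraMap L F' (c j) * φ (u j) = ∑ j, c j • φ (u j) from
      Finset.sum_congr rfl fun j _ => (Algebra.smul_def _ _).symm, hc] at h1
    exact h1.unique (hasValue_zero_iff.2 atLeast_zero)
  have hW : W = ⊤ := by
    by_contra hne
    obtain ⟨l, hl0, hl⟩ := Submodule.exists_le_ker_of_lt_top _ (lt_top_iff_ne_top.2 hne)
    set e : ι → k := fun j => l (Pi.single j 1)
    have hlv : ∀ v, l v = ∑ j, v j * e j := fun v => by
      conv_lhs => rw [pi_eq_sum_univ' v]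
      simp only [map_sum, map_smul, smul_eq_mul, e]
    set f := ∑ j, algebraMap k F (e j) * u j
    have hf0 : f = 0 := by
      by_contra hne0
      haveI := infinite_places h.func
      have hfin : {P : Place k F | ∃ j, u j ≠ 0 ∧ P.ord (u j) ≠ 0}.Finite := by
        refine (Set.finite_iUnion fun j => finite_support h.func (u j)).subset ?_
        rintro P ⟨j, -, hj⟩
        exact Set.mem_iUnion.2 ⟨j, hj⟩
      refine hfin.infinite_compl ((finite_zeros h.func f).subset fun P hP => ?_)
      obtain ⟨v, hv, hPv⟩ := hval P fun j => by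
        by_contra hcon
        simp only [AtLeast, not_or, not_le] at hcon
        exact hP ⟨j, hcon.1, hcon.2.ne⟩
      have h1 : HasValue P f (∑ j, e j * v j) := HasValue.finsetSum fun j _ => (hPv j).smul (e j)
      rw [show ∑ j, e j * v j = l v by
        rw [hlv]; exact Finset.sum_congr rfl fun j _ => mul_comm _ _,
        LinearMap.mem_ker.1 (hl hv), hasValue_zero_iff, atLeast_iff hne0] at h1
      exact h1
    have he := Fintype.linearIndependent_iff.1 hu e (by simpa only [Algebra.smul_def] using hf0)
    exact hl0 (LinearMap.ext fun v => by simp [hlv, he])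
  intro j
  have hj : (Pi.single j 1 : ι → k) ∈ W := hW ▸ Submodule.mem_top
  have hj' : ∑ m, c m * i ((Pi.single j 1 : ι → k) m) = 0 := hj
  simpa [Pi.single_apply, apply_ite i] using hj'

theorem ell_le (D : Divisor k F) : ell D ≤ ell (h.pull D) := by
  haveI := finite_riemannRochSpace h.func D
  haveI := finite_riemannRochSpace h.isFunctionField (h.pull D)
  let b := Module.finBasis k (riemannRochSpace D)
  have hu : LinearIndependent k fun j => ((b j : riemannRochSpace D) : F) :=
    b.linearIndependent.map' _ (Submodule.ker_subtype _)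
  have := card_le_finrank (h.linearIndependent hu)
    fun j => (h.map_mem_L_iff (D := D)).2 (b j).2
  simp only [Fintype.card_fin] at this
  exact Int.ofNat_le.2 this

theorem genus_eq [CharZero k] : FA.Curve.genus L F' = FA.Curve.genus k F := by
  classical
  haveI := infinite_places h.func
  refine le_antisymm ?_ ?_
  · obtain ⟨c, hc⟩ := exists_threshold h.func
    obtain ⟨c', hc'⟩ := exists_threshold h.isFunctionField
    obtain ⟨P⟩ := (inferInstance : Nonempty (Place k F))
    set D : Divisor k F := Finsupp.single P (max c c')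
    have hd : Divisor.degree D = max c c' := by
      rw [Divisor.degree_single, h.func.deg_eq_one]; simp
    have h1 := h.ell_le D
    rw [hc _ (hd ▸ le_max_left _ _), hc' _ (by rw [h.degree_pull, hd]; exact le_max_right _ _),
      h.degree_pull] at h1
    omega
  · haveI : CharZero L := charZero_of_injective_ringHom i.injective
    obtain ⟨x, hxk, hx⟩ := h.trans
    haveI := h.func.finiteDimensional hxk
    haveI := h.isFunctionField.finiteDimensional hx
    haveI : CharZero k⟮x⟯ := charZero_of_injective_algebraMap (algebraMap k k⟮x⟯).injective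
    haveI : CharZero L⟮φ x⟯ := charZero_of_injective_algebraMap (algebraMap L L⟮φ x⟯).injective
    haveI : Algebra.IsSeparable k⟮x⟯ F := inferInstance
    haveI : Algebra.IsSeparable L⟮φ x⟯ F' := inferInstance
    obtain ⟨ψ, hli, hdual⟩ := exists_dual h.func hxk
    have hreg : ∀ j, IsRegDiff L (φ x) (φ (ψ j)) := fun j => by
      obtain ⟨h1, h2⟩ := (hdual j).isRegDiff h.func hxk
      refine ⟨fun P' c hc => ?_, fun P' hP' => ?_⟩
      · by_cases hR : ∃ R, P' = h.up R
        · obtain ⟨R, rfl⟩ := hR
          have hx0 : x ≠ 0 := fun e => hxk (e ▸ isAlgebraic_zero)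
          have h0 := hc.atLeast
          rw [atLeast_iff ((map_ne_zero φ).2 hx0), h.ord_up] at h0
          obtain ⟨d, hd⟩ := exists_hasValue h.func (Or.inr h0 : AtLeast R 0 x)
          rw [hc.unique (h.hasValue_up hd), ← h.comm, ← map_sub, h.ord_up]
          exact h.atLeast_up (h1 R d hd)
        · push Not at hR
          have hord := h.ord_eq_zero hR (ψ j)
          have hne : φ x ≠ algebraMap L F' c := fun e => hx (e ▸ isAlgebraic_algebraMap c)
          have h0 := (atLeast_iff (sub_ne_zero.2 hne)).1 hc
          exact Or.inr (by omega)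
      · obtain ⟨R, rfl⟩ := h.exists_eq_up hP'.ne
        rw [h.ord_up] at hP' ⊢
        exact h.atLeast_up (h2 R hP')
    have := card_le_genus h.isFunctionField hx _ (h.linearIndependent hli)
      fun j => (hreg j).isDual h.isFunctionField hx
    simpa using this

/-- `L(pull D)` is spanned by `L(D)`. -/
theorem riemannRochSpace_pull [CharZero k] (D : Divisor k F) :
    riemannRochSpace (h.pull D) ≤ Submodule.span L (φ '' (riemannRochSpace D : Set F)) := by
  classical
  haveI := infinite_places h.func
  obtain ⟨P⟩ := (inferInstance : Nonempty (Place k F))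
  obtain ⟨c, hc⟩ := exists_threshold h.func
  obtain ⟨c', hc'⟩ := exists_threshold h.isFunctionField
  suffices key : ∀ (m : ℕ) (D : Divisor k F), max c c' ≤ Divisor.degree D + m →
      riemannRochSpace (h.pull D) ≤ Submodule.span L (φ '' (riemannRochSpace D : Set F)) from
    key (max c c' - Divisor.degree D).toNat D (by omega)
  intro m
  induction m with
  | zero =>
    intro D hD
    haveI := finite_riemannRochSpace h.func D
    haveI := finite_riemannRochSpace h.isFunctionField (h.pull D)
    let b := Module.finBasis k (riemannRochSpace D)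
    have hu : LinearIndependent L fun j => φ ((b j : riemannRochSpace D) : F) :=
      h.linearIndependent (b.linearIndependent.map' _ (Submodule.ker_subtype _))
    have hle : Submodule.span L (φ '' (riemannRochSpace D : Set F)) ≤
        riemannRochSpace (h.pull D) := Submodule.span_le.2 fun z ⟨f, hf, hz⟩ =>
      hz ▸ h.map_mem_L_iff.2 hf
    haveI : Module.Finite L (Submodule.span L (φ '' (riemannRochSpace D : Set F))) :=
      Submodule.finiteDimensional_of_le hle
    refine (Submodule.eq_of_le_of_finrank_le hle (Int.ofNat_le.1 ?_)).ge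
    show ell (h.pull D) ≤ _
    have hge : (Fintype.card (Fin (Module.finrank k (riemannRochSpace D))) : ℤ) ≤
        Module.finrank L (Submodule.span L (φ '' (riemannRochSpace D : Set F))) := by
      have : LinearIndependent L fun j => (⟨φ ((b j : riemannRochSpace D) : F),
          Submodule.subset_span ⟨_, (b j).2, rfl⟩⟩ :
          Submodule.span L (φ '' (riemannRochSpace D : Set F))) :=
        LinearIndependent.of_comp (Submodule.span L (φ '' (riemannRochSpace D : Set F))).subtype hu
      exact_mod_cast this.fintype_card_le_finrank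
    rw [Fintype.card_fin] at hge
    refine le_trans ?_ hge
    show ell (h.pull D) ≤ ell D
    rw [hc _ (by omega), hc' _ (by rw [h.degree_pull]; omega), h.degree_pull, h.genus_eq]
  | succ m ih =>
    intro D hD g hg
    set D₁ := D + Finsupp.single P 1
    have hle : D ≤ D₁ := le_add_of_nonneg_right (Finsupp.single_nonneg.2 zero_le_one)
    have hpull : h.pull D ≤ h.pull D₁ := by
      refine Finsupp.le_def.2 fun P' => ?_
      by_cases hR : ∃ R, P' = h.up R
      · obtain ⟨R, rfl⟩ := hR
        rw [h.pull_up, h.pull_up]; exact Finsupp.le_def.1 hle R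
      · push Not at hR
        rw [h.pull_of_notMem _ hR, h.pull_of_notMem _ hR]
    have hg1 := ih D₁ (by
      simp only [D₁, map_add, Divisor.degree_single, h.func.deg_eq_one]
      push_cast at hD ⊢
      omega) (riemannRochSpace_mono hpull hg)
    by_cases hex : ∃ f ∈ riemannRochSpace D₁, f ∉ riemannRochSpace D
    swap
    · push Not at hex
      exact Submodule.span_mono (Set.image_mono hex) hg1
    obtain ⟨f, hf, hf'⟩ := hex
    have hcod := codim_single h.func D P hf hf'
    have hsub : Submodule.span L (φ '' (riemannRochSpace D₁ : Set F)) ≤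
        Submodule.span L (φ '' (riemannRochSpace D : Set F)) ⊔ Submodule.span L {φ f} := by
      rw [Submodule.span_le]
      rintro _ ⟨z, hz, rfl⟩
      obtain ⟨z₀, hz₀, z₁, hz₁, rfl⟩ := Submodule.mem_sup.1 (hcod hz)
      obtain ⟨a, rfl⟩ := Submodule.mem_span_singleton.1 hz₁
      rw [SetLike.mem_coe, map_add, Algebra.smul_def, map_mul, h.comm, ← Algebra.smul_def]
      exact Submodule.add_mem_sup (Submodule.subset_span ⟨z₀, hz₀, rfl⟩)
        (Submodule.smul_mem _ _ (Submodule.mem_span_singleton_self _))
    obtain ⟨g₀, hg₀, g₁, hg₁, rfl⟩ := Submodule.mem_sup.1 (hsub hg1)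
    obtain ⟨l, rfl⟩ := Submodule.mem_span_singleton.1 hg₁
    rcases eq_or_ne l 0 with rfl | hl
    · simpa using hg₀
    exfalso
    refine hf' (h.map_mem_L_iff.1 ?_)
    have h0 : g₀ ∈ riemannRochSpace (h.pull D) :=
      Submodule.span_le.2 (show φ '' (riemannRochSpace D : Set F) ⊆
        (riemannRochSpace (h.pull D) : Set F') from
          fun z ⟨f, hf, hz⟩ => hz ▸ h.map_mem_L_iff.2 hf) hg₀
    have h1 : l • φ f ∈ riemannRochSpace (h.pull D) := by
      simpa using Submodule.sub_mem _ hg h0
    simpa [smul_smul, inv_mul_cancel₀ hl] using Submodule.smul_mem _ l⁻¹ h1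

theorem ell_pull [CharZero k] (D : Divisor k F) : ell (h.pull D) = ell D := by
  refine le_antisymm ?_ (h.ell_le D)
  haveI := finite_riemannRochSpace h.func D
  let b := Module.finBasis k (riemannRochSpace D)
  have hsub : riemannRochSpace (h.pull D) ≤
      Submodule.span L (Set.range fun j => φ ((b j : riemannRochSpace D) : F)) := by
    refine (h.riemannRochSpace_pull D).trans (Submodule.span_le.2 ?_)
    rintro _ ⟨z, hz, rfl⟩
    have e := congrArg (fun w : riemannRochSpace D => (w : F)) (b.sum_repr ⟨z, hz⟩)
    simp only [AddSubmonoidClass.coe_finsetSum, SetLike.val_smul] at e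
    rw [← e, SetLike.mem_coe, map_sum]
    refine Submodule.sum_mem _ fun j _ => ?_
    rw [Algebra.smul_def, map_mul, h.comm, ← Algebra.smul_def]
    exact Submodule.smul_mem _ _ (Submodule.subset_span ⟨j, rfl⟩)
  haveI : Module.Finite L (Submodule.span L
      (Set.range fun j => φ ((b j : riemannRochSpace D) : F))) :=
    Module.Finite.span_of_finite L (Set.finite_range _)
  refine Int.ofNat_le.2 ((Submodule.finrank_mono hsub).trans ?_)
  exact (finrank_range_le_card (R := L) fun j => φ ((b j : riemannRochSpace D) : F)).trans
    (by simp)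

/-- Pullback of classes. -/
def mapPic : Pic0 k F →+ Pic0 L F' :=
  QuotientAddGroup.map _ _
    (((h.pull).comp (Divisor.degZero (K := k) (F := F)).subtype).codRestrict
      (Divisor.degZero (K := L) (F := F')) fun D => by
        rw [Divisor.mem_degZero, AddMonoidHom.comp_apply, AddSubgroup.coe_subtype, h.degree_pull]
        exact Divisor.mem_degZero.1 D.2)
    fun D hD => by
      obtain ⟨f, hf, hv⟩ := Divisor.mem_principal.1 (AddSubgroup.mem_addSubgroupOf.1 hD)
      refine AddSubgroup.mem_comap.2 (AddSubgroup.mem_addSubgroupOf.2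
        (Divisor.mem_principal.2 ⟨φ f, (map_ne_zero φ).2 hf, fun P' => ?_⟩))
      have e : (D : Divisor k F) = divOf h.func f := Finsupp.ext fun v => by
        rw [divOf_apply]; exact hv v
      show h.pull (D : Divisor k F) P' = _
      rw [e, ← h.divOf_map, divOf_apply]

theorem mapPic_mk (D : Divisor.degZero (K := k) (F := F)) :
    h.mapPic (Pic0.mk D) = Pic0.mk ⟨h.pull D, Divisor.mem_degZero.2
      ((h.degree_pull _).trans (Divisor.mem_degZero.1 D.2))⟩ := rfl

theorem mapPic_injective [CharZero k] : Function.Injective h.mapPic := by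
  rw [injective_iff_map_eq_zero]
  intro c hc
  obtain ⟨⟨D, hD⟩, rfl⟩ := Pic0.mk_surjective c
  obtain ⟨g, hg, hv⟩ := Divisor.mem_principal.1 (AddSubgroup.mem_addSubgroupOf.1
    ((QuotientAddGroup.eq_zero_iff _).1 hc))
  have hpos : 0 < ell (h.pull D) := by
    haveI := finite_riemannRochSpace h.isFunctionField (h.pull D)
    have hmem : g⁻¹ ∈ riemannRochSpace (h.pull D) := mem_riemannRochSpace.2 fun P' =>
      Or.inr (by rw [P'.ord_inv]; exact neg_le_neg (hv P').ge)
    have hne : riemannRochSpace (h.pull D) ≠ ⊥ := fun e => by
      rw [e, Submodule.mem_bot] at hmem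
      exact inv_ne_zero hg hmem
    have : 0 < Module.finrank L (riemannRochSpace (h.pull D)) :=
      Nat.pos_of_ne_zero fun e => hne (Submodule.finrank_eq_zero.1 e)
    rw [FA.Curve.ell]
    exact_mod_cast this
  rw [h.ell_pull] at hpos
  obtain ⟨f, hf, hle⟩ := exists_effective_of_ell_pos h.func hpos
  have hz : D + divOf h.func f = 0 := by
    refine Finsupp.ext fun v => le_antisymm ?_ (Finsupp.le_def.1 hle v)
    classical
    have hd : Divisor.degree (D + divOf h.func f) = 0 := by
      rw [map_add, degree_divOf, Divisor.mem_degZero.1 hD, add_zero]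
    rw [degree_eq_finset_sum h.func _ (Finset.subset_insert v _)] at hd
    have h1 := Finset.single_le_sum (f := fun R => (D + divOf h.func f) R)
      (fun R _ => Finsupp.le_def.1 hle R) (Finset.mem_insert_self v (D + divOf h.func f).support)
    rw [hd] at h1
    exact h1
  refine (QuotientAddGroup.eq_zero_iff _).2 (AddSubgroup.mem_addSubgroupOf.2
    (Divisor.mem_principal.2 ⟨f⁻¹, inv_ne_zero hf, fun v => ?_⟩))
  have := DFunLike.congr_fun hz v
  rw [Finsupp.add_apply, divOf_apply, Finsupp.coe_zero, Pi.zero_apply] at this
  show D v = _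
  rw [v.ord_inv]; omega

/-- A class of a divisor supported on places from `F` comes from `F`. -/
theorem exists_mapPic_eq {D : Divisor.degZero (K := L) (F := F')}
    (hD : ∀ P' ∈ (D : Divisor L F').support, ∃ R, P' = h.up R) :
    ∃ c, h.mapPic c = Pic0.mk D := by
  classical
  set D₁ : Divisor k F := Finsupp.comapDomain h.up (D : Divisor L F') h.up_injective.injOn
  have e : h.pull D₁ = D := Finsupp.mapDomain_comapDomain _ h.up_injective _ fun P' hP' => by
    obtain ⟨R, hR⟩ := hD P' hP'
    exact ⟨R, hR.symm⟩
  have hd : D₁ ∈ Divisor.degZero (K := k) (F := F) := by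
    rw [Divisor.mem_degZero, ← h.degree_pull, e]; exact Divisor.mem_degZero.1 D.2
  exact ⟨Pic0.mk ⟨D₁, hd⟩, (h.mapPic_mk _).trans (congrArg _ (Subtype.ext e))⟩

end IsExt

end FA.PicTors

end
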