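import Fermat.Agent.PicTors.Lattice
import Mathlib.LinearAlgebra.Complex.FiniteDimensional

/-!
# The torsion of `Pic⁰` over `ℂ`
-/

set_option autoImplicit false

noncomputable section

namespace FA.PicTors

open AlgebraicCurve

/-- **Over `ℂ` a curve of genus `g` has `n^(2g)` classes of degree zero killed by `n`.** -/
theorem countComplex : CountComplex := by
  intro F _ _ hF n hn
  obtain ⟨E, r, R, hr, hinj, hsurj⟩ := exists_uniformisation hF
  have h := natCard_torsionBy_of_bounded E r R hr hinj hsurj n hn
  have hd : Module.finrank ℝ (Fin (FA.Curve.genus ℂ F) → ℂ) = 2 * FA.Curve.genus ℂ F := by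
    rw [Module.finrank_pi_fintype]
    simp [Complex.finrank_real_complex, mul_comm]
  rw [hd] at h
  exact h

end FA.PicTors

end
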