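import Fermat.Agent.Curve.Basic
import Fermat.Prelude.Def_AlgebraicCurve_IsCurveOver
import Mathlib.FieldTheory.SeparablyGenerated
import Mathlib.RingTheory.Etale.Field
import Mathlib.RingTheory.Etale.Kaehler
import Mathlib.RingTheory.Kaehler.Polynomial

/-!
# A curve in the sense of the differentials is a function field of one variable
-/

set_option autoImplicit false
set_option linter.style.haveILetI false

noncomputable section

namespace FA.PicTors

open AlgebraicCurve FA.Curve IntermediateField

universe u v

variable (K : Type u) (F : Type v) [Field K] [Field F] [Algebra K F]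

/-- A transcendence basis of an extension whose differentials have rank one has one element. -/
theorem card_transcendenceBasis [CharZero K] [IsCurveOver K F]
    (s : Finset F) (hs : IsTranscendenceBasis K ((↑) : s → F)) : s.card = 1 := by
  classical
  haveI : CharZero F := charZero_of_injective_algebraMap (algebraMap K F).injective
  let A := MvPolynomial s K
  letI : Algebra A F := (MvPolynomial.aeval ((↑) : s → F)).toRingHom.toAlgebra
  haveI : IsScalarTower K A F := IsScalarTower.of_algebraMap_eq fun c => by
    show algebraMap K F c = MvPolynomial.aeval ((↑) : s → F) (algebraMap K A c)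
    rw [AlgHom.commutes]
  have hinj : Function.Injective (algebraMap A F) := hs.1
  haveI : FaithfulSMul A F := (faithfulSMul_iff_algebraMap_injective A F).2 hinj
  haveI : Algebra.IsAlgebraic A F := by
    haveI := hs.isAlgebraic
    refine ⟨fun z => ?_⟩
    have hz := Algebra.IsAlgebraic.isAlgebraic (R := Algebra.adjoin K (Set.range ((↑) : s → F))) z
    exact hz.of_ringHom_of_comp_eq (hs.1.aevalEquiv : A →+* _) (RingHom.id F)
      hs.1.aevalEquiv.surjective Function.injective_id (RingHom.ext fun p => rfl)
  let E := FractionRing A
  letI : Algebra E F := (IsFractionRing.lift hinj).toAlgebra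
  haveI : IsScalarTower A E F := IsScalarTower.of_algebraMap_eq fun a =>
    (IsFractionRing.lift_algebraMap hinj a).symm
  haveI : Algebra.IsAlgebraic E F := (IsFractionRing.comap_isAlgebraic_iff (A := A) (K := E) (C := F)).1 inferInstance
  haveI : Algebra.IsSeparable E F := inferInstance
  haveI : Algebra.FormallyEtale A E := Algebra.FormallyEtale.of_isLocalization (nonZeroDivisors A)
  haveI : Algebra.FormallyEtale E F := Algebra.FormallyEtale.of_isSeparable E F
  haveI : Algebra.FormallyEtale A F := Algebra.FormallyEtale.comp A E F
  let e := KaehlerDifferential.tensorKaehlerEquivOfFormallyEtale K A F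
  have h : Module.finrank F (TensorProduct A F Ω[A⁄K]) = s.card := by
    rw [Module.finrank_eq_card_basis ((KaehlerDifferential.mvPolynomialBasis K s).baseChange F),
      Fintype.card_coe]
  rw [e.finrank_eq, IsCurveOver.finrank_kaehler] at h
  exact h.symm

/-- **Curves are function fields.** -/
theorem isFunctionField_of_curve [CharZero K] [IsCurveOver K F] [Algebra.EssFiniteType K F] :
    IsFunctionField K F := by
  classical
  haveI : PerfectField K := inferInstance
  obtain ⟨s, hs, hsep⟩ := exists_isTranscendenceBasis_and_isSeparable_of_perfectField K F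
  obtain ⟨x, rfl⟩ := Finset.card_eq_one.1 (card_transcendenceBasis K F s hs)
  have hx : Transcendental K x :=
    (hs.1.transcendental ⟨x, Finset.mem_singleton_self x⟩ :)
  rw [Finset.coe_singleton] at hsep
  haveI := hsep
  refine ⟨x, hx, ?_⟩
  obtain ⟨G, hG⟩ := IntermediateField.fg_top K F
  haveI : FiniteDimensional K⟮x⟯ (adjoin K⟮x⟯ (G : Set F)) :=
    finiteDimensional_adjoin fun g _ => Algebra.IsAlgebraic.isAlgebraic g |>.isIntegral
  have htop : adjoin K⟮x⟯ (G : Set F) = ⊤ := by
    refine restrictScalars_injective K (eq_top_iff.2 ?_)
    rw [← hG, adjoin_le_iff]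
    exact fun g hg => mem_restrictScalars (K := K).2 (subset_adjoin K⟮x⟯ (G : Set F) hg)
  rw [htop] at this
  exact Module.Finite.equiv (topEquiv (F := K⟮x⟯) (E := F)).toLinearEquiv

end FA.PicTors

end
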