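import Fermat.Agent.Curve.Value
import Fermat.Prelude.Def_AlgebraicCurve_Repartitions

/-!
# The genus by repartitions is the genus by Riemann-Roch defects
-/

set_option autoImplicit false
set_option linter.style.haveILetI false
set_option linter.unusedSectionVars false

noncomputable section

namespace FA.PicTors

open AlgebraicCurve FA.Curve FA.ModField

variable {K F : Type*} [Field K] [Field F] [Algebra K F] [IsAlgClosed K]
  (hF : IsFunctionField K F)

include hF

/-- The leading term can be removed by a multiple of a function of the same order. -/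
theorem exists_sub_smul {v : Place K F} {f a : F} {k : ℤ} (hf0 : f ≠ 0) (hf : v.ord f = k)
    (ha : AtLeast v k a) : ∃ c : K, AtLeast v (k + 1) (a - algebraMap K F c * f) := by
  have h0 : AtLeast v 0 (a * f⁻¹) := by
    have := ha.mul (atLeast_ord (v := v) f⁻¹)
    rwa [v.ord_inv, hf, add_neg_cancel] at this
  obtain ⟨c, hc⟩ := exists_hasValue hF h0
  refine ⟨c, ?_⟩
  have := AtLeast.mul hc (atLeast_ord (v := v) f)
  rwa [sub_mul, inv_mul_cancel_right₀ hf0, hf, add_comm] at this

theorem finite_bad (α : repartitions K F) :
    {w : Place K F | w.ord ((α : Place K F → F) w) < 0}.Finite := by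
  obtain ⟨α, hα⟩ := α
  induction hα using Algebra.adjoin_induction with
  | mem β hβ =>
    refine hβ.subset fun w hw => ?_
    exact (w.not_adicValuation_le_one_iff).2 hw
  | algebraMap h => exact (finite_support hF h).subset fun w hw => ne_of_lt hw
  | add β γ _ _ h1 h2 =>
    refine (h1.union h2).subset fun w hw => ?_
    by_contra hno
    simp only [Set.mem_union, Set.mem_ofPred_eq, not_or, not_lt] at hno
    have h : AtLeast w 0 (β w + γ w) :=
      AtLeast.add (Or.inr hno.1 : AtLeast w 0 (β w)) (Or.inr hno.2)
    rcases h with h | h
    · simp [h] at hw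
    · exact absurd hw (not_lt.2 h)
  | mul β γ _ _ h1 h2 =>
    refine (h1.union h2).subset fun w hw => ?_
    by_contra hno
    simp only [Set.mem_union, Set.mem_ofPred_eq, not_or, not_lt] at hno
    have h := AtLeast.mul (Or.inr hno.1 : AtLeast w 0 (β w)) (Or.inr hno.2 : AtLeast w 0 (γ w))
    rcases h with h | h
    · simp [h] at hw
    · exact absurd hw (not_lt.2 (by simpa using h))

theorem exists_bound (α : repartitions K F) (D : Divisor K F) :
    ∃ D', D ≤ D' ∧ α ∈ repartitionsOf D' := by
  classical
  set S := (finite_bad hF α).toFinset ∪ D.support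
  set N : Place K F → ℤ := fun w => (w.ord ((α : Place K F → F) w)).natAbs + (D w).natAbs
  have hval : ∀ w, (∑ u ∈ S, Finsupp.single u (N u)) w = if w ∈ S then N w else 0 := fun w => by
    rw [Finset.sum_apply']
    simp [Finsupp.single_apply]
  refine ⟨D + ∑ u ∈ S, Finsupp.single u (N u),
    le_add_of_nonneg_right (Finset.sum_nonneg fun u _ => Finsupp.single_nonneg.2 ?_),
    mem_repartitionsOf_iff.2 fun w => ?_⟩
  · simp only [N]; positivity
  rw [Finsupp.add_apply, hval]
  by_cases hw : w ∈ S
  · rw [if_pos hw]
    right
    simp only [N]
    omega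
  · rw [if_neg hw]
    simp only [S, Finset.mem_union, Set.Finite.mem_toFinset, Set.mem_ofPred_eq, not_or, not_lt,
      Finsupp.mem_support_iff, not_not] at hw
    right
    omega

/-- A new function makes the new repartitions principal. -/
theorem repartitionsOf_succ_le {D : Divisor K F} {v : Place K F} {f : F}
    (hf : f ∈ riemannRochSpace (D + Finsupp.single v 1)) (hf' : f ∉ riemannRochSpace D) :
    repartitionsOf (D + Finsupp.single v 1) ≤ repartitionsOf D ⊔ principalRepartitions K F := by
  rw [mem_riemannRochSpace] at hf hf'
  have hother : ∀ w, w ≠ v → AtLeast w (-D w) f := fun w hw => by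
    simpa [Finsupp.single_eq_of_ne hw] using hf w
  have hnv : ¬ AtLeast v (-D v) f := fun h => hf' fun w => by
    rcases eq_or_ne w v with rfl | hw
    exacts [h, hother w hw]
  rw [AtLeast, not_or, not_le] at hnv
  have hord : v.ord f = -D v - 1 := by
    have h := (atLeast_iff hnv.1).1 (hf v)
    simp only [Finsupp.add_apply, Finsupp.single_eq_same] at h
    omega
  intro α hα
  rw [mem_repartitionsOf_iff] at hα
  have hav : AtLeast v (-D v - 1) ((α : Place K F → F) v) := by
    have h : AtLeast v (-((D + Finsupp.single v 1 : Divisor K F) v)) ((α : Place K F → F) v) := hα v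
    rwa [Finsupp.add_apply, Finsupp.single_eq_same, neg_add, ← sub_eq_add_neg] at h
  obtain ⟨c, hc⟩ := exists_sub_smul hF hnv.1 hord hav
  set β : repartitions K F := algebraMap F (repartitions K F) (algebraMap K F c * f)
  rw [Submodule.mem_sup]
  refine ⟨α - β, mem_repartitionsOf_iff.2 fun w => ?_, β,
    mem_principalRepartitions_iff.2 ⟨_, rfl⟩, sub_add_cancel _ _⟩
  show AtLeast w (-D w) ((α : Place K F → F) w - algebraMap K F c * f)
  rcases eq_or_ne w v with rfl | hw
  · exact hc.mono (by omega)
  · refine AtLeast.sub ?_ ((hother w hw).smul c)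
    have h : AtLeast w (-((D + Finsupp.single v 1 : Divisor K F) w)) ((α : Place K F → F) w) := hα w
    rwa [Finsupp.add_apply, Finsupp.single_eq_of_ne hw, add_zero] at h

theorem repartitions_eq_top {c : ℤ} (hc : ∀ D : Divisor K F, c ≤ Divisor.degree D →
      ell D = Divisor.degree D + 1 - FA.Curve.genus K F) (D : Divisor K F)
    (hD : c ≤ Divisor.degree D) : repartitionsOf D ⊔ principalRepartitions K F = ⊤ := by
  classical
  have key : ∀ n : ℕ, ∀ D' : Divisor K F, D ≤ D' → Divisor.degree (D' - D) = n →
      repartitionsOf D' ≤ repartitionsOf D ⊔ principalRepartitions K F := by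
    intro n
    induction n with
    | zero =>
      intro D' hle hdeg
      have : D' = D := by
        ext w
        rw [degree_eq_sum hF, Finsupp.sum, Nat.cast_zero, Finset.sum_eq_zero_iff_of_nonneg
          (fun u _ => by simpa using Finsupp.le_def.1 hle u)] at hdeg
        by_contra hne
        have h := hdeg w (by simpa [sub_eq_zero] using hne)
        exact hne (sub_eq_zero.1 (by simpa using h))
      subst this
      exact le_sup_left
    | succ n ih =>
      intro D' hle hdeg
      obtain ⟨v, hv⟩ : ∃ v, D v < D' v := by
        by_contra hno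
        push Not at hno
        have : D' = D := le_antisymm (Finsupp.le_def.2 hno) hle
        rw [this, sub_self, map_zero] at hdeg
        omega
      set D₁ := D' - Finsupp.single v 1
      have hD₁ : D₁ + Finsupp.single v 1 = D' := sub_add_cancel _ _
      have hle₁ : D ≤ D₁ := Finsupp.le_def.2 fun w => by
        rw [Finsupp.sub_apply]
        rcases eq_or_ne w v with rfl | hw
        · rw [Finsupp.single_eq_same]; omega
        · rw [Finsupp.single_eq_of_ne hw, sub_zero]; exact Finsupp.le_def.1 hle w
      have hd₁ : Divisor.degree (D₁ - D) = n := by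
        rw [show D₁ - D = D' - D - Finsupp.single v 1 by simp only [D₁]; abel, map_sub, hdeg,
          Divisor.degree_single, hF.deg_eq_one]
        push_cast; ring
      have hc₁ : c ≤ Divisor.degree D₁ := hD.trans (degree_mono hF hle₁)
      obtain ⟨f, hf, hf'⟩ : ∃ f ∈ riemannRochSpace D', f ∉ riemannRochSpace D₁ := by
        by_contra hno
        push Not at hno
        haveI := finite_riemannRochSpace hF D₁
        have h1 : ell D' ≤ ell D₁ := Int.ofNat_le.2 (Submodule.finrank_mono fun f hf => hno f hf)
        rw [hc _ hc₁, hc _ (hD.trans (degree_mono hF hle)), ← hD₁, map_add,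
          Divisor.degree_single, hF.deg_eq_one] at h1
        push_cast at h1
        omega
      rw [← hD₁] at hf ⊢
      exact (repartitionsOf_succ_le hF hf hf').trans (sup_le (ih D₁ hle₁ hd₁) le_sup_right)
  rw [eq_top_iff]
  rintro α -
  obtain ⟨D', hle, hα⟩ := exists_bound hF α D
  have h := degree_mono hF hle
  exact key (Divisor.degree (D' - D)).toNat D' hle (by rw [map_sub]; omega) hα

/-- **The genus by repartitions.** -/
theorem genusFF_eq : genusFF K F = FA.Curve.genus K F := by
  classical
  haveI := infinite_places hF
  obtain ⟨v⟩ := (inferInstance : Nonempty (Place K F))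
  obtain ⟨c, hc⟩ := exists_threshold hF
  set M : Submodule K (repartitions K F) :=
    repartitionsOf (0 : Divisor K F) ⊔ principalRepartitions K F
  let Θ : ℕ → Submodule K (H1 (0 : Divisor K F)) := fun n =>
    (repartitionsOf (Finsupp.single v (n : ℤ))).map M.mkQ
  have hP : (principalRepartitions K F).map M.mkQ = ⊥ := by
    rw [eq_bot_iff, Submodule.map_le_iff_le_comap, Submodule.comap_bot, Submodule.ker_mkQ]
    exact le_sup_right
  have key : ∀ n, Module.Finite K (Θ n) ∧
      (Module.finrank K (Θ n) : ℤ) = n + 1 - ell (Finsupp.single v (n : ℤ)) := by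
    intro n
    induction n with
    | zero =>
      have h : Θ 0 = ⊥ := by
        simp only [Θ, Nat.cast_zero, Finsupp.single_zero]
        rw [eq_bot_iff, Submodule.map_le_iff_le_comap, Submodule.comap_bot, Submodule.ker_mkQ]
        exact le_sup_left
      rw [h, Nat.cast_zero, Finsupp.single_zero, ell_zero hF, finrank_bot]
      exact ⟨inferInstance, by norm_num⟩
    | succ n ih =>
      obtain ⟨hfin, ih⟩ := ih
      set D : Divisor K F := Finsupp.single v (n : ℤ) with hD
      have hsucc : Finsupp.single v ((n + 1 : ℕ) : ℤ) = D + Finsupp.single v 1 := by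
        rw [hD, ← Finsupp.single_add, Nat.cast_succ]
      have hD0 : (0 : Divisor K F) ≤ D := Finsupp.single_nonneg.2 (Int.natCast_nonneg n)
      have hle : D ≤ D + Finsupp.single v 1 :=
        le_add_of_nonneg_right (Finsupp.single_nonneg.2 zero_le_one)
      have hmono : Θ n ≤ Θ (n + 1) := Submodule.map_mono (repartitionsOf_mono (hsucc ▸ hle))
      haveI := finite_riemannRochSpace hF D
      have hs := (finrank_succ hF D v).2
      have hm := ell_mono hF hle
      by_cases hex : ∃ f ∈ riemannRochSpace (D + Finsupp.single v 1), f ∉ riemannRochSpace D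
      · obtain ⟨f, hf, hf'⟩ := hex
        have heq : Θ (n + 1) = Θ n := by
          refine le_antisymm ?_ hmono
          simp only [Θ, hsucc]
          refine (Submodule.map_mono (repartitionsOf_succ_le hF hf hf')).trans ?_
          rw [Submodule.map_sup, hP, sup_bot_eq]
        haveI := finite_riemannRochSpace hF (D + Finsupp.single v 1)
        have hlt : Module.finrank K (riemannRochSpace D) <
            Module.finrank K (riemannRochSpace (D + Finsupp.single v 1)) :=
          Submodule.finrank_lt_finrank_of_lt
            (SetLike.lt_iff_le_and_exists.2 ⟨riemannRochSpace_mono hle, f, hf, hf'⟩)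
        rw [heq]
        refine ⟨hfin, ?_⟩
        rw [ih, hsucc]
        simp only [ell] at hm ⊢
        push_cast
        omega
      push Not at hex
      have hLeq : riemannRochSpace (D + Finsupp.single v 1) = riemannRochSpace D :=
        le_antisymm hex (riemannRochSpace_mono hle)
      obtain ⟨t, ht⟩ := exists_uniformizer v
      have ht0 : t ≠ 0 := fun h => by simp [h] at ht
      set a : F := t ^ (-((n : ℤ) + 1))
      have ha0 : a ≠ 0 := zpow_ne_zero _ ht0
      have ha : v.ord a = -((n : ℤ) + 1) := by rw [v.ord_zpow, ht, mul_one]
      let δ : repartitions K F := ⟨fun w => if w = v then a else 0,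
        mem_repartitions_of_finite_ord ((Set.finite_singleton v).subset fun w hw => by
          by_contra hne
          simp only [Set.mem_singleton_iff] at hne
          simp [if_neg hne] at hw)⟩
      have hDv : D v = n := Finsupp.single_eq_same
      have heq : Θ (n + 1) = Θ n ⊔ Submodule.span K {M.mkQ δ} := by
        refine le_antisymm ?_ (sup_le hmono ?_)
        · rintro _ ⟨α, hα, rfl⟩
          rw [SetLike.mem_coe, hsucc, mem_repartitionsOf_iff] at hα
          have hαv : AtLeast v (-((n : ℤ) + 1)) ((α : Place K F → F) v) := by
            have h : AtLeast v (-((D + Finsupp.single v 1 : Divisor K F) v))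
                ((α : Place K F → F) v) := hα v
            rwa [Finsupp.add_apply, hDv, Finsupp.single_eq_same] at h
          obtain ⟨e, he⟩ := exists_sub_smul hF ha0 ha hαv
          rw [show M.mkQ α = M.mkQ (α - e • δ) + e • M.mkQ δ by
            rw [map_sub, map_smul, sub_add_cancel]]
          refine Submodule.add_mem_sup (Submodule.mem_map_of_mem
            (mem_repartitionsOf_iff.2 fun w => ?_))
            (Submodule.smul_mem _ _ (Submodule.mem_span_singleton_self _))
          show AtLeast w (-D w) ((α : Place K F → F) w - e • (if w = v then a else 0))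
          rw [Algebra.smul_def]
          rcases eq_or_ne w v with rfl | hw
          · rw [if_pos rfl, hDv]; exact he.mono (by omega)
          · rw [if_neg hw, mul_zero, sub_zero]
            have h : AtLeast w (-((D + Finsupp.single v 1 : Divisor K F) w))
                ((α : Place K F → F) w) := hα w
            rwa [Finsupp.add_apply, show (Finsupp.single v (1 : ℤ)) w = 0 from
              Finsupp.single_eq_of_ne hw, add_zero] at h
        · rw [Submodule.span_singleton_le_iff_mem]
          refine Submodule.mem_map_of_mem ?_
          rw [hsucc]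
          refine mem_repartitionsOf_iff.2 fun w => ?_
          show AtLeast w _ (if w = v then a else 0)
          rcases eq_or_ne w v with rfl | hw
          · rw [if_pos rfl, Finsupp.add_apply, hDv, Finsupp.single_eq_same]
            exact Or.inr (by rw [ha])
          · rw [if_neg hw]; exact atLeast_zero
      have hnot : M.mkQ δ ∉ Θ n := by
        rintro ⟨α, hα, he⟩
        rw [SetLike.mem_coe, mem_repartitionsOf_iff] at hα
        rw [Submodule.mkQ_apply, Submodule.mkQ_apply, Submodule.Quotient.eq] at he
        obtain ⟨β, hβ, γ, hγ, hsum⟩ := Submodule.mem_sup.1 he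
        obtain ⟨h, hh⟩ := mem_principalRepartitions_iff.1 hγ
        rw [mem_repartitionsOf_iff] at hβ
        have hval : ∀ w, (β : Place K F → F) w + h =
            (α : Place K F → F) w - (if w = v then a else 0) := fun w => by
          have := congrFun (congrArg (fun x : repartitions K F => (x : Place K F → F)) hsum) w
          simp only [AddMemClass.coe_add, AddSubgroupClass.coe_sub, Pi.add_apply, Pi.sub_apply,
            hh] at this
          exact this
        have hβD : ∀ w, AtLeast w (-D w) ((β : Place K F → F) w) := fun w =>
          AtLeast.mono (hβ w : AtLeast w (-(0 : Divisor K F) w) ((β : Place K F → F) w)) (by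
            have := Finsupp.le_def.1 hD0 w
            simp only [Finsupp.coe_zero, Pi.zero_apply] at this ⊢
            omega)
        have hh1 : h ∈ riemannRochSpace (D + Finsupp.single v 1) := by
          refine mem_riemannRochSpace.2 fun w => ?_
          rw [show h = (α : Place K F → F) w - (if w = v then a else 0) - (β : Place K F → F) w by
            rw [← hval w]; ring, Finsupp.add_apply]
          rcases eq_or_ne w v with rfl | hw
          · rw [if_pos rfl, show D w = (n : ℤ) from hDv,
              show (Finsupp.single w (1 : ℤ)) w = 1 from Finsupp.single_eq_same]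
            have hn : (Finsupp.single w (n : ℤ)) w = (n : ℤ) ∧ D w = (n : ℤ) :=
              ⟨Finsupp.single_eq_same, hDv⟩
            refine ((AtLeast.mono (hα w : AtLeast w (-D w) _)
              (by omega)).sub
              (Or.inr (by rw [ha]))).sub ((hβD w).mono (by omega))
          · rw [if_neg hw, sub_zero, show (Finsupp.single v (1 : ℤ)) w = 0 from
              Finsupp.single_eq_of_ne hw, add_zero]
            exact AtLeast.sub (hα w : AtLeast w (-D w) _) (hβD w)
        rw [hLeq] at hh1
        have hbad : AtLeast v (-D v) a := by
          have e := hval v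
          rw [if_pos rfl] at e
          rw [show a = (α : Place K F → F) v - (β : Place K F → F) v - h by linear_combination e]
          exact (AtLeast.sub (hα v : AtLeast v (-D v) _) (hβD v)).sub (mem_riemannRochSpace.1 hh1 v)
        rw [atLeast_iff ha0, ha, hDv] at hbad
        omega
      rw [heq]
      haveI := hfin
      refine ⟨inferInstance, ?_⟩
      have hinf := Submodule.finrank_sup_add_finrank_inf_eq (Θ n) (Submodule.span K {M.mkQ δ})
      have hdis : Θ n ⊓ Submodule.span K {M.mkQ δ} = ⊥ := disjoint_iff.1
        ((Submodule.disjoint_span_singleton' fun h0 => hnot (by rw [h0]; exact zero_mem _)).2 hnot)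
      rw [hdis, finrank_bot, add_zero,
        finrank_span_singleton (fun h0 => hnot (by rw [h0]; exact zero_mem _))] at hinf
      rw [hinf, hsucc]
      rw [show ell (D + Finsupp.single v 1) = ell D by rw [ell, ell, hLeq]]
      push_cast
      omega
  obtain ⟨-, h⟩ := key c.toNat
  have hd : Divisor.degree (Finsupp.single v (c.toNat : ℤ)) = c.toNat := by
    rw [Divisor.degree_single, hF.deg_eq_one]; simp
  have htop : Θ c.toNat = ⊤ := by
    have h1 := congrArg (Submodule.map M.mkQ)
      (repartitions_eq_top hF hc (Finsupp.single v (c.toNat : ℤ)) (by rw [hd]; omega))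
    rw [Submodule.map_sup, hP, sup_bot_eq, Submodule.map_top, Submodule.range_mkQ] at h1
    exact h1
  rw [htop, finrank_top, hc _ (by rw [hd]; omega), hd] at h
  rw [genusFF]
  omega

end FA.PicTors

end
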