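import Fermat.Agent.PicTors.Descent
import Fermat.Agent.PicTors.FunctionField
import Fermat.Agent.PicTors.GenusFF
import Mathlib.FieldTheory.PrimitiveElement
import Mathlib.FieldTheory.AlgebraicClosure
import Mathlib.RingTheory.Algebraic.Cardinality

/-!
# Torsion over any algebraically closed field of characteristic zero, from the complex case
-/

set_option autoImplicit false
set_option linter.style.haveILetI false
set_option linter.unusedSectionVars false

noncomputable section

namespace FA.PicTors

open AlgebraicCurve FA.Curve FA.ModField Polynomial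

universe u v

variable {K : Type u} {F : Type v} [Field K] [Field F] [Algebra K F] [CharZero K]

/-- A countable algebraically closed subfield containing given elements. -/
theorem exists_countable_subfield [IsAlgClosed K] {S : Set K} (hS : S.Countable) :
    ∃ k : Subfield K, IsAlgClosed k ∧ Countable k ∧ S ⊆ k := by
  set E := IntermediateField.adjoin ℚ S
  haveI : Countable E := by
    rw [← Cardinal.mk_le_aleph0_iff, ← Cardinal.lift_le_aleph0.{u, 0}]
    refine (IntermediateField.lift_cardinalMk_adjoin_le ℚ S).trans ?_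
    simp only [sup_le_iff, le_refl, and_true, Cardinal.lift_le_aleph0]
    exact ⟨Cardinal.mk_le_aleph0, by rw [Cardinal.le_aleph0_iff_set_countable]; exact hS⟩
  haveI : IsAlgClosure E (algebraicClosure E K) := algebraicClosure.isAlgClosure E K
  haveI : Countable (algebraicClosure E K) := by
    rw [← Cardinal.mk_le_aleph0_iff]
    exact (Algebra.IsAlgebraic.cardinalMk_le_max E (algebraicClosure E K)).trans
      (max_le Cardinal.mk_le_aleph0 le_rfl)
  refine ⟨(algebraicClosure E K).toSubfield, ?_, ?_, fun s hs => ?_⟩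
  · exact (IsAlgClosure.isAlgClosed E : IsAlgClosed (algebraicClosure E K))
  · exact (inferInstance : Countable (algebraicClosure E K))
  · exact (algebraicClosure E K).algebraMap_mem ⟨s, IntermediateField.subset_adjoin ℚ S hs⟩

/-- A plane model over the field itself. -/
theorem exists_plane (hF : IsFunctionField K F) :
    ∃ (x y : F) (Q : K[X][X]), Transcendental K x ∧ Q.Monic ∧ Irreducible Q ∧
      Q.eval₂ (evalX (RingHom.id K) x) y = 0 ∧
      IntermediateField.adjoin K ({x, y} : Set F) = ⊤ := by
  obtain ⟨x, hx, hfin⟩ := id hF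
  haveI := hfin
  haveI : CharZero (IntermediateField.adjoin K ({x} : Set F)) :=
    charZero_of_injective_algebraMap (algebraMap K _).injective
  obtain ⟨y₀, hy₀⟩ := Field.exists_primitive_element (IntermediateField.adjoin K ({x} : Set F)) F
  letI : Algebra K[X] F := (aeval x).toRingHom.toAlgebra
  have hinj : Function.Injective (algebraMap K[X] F) := transcendental_iff_injective.1 hx
  haveI : Module.IsTorsionFree K[X] F := Module.isTorsionFree_iff_algebraMap_injective.2 hinj
  set E := IntermediateField.adjoin K ({x} : Set F)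
  have halg : IsAlgebraic K[X] y₀ := by
    open scoped IntermediateField.algebraAdjoinAdjoin in
    have h1 : IsAlgebraic (Algebra.adjoin K ({x} : Set F)) y₀ :=
      (IsFractionRing.isAlgebraic_iff (Algebra.adjoin K ({x} : Set F)) E F).2
        (Algebra.IsAlgebraic.isAlgebraic y₀)
    have hmem : ∀ p : K[X], aeval x p ∈ Algebra.adjoin K ({x} : Set F) := fun p =>
      aeval_mem_adjoin_singleton K x
    refine h1.of_ringHom_of_comp_eq ((aeval x).toRingHom.codRestrict
      (Algebra.adjoin K ({x} : Set F)) hmem) (RingHom.id F) ?_ Function.injective_id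
      (RingHom.ext fun p => rfl)
    rintro ⟨z, hz⟩
    rw [Algebra.adjoin_singleton_eq_range_aeval] at hz
    obtain ⟨p, hp⟩ := hz
    exact ⟨p, Subtype.ext hp⟩
  obtain ⟨d, hd0, hd⟩ := halg.exists_integral_multiple
  set y := d • y₀ with hy
  have hev : evalX (RingHom.id K) x = algebraMap K[X] F := RingHom.ext fun p => by
    rw [evalX_eq, Polynomial.map_id]; rfl
  refine ⟨x, y, minpoly K[X] y, hx, minpoly.monic hd, minpoly.irreducible hd, ?_, ?_⟩
  · rw [hev]; exact minpoly.aeval K[X] y
  · rw [← IntermediateField.adjoin_simple_adjoin_simple, eq_top_iff]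
    intro z _
    rw [IntermediateField.mem_restrictScalars]
    have hy₀' : y₀ ∈ IntermediateField.adjoin E ({y} : Set F) := by
      have hd' : aeval x d ∈ E :=
        IntermediateField.algebra_adjoin_le_adjoin K _ (aeval_mem_adjoin_singleton K x)
      have e : y₀ = (algebraMap E F ⟨aeval x d, hd'⟩)⁻¹ * y := by
        rw [hy, Algebra.smul_def]
        exact (inv_mul_cancel_left₀ (fun h0 => hd0 (hinj (by rw [map_zero]; exact h0))) y₀).symm
      rw [e]
      exact mul_mem (inv_mem (IntermediateField.algebraMap_mem _ _))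
        (IntermediateField.mem_adjoin_simple_self E y)
    have h1 : z ∈ IntermediateField.adjoin E ({y₀} : Set F) := hy₀ ▸ IntermediateField.mem_top
    exact IntermediateField.adjoin_simple_le_iff.2 hy₀' h1

/-- **The count over any algebraically closed field of characteristic zero.** -/
theorem natCard_torsion_of_functionField [IsAlgClosed K] (hC : CountComplex)
    (hF : IsFunctionField K F) (n : ℕ) (hn : n ≠ 0) :
    Nat.card (Pic0.torsion K F n) = n ^ (2 * FA.Curve.genus K F) := by
  classical
  obtain ⟨x, y, Q, hx, hQ, hirr, hy, hgen⟩ := exists_plane hF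
  set N := n ^ (2 * FA.Curve.genus K F)
  have key : ∀ S : Set K, S.Countable → ∃ R : Set (Pic0.torsion K F n), R.Finite ∧ R.ncard = N ∧
      ∀ (c : Pic0.torsion K F n) (D : Divisor.degZero (K := K) (F := F)), Pic0.mk D = c.1 →
        (∀ P ∈ (D : Divisor K F).support, ∀ z, HasValue P x z → z ∈ S) → c ∈ R := by
    intro S hS
    set S' := S ∪ ⋃ j : ℕ, Set.range (Q.coeff j).coeff
    obtain ⟨k, hk1, hk2, hkS⟩ := exists_countable_subfield (S := S')
      (hS.union (Set.countable_iUnion fun j => Set.countable_range _))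
    haveI := hk1
    haveI := hk2
    set i : k →+* K := k.subtype
    have hlift : Q ∈ Polynomial.lifts (mapRingHom i) := (lifts_iff_coeff_lifts _).2 fun j => by
      obtain ⟨r, hr⟩ := (Polynomial.mem_lifts (f := i) (Q.coeff j)).1
        ((lifts_iff_coeff_lifts _).2 fun l =>
          ⟨⟨_, hkS (Or.inr (Set.mem_iUnion.2 ⟨j, l, rfl⟩))⟩, rfl⟩)
      exact ⟨r, hr⟩
    obtain ⟨Q₁, hQ₁⟩ := (Polynomial.mem_lifts _).1 hlift
    have hQ₁m : Q₁.Monic :=
      monic_of_injective (Polynomial.map_injective i i.injective) (hQ₁ ▸ hQ)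
    have hirr₁ : Irreducible Q₁ :=
      Monic.irreducible_of_irreducible_map (mapRingHom i) Q₁ hQ₁m (hQ₁ ▸ hirr)
    haveI : Fact (Irreducible (fracQ Q₁)) := ⟨irreducible_fracQ hQ₁m hirr₁⟩
    have hy₁ : Q₁.eval₂ (evalX i x) y = 0 := by
      have h1 := hy
      rw [← hQ₁, eval₂_map, evalX_comp, RingHom.id_comp] at h1
      exact h1
    have h : IsExt i (modelHom i hx hy₁) := isExt_modelHom i hx hy₁ hQ₁m hgen
    have hcard := natCard_torsion_model hC hQ₁m hirr₁ n hn
    rw [← h.genus_eq] at hcard
    let g : Pic0.torsion k (MField Q₁) n → Pic0.torsion K F n := fun c => ⟨h.mapPic c.1, by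
      rw [Pic0.mem_torsion, ← map_zsmul, Pic0.mem_torsion.1 c.2, map_zero]⟩
    have hg : Function.Injective g := fun c d e =>
      Subtype.ext (h.mapPic_injective (congrArg Subtype.val e))
    haveI : Finite (Pic0.torsion k (MField Q₁) n) :=
      Nat.finite_of_card_ne_zero (by rw [hcard]; exact pow_ne_zero _ hn)
    refine ⟨Set.range g, Set.finite_range g, ?_, fun c D hD hval => ?_⟩
    · rw [← Nat.card_coe_set_eq, Nat.card_range_of_injective hg]; exact hcard
    obtain ⟨c₀, hc₀⟩ := h.exists_mapPic_eq (D := D) fun P hP => by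
      by_cases hpole : P.ord x < 0
      · exact h.exists_eq_up (g := mX Q₁) (by rw [modelHom_mX]; omega)
      obtain ⟨z, hz⟩ := exists_hasValue hF (Or.inr (not_lt.1 hpole) : AtLeast P 0 x)
      set a : k := ⟨z, hkS (Or.inl (hval P hP z hz))⟩
      have hne : x - algebraMap K F z ≠ 0 := fun e =>
        hx (sub_eq_zero.1 e ▸ isAlgebraic_algebraMap z)
      refine h.exists_eq_up (g := mX Q₁ - algebraMap k (MField Q₁) a) ?_
      rw [map_sub, h.comm, modelHom_mX]
      have := (atLeast_iff hne).1 hz
      show P.ord (x - algebraMap K F z) ≠ 0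
      omega
    rw [hD] at hc₀
    exact ⟨⟨c₀, Pic0.mem_torsion.2 (h.mapPic_injective (by
      rw [map_zsmul, hc₀, map_zero]; exact Pic0.mem_torsion.1 c.2))⟩, Subtype.ext hc₀⟩
  obtain ⟨R₀, hR₀f, hR₀, -⟩ := key ∅ Set.countable_empty
  suffices huniv : R₀ = Set.univ by
    rw [← hR₀, huniv, Set.ncard_univ]
  by_contra hne
  obtain ⟨c, hc⟩ := (Set.ne_univ_iff_exists_notMem _).1 hne
  choose rep hrep using fun c : Pic0.torsion K F n => Pic0.mk_surjective c.1
  let val : Pic0.torsion K F n → Set K := fun d =>
    {z | ∃ P ∈ (rep d : Divisor K F).support, HasValue P x z}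
  have hval : ∀ d, (val d).Finite := fun d => by
    refine Set.Finite.subset ((rep d : Divisor K F).support.finite_toSet.image
      fun P => if hP : ∃ z, HasValue P x z then hP.choose else 0) ?_
    rintro z ⟨P, hP, hz⟩
    have hex : ∃ z, HasValue P x z := ⟨z, hz⟩
    exact ⟨P, hP, by simp only [dif_pos hex]; exact hex.choose_spec.unique hz⟩
  obtain ⟨R, hRf, hR, hRmem⟩ := key (⋃ d ∈ insert c R₀, val d)
    (((hR₀f.insert c).biUnion fun d _ => hval d).countable)
  have hsub : insert c R₀ ⊆ R := fun d hd =>
    hRmem d (rep d) (hrep d) fun P hP z hz => Set.mem_biUnion hd ⟨P, hP, hz⟩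
  have h1 := Set.ncard_le_ncard hsub hRf
  rw [Set.ncard_insert_of_notMem hc hR₀f, hR₀, hR] at h1
  omega

/-- **Torsion of the degree zero class group of a curve, from the complex case.** -/
theorem natCard_torsion_of_countComplex (h : CountComplex) (K : Type u) (F : Type v) [Field K]
    [Field F] [Algebra K F] [IsAlgClosed K] [CharZero K] [IsCurveOver K F]
    [Algebra.EssFiniteType K F] (n : ℕ) (hn : n ≠ 0) :
    Nat.card (Pic0.torsion K F n) = n ^ (2 * genusFF K F) := by
  have hF := isFunctionField_of_curve K F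
  rw [genusFF_eq hF]
  exact natCard_torsion_of_functionField h hF n hn

end FA.PicTors

end
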