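import Fermat.Agent.PicTors.Fibre
import Fermat.Agent.Curve.DualityGenus
import Mathlib.LinearAlgebra.Lagrange

/-!
# The sum of the residues of `φ ψ dx`

If `φ` has at most simple poles, all in unramified fibres of `x` with distinct values of `x`, and
`ψ dx` is regular, the residues `ψ · ((x - u) φ)` at the poles add up to zero.
-/

set_option autoImplicit false
set_option linter.style.haveILetI false
set_option linter.unusedSectionVars false

noncomputable section

namespace FA.PicTors

open AlgebraicCurve FA.Curve FA.ModField Polynomial IntermediateField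

variable {K F : Type*} [Field K] [Field F] [Algebra K F] [IsAlgClosed K] [CharZero K]
  (hF : IsFunctionField K F) {x : F} (hx : Transcendental K x)

include hF hx

theorem ord_eq_one_of_card {u : K} (hcard : (fibre hF x u).card = Module.finrank K⟮x⟯ F)
    {P : Place K F} (hP : P ∈ fibre hF x u) : P.ord (x - algebraMap K F u) = 1 := by
  classical
  have h1 := sum_fibre hF hx u
  rw [← Finset.add_sum_erase _ _ hP] at h1
  have h2 : (((fibre hF x u).erase P).card : ℤ) ≤
      ∑ Q ∈ (fibre hF x u).erase P, Q.ord (x - algebraMap K F u) := by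
    rw [Finset.card_eq_sum_ones, Nat.cast_sum]
    exact Finset.sum_le_sum fun Q hQ => by
      have := (mem_fibre hF).1 (Finset.mem_of_mem_erase hQ)
      push_cast; omega
  rw [Finset.card_erase_of_mem hP, hcard] at h2
  have h3 := (mem_fibre hF).1 hP
  have : 0 < (fibre hF x u).card := Finset.card_pos.2 ⟨P, hP⟩
  omega

theorem hasValue_coe {P : Place K F} {z : K⟮x⟯} {c : K}
    (h : haveI := hF.finiteDimensional hx; HasValue (P.restrict K⟮x⟯) z c) :
    HasValue P (z : F) c := by
  haveI := hF.finiteDimensional hx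
  rcases h with h | h
  · refine Or.inl ?_
    have := congrArg (fun a : K⟮x⟯ => (a : F)) h
    exact this
  · refine Or.inr ?_
    have e : (z : F) - algebraMap K F c = ((z - algebraMap K K⟮x⟯ c : K⟮x⟯) : F) := rfl
    rw [e, ord_coe hF hx]
    have := P.ramificationIndex_pos (F := K⟮x⟯)
    have h1 : (1 : ℤ) ≤ P.ramificationIndex K⟮x⟯ := by exact_mod_cast this
    nlinarith

/-- Over an unramified value the trace takes the sum of the values. -/
theorem hasValue_trX_of_single {u : K} (hcard : (fibre hF x u).card = Module.finrank K⟮x⟯ F)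
    {P₀ : Place K F} (hP₀ : P₀ ∈ fibre hF x u) {g : F} {c : K} (hc : HasValue P₀ g c)
    (hg : ∀ Q ∈ fibre hF x u, Q ≠ P₀ → AtLeast Q 1 g) :
    HasValue P₀ (trX K x g) c := by
  classical
  haveI := hF.finiteDimensional hx
  haveI := hasPrincipalDivisors hF
  set E := K⟮x⟯
  have hE := isFunctionField_simple hx (F := F)
  set v := P₀.restrict E
  have hu : x - algebraMap K F u ∈ E :=
    sub_mem (mem_adjoin_simple_self K x) (E.algebraMap_mem u)
  have hfib : ∀ Q, Q ∈ v.fiber F ↔ Q ∈ fibre hF x u := fun Q => by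
    rw [mem_fibre]
    exact (restrict_of_pos hF hx hu (adjoin_sub_eq x u) (w := Q) ((mem_fibre hF).1 hP₀)).2
  set T := fibre hF x u
  choose e he using fun R : Place K F =>
    exists_approx T (fun Q => if Q = R then (1 : F) else 0) 1
  have he1 : ∀ R ∈ T, HasValue R (e R) 1 := fun R hR => by
    have := he R R hR
    rwa [if_pos rfl, ← map_one (algebraMap K F)] at this
  have he0 : ∀ R, ∀ Q ∈ T, Q ≠ R → AtLeast Q 1 (e R) := fun R Q hQ hne => by
    have := he R Q hQ
    rwa [if_neg hne, sub_zero] at this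
  have hr : ∀ R : T, ∃ r : ℕ, 0 < r ∧ HasValue v (Algebra.trace E F (e R)) (r : K) := fun R =>
    hasValue_trace_indicator hE hF ((hfib R).2 R.2) (he1 R R.2)
      fun Q hQ hne => he0 R Q ((hfib Q).1 hQ) hne
  choose r hrpos hr using hr
  have hz : ∀ g : F, (∀ Q ∈ T, AtLeast Q 1 g) → HasValue v (Algebra.trace E F g) 0 := fun g hg =>
    hasValue_zero_iff.2 (atLeast_one_trace hE hF fun Q hQ => hg Q ((hfib Q).1 hQ))
  -- all multiplicities are one
  have hsum : ∑ R : T, r R = Module.finrank E F := by
    have h1 : ∀ Q ∈ T, AtLeast Q 1 ((∑ R : T, e R) - 1) := fun Q hQ => by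
      rw [← Finset.add_sum_erase _ _ (Finset.mem_univ (⟨Q, hQ⟩ : T)), add_sub_right_comm]
      refine AtLeast.add (by have := he1 Q hQ; rwa [HasValue, map_one] at this)
        (atLeast_sum fun R hR => he0 R Q hQ fun h => ?_)
      exact (Finset.mem_erase.1 hR).1 (Subtype.ext h.symm)
    have h2 : HasValue v (Algebra.trace E F (∑ R : T, e R)) (∑ R : T, (r R : K)) := by
      rw [map_sum]; exact HasValue.finsetSum fun R _ => hr R
    have h3 : Algebra.trace E F (1 : F) = algebraMap K E (Module.finrank E F : K) := by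
      rw [← map_one (algebraMap E F), Algebra.trace_algebraMap, nsmul_one, map_natCast]
    have h4 := hz _ h1
    rw [map_sub, h3] at h4
    have h5 := h2.unique (by simpa using h4.add (hasValue_algebraMap v (Module.finrank E F : K)))
    exact_mod_cast h5
  have hone : ∀ R : T, r R = 1 := by
    intro R
    have h1 : ∑ R : T, r R ≤ ∑ _R : T, 1 := by
      rw [hsum, Finset.sum_const, smul_eq_mul, mul_one, Finset.card_univ, Fintype.card_coe, hcard]
    exact ((Finset.sum_eq_sum_iff_of_le fun R _ => hrpos R).1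
      (le_antisymm (Finset.sum_le_sum fun R _ => hrpos R) h1) R (Finset.mem_univ R)).symm
  -- the value
  have hg' : ∀ Q ∈ T, AtLeast Q 1 (g - algebraMap K F c * e P₀) := by
    intro Q hQ
    rcases eq_or_ne Q P₀ with rfl | hne
    · have := hc.sub ((he1 Q hQ).smul c)
      rwa [mul_one, sub_self, hasValue_zero_iff] at this
    · exact (hg Q hQ hne).sub ((he0 P₀ Q hQ hne).smul c)
  have h1 : HasValue v (Algebra.trace E F g) c := by
    have h := hz _ hg'
    have e1 : Algebra.trace E F (algebraMap K F c * e P₀) =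
        algebraMap K E c * Algebra.trace E F (e P₀) := by
      rw [IsScalarTower.algebraMap_apply K E F, ← Algebra.smul_def, map_smul, smul_eq_mul]
    rw [map_sub, e1] at h
    have h2 := h.add ((hr ⟨P₀, hP₀⟩).smul c)
    rw [sub_add_cancel, zero_add, hone, Nat.cast_one, mul_one] at h2
    exact h2
  exact hasValue_coe hF hx h1

/-- **The residues add up to zero.** -/
theorem sum_res_eq_zero {ψ φ : F} (hψ : IsRegDiff K x ψ) (S : Finset (Place K F))
    (u v r : Place K F → K) (hu : ∀ P ∈ S, HasValue P x (u P))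
    (hinj : Set.InjOn u S)
    (hcard : ∀ P ∈ S, (fibre hF x (u P)).card = Module.finrank K⟮x⟯ F)
    (hφ : ∀ Q ∉ S, AtLeast Q 0 φ) (hφS : ∀ P ∈ S, AtLeast P (-1) φ)
    (hv : ∀ P ∈ S, HasValue P ψ (v P))
    (hr : ∀ P ∈ S, HasValue P ((x - algebraMap K F (u P)) * φ) (r P)) :
    ∑ P ∈ S, r P * v P = 0 := by
  classical
  have hx0 : x ≠ 0 := fun h => hx (h ▸ isAlgebraic_zero)
  set N := Lagrange.nodal S u with hN
  have hNfac : ∀ Q : Place K F, ∀ c, HasValue Q x c → HasValue Q (aeval x N) (N.eval c) :=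
    fun Q c h => h.aeval N
  set b := S.card
  have hT : aeval x N * φ ∈ regSub (K := K) x := by
    intro Q hQ
    obtain ⟨c, hc⟩ := exists_hasValue hF (Or.inr hQ : AtLeast Q 0 x)
    by_cases hQS : Q ∈ S
    · have h0 : HasValue Q (aeval x N) 0 := by
        have := hNfac Q (u Q) (hu Q hQS)
        rwa [hN, Lagrange.eval_nodal_at_node hQS] at this
      exact ((hasValue_zero_iff.1 h0).mul (hφS Q hQS)).mono (by norm_num)
    · simpa using (hNfac Q c hc).atLeast.mul (hφ Q hQS)
  obtain ⟨p, hp⟩ := (hψ.isDual hF hx).1 _ hT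
  have hTinf : x⁻¹ ^ b * (aeval x N * φ) ∈ regSub (K := K) x⁻¹ := by
    intro Q hQ
    rcases eq_or_lt_of_le (show Q.ord x ≤ 0 by rw [Q.ord_inv] at hQ; omega) with h0 | h0
    · simpa [place_ord_pow, Q.ord_inv, h0] using
        (atLeast_ord (v := Q) (x⁻¹ ^ b)).mul (hT Q h0.ge)
    · have hQS : Q ∉ S := fun h => by
        have := (atLeast_iff hx0).1 (hu Q h).atLeast
        omega
      refine (((atLeast_ord (v := Q) (x⁻¹ ^ b))).mul ((atLeast_ord (aeval x N)).mul (hφ Q hQS))).mono ?_
      rw [place_ord_pow, Q.ord_inv, ord_aeval_of_neg hF hx h0 Lagrange.nodal_ne_zero,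
        Lagrange.natDegree_nodal]
      simp only [b]
      linarith
  obtain ⟨q, hq⟩ := (hψ.isDual hF hx).2 _ hTinf
  have hpoly : aeval x p = x ^ b * (x⁻¹ ^ 2 * aeval x⁻¹ q) := by
    rw [← hq, mul_left_comm ψ, trX_mul_of_mem
      (pow_mem (inv_mem (mem_adjoin_simple_self K x)) _), hp, ← mul_assoc, ← mul_pow,
      mul_inv_cancel₀ hx0, one_pow, one_mul]
  have hdeg : p = 0 ∨ p.natDegree + 2 ≤ b := by
    rcases eq_or_ne p 0 with h0 | h0
    · exact Or.inl h0
    right
    obtain ⟨Q, hQ⟩ := exists_ord_neg hF hx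
    have h1 := ord_aeval_of_neg hF hx hQ h0
    have hp0 : aeval x p ≠ 0 := fun h => h0 (transcendental_iff.1 hx p h)
    have h2 : AtLeast Q (((b : ℤ) - 2) * Q.ord x) (aeval x p) := by
      rw [hpoly]
      refine ((atLeast_ord (v := Q) (x ^ b)).mul ((atLeast_ord (x⁻¹ ^ 2)).mul
        ((hasValue_zero_of_pos (by rw [Q.ord_inv]; omega) : HasValue Q x⁻¹ 0).aeval q).atLeast)).mono
        (le_of_eq ?_)
      rw [place_ord_pow, place_ord_pow, Q.ord_inv]
      push_cast; ring
    rw [atLeast_iff hp0, h1] at h2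
    have : (p.natDegree : ℤ) + 2 ≤ b := by nlinarith
    exact_mod_cast this
  have hval : ∀ P ∈ S, p.eval (u P) = r P * v P * ∏ Q ∈ S.erase P, (u P - u Q) := by
    intro P hP
    have hPf : P ∈ fibre hF x (u P) :=
      (mem_fibre hF).2 ((hasValue_iff_pos hx).1 (hu P hP))
    refine ((hu P hP).aeval p).unique ?_
    rw [← hp]
    refine hasValue_trX_of_single hF hx (hcard P hP) hPf ?_ fun Q hQ hne => ?_
    · rw [hN, Lagrange.nodal_eq_mul_nodal_erase hP, map_mul, map_sub, aeval_X, aeval_C,
        show ψ * ((x - algebraMap K F (u P)) * aeval x (Lagrange.nodal (S.erase P) u) * φ) =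
          ((x - algebraMap K F (u P)) * φ) * ψ * aeval x (Lagrange.nodal (S.erase P) u) by ring]
      have := ((hr P hP).mul (hv P hP)).mul ((hu P hP).aeval (Lagrange.nodal (S.erase P) u))
      rwa [Lagrange.eval_nodal] at this
    · have hQx := hasValue_of_mem_fibre hF hQ
      have hQS : Q ∉ S := fun h => hne (hinj h hP ((hu Q h).unique hQx))
      have h0 : HasValue Q (aeval x N) 0 := by
        have := hNfac Q (u P) hQx
        rwa [hN, Lagrange.eval_nodal_at_node hP] at this
      have hψQ : AtLeast Q 0 ψ := by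
        have := hψ.1 Q (u P) hQx
        rwa [ord_eq_one_of_card hF hx (hcard P hP) hQ, sub_self] at this
      exact (hψQ.mul ((hasValue_zero_iff.1 h0).mul (hφ Q hQS))).mono (by norm_num)
  rcases hdeg with rfl | hdeg
  · refine Finset.sum_eq_zero fun P hP => ?_
    have := hval P hP
    rw [eval_zero, eq_comm, mul_eq_zero] at this
    refine this.resolve_right (Finset.prod_ne_zero_iff.2 fun Q hQ => sub_ne_zero.2 fun h => ?_)
    exact (Finset.mem_erase.1 hQ).1 (hinj hP (Finset.mem_of_mem_erase hQ) h).symm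
  have hb : 0 < b := by omega
  have hlt : p.degree < b := lt_of_le_of_lt degree_le_natDegree (by exact_mod_cast (by omega : p.natDegree < b))
  have h := Lagrange.coeff_eq_sum hinj hlt
  rw [coeff_eq_zero_of_natDegree_lt (by omega)] at h
  rw [h]
  refine Finset.sum_congr rfl fun P hP => ?_
  rw [hval P hP, mul_div_assoc, div_self, mul_one]
  exact Finset.prod_ne_zero_iff.2 fun Q hQ => sub_ne_zero.2 fun h' =>
    (Finset.mem_erase.1 hQ).1 (hinj hP (Finset.mem_of_mem_erase hQ) h').symm

end FA.PicTors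

end
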