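import Fermat.Agent.PicTors.System
import Fermat.Agent.PicTors.Residue
import Mathlib.Analysis.Calculus.MeanValue

/-!
# Abel's theorem, locally

When points move in a linear system the sum of the local integrals of a regular differential is
constant: its derivative is a sum of residues.
-/

set_option autoImplicit false
set_option linter.style.haveILetI false
set_option linter.unusedSectionVars false

noncomputable section

namespace FA.PicTors

open AlgebraicCurve FA.Curve FA.ModField Filter Polynomial IntermediateField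
open scoped Topology

variable {F : Type} [Field F] [Algebra ℂ F] {ι : Type} [Fintype ι] {x : F} {a : ι → ℂ}
  {γ : ι → ℂ → Place ℂ F} (hF : IsFunctionField ℂ F) (h : IsFamily (fun _ => x) a γ)
  {κ : Type} [Fintype κ] {φ : κ → F} {H : ι → κ → ℂ → ℂ} {U : (κ → ℂ) → ι → ℂ}

include h in
/-- **Abel's theorem, locally.** -/
theorem Sys.abel (hx : Transcendental ℂ x)
    (hs : Sys (t := fun _ => x) (a := a) (γ := γ) hF φ H U)
    (hφ : ∀ k, φ k ∈ riemannRochSpace (sumPts fun i => γ i (a i)))
    (ha : Function.Injective a)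
    (hcard : ∀ i, ∀ᶠ s in 𝓝 (a i), (fibre hF x s).card = Module.finrank ℂ⟮x⟯ F)
    {ψ : F} (hψ : IsRegDiff ℂ x ψ) (J Φ : ι → ℂ → ℂ)
    (hJ : ∀ i, ∀ᶠ s in 𝓝 (a i), HasValue (γ i s) ψ (J i s))
    (hΦ : ∀ i, ∀ᶠ s in 𝓝 (a i), HasDerivAt (Φ i) (J i s) s) :
    ∀ᶠ c in 𝓝 0, ∑ i, Φ i (U c i) = ∑ i, Φ i (a i) := by
  classical
  set B := sumPts fun i => γ i (a i)
  set D : (κ → ℂ) → ι → ℂ := fun c i => 1 + ∑ k, c k * deriv (H i k) (U c i)
  have hUt : Tendsto U (𝓝 0) (𝓝 a) := by
    have := hs.an.continuousAt.tendsto; rwa [hs.zero] at this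
  have hUi : ∀ i, Tendsto (fun c => U c i) (𝓝 0) (𝓝 (a i)) := fun i =>
    ((continuous_apply i).tendsto a).comp hUt
  have hD : ∀ i, ∀ᶠ c in 𝓝 (0 : κ → ℂ), D c i ≠ 0 := fun i => by
    have hc : ContinuousAt (fun c => D c i) 0 := by
      refine continuousAt_const.add (tendsto_finsetSum _ fun k _ => ?_)
      exact ((continuous_apply k).continuousAt).mul
        (((hs.anH i k).self_of_nhds.deriv.continuousAt.tendsto).comp (hUi i) |> fun h' => by
          show Tendsto (fun c => deriv (H i k) (U c i)) (𝓝 0) (𝓝 (deriv (H i k) (U 0 i)))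
          rw [hs.zero]; exact h')
    exact hc.eventually_ne (by simp [D])
  have hgood : ∀ᶠ c in 𝓝 (0 : κ → ℂ), AnalyticAt ℂ U c ∧
      (∀ᶠ c' in 𝓝 c, ∀ i, U c' i - a i + ∑ k, c' k * H i k (U c' i) = 0) ∧
      (∀ i, D c i ≠ 0) ∧ (∀ i k, AnalyticAt ℂ (H i k) (U c i)) ∧
      (∀ i k, ∀ᶠ s in 𝓝 (U c i), HasValue (γ i s) ((x - algebraMap ℂ F (a i)) * φ k) (H i k s)) ∧
      ((1 + ∑ k, algebraMap ℂ F (c k) * φ k) ≠ 0 ∧
        divOf hF (1 + ∑ k, algebraMap ℂ F (c k) * φ k) + B = sumPts fun i => γ i (U c i)) ∧
      ((∀ i, IsArc x (U c i) (γ i)) ∧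
        (∀ i j, i ≠ j → γ i (U c i) ≠ γ j (U c j) ∧ γ i (U c i) ≠ γ j (a j)) ∧
        ∀ i, HasValue (γ i (U c i)) x (U c i)) ∧
      (∀ i j, i ≠ j → U c i ≠ U c j) ∧
      (∀ i, (fibre hF x (U c i)).card = Module.finrank ℂ⟮x⟯ F) ∧
      (∀ i, HasValue (γ i (U c i)) ψ (J i (U c i))) ∧
      ∀ i, HasDerivAt (Φ i) (J i (U c i)) (U c i) := by
    refine hs.an.eventually_analyticAt.and (hs.root.eventually_nhds.and ((eventually_all.2 hD).and
      ((eventually_all.2 fun i => eventually_all.2 fun k => (hUi i).eventually (hs.anH i k)).and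
      ((eventually_all.2 fun i => eventually_all.2 fun k =>
          (hUi i).eventually (hs.valH i k).eventually_nhds).and
      (hs.div.and ((hUt.eventually (h.eventually_sep hF)).and
      ((eventually_all.2 fun i => eventually_all.2 fun j => ?_).and
      ((eventually_all.2 fun i => (hUi i).eventually (hcard i)).and
      ((eventually_all.2 fun i => (hUi i).eventually (hJ i)).and
      (eventually_all.2 fun i => (hUi i).eventually (hΦ i)))))))))))
    by_cases hij : i = j
    · exact Eventually.of_forall fun c h' => absurd hij h'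
    · filter_upwards [((hUi i).sub (hUi j)).eventually_ne
        (sub_ne_zero.2 fun e => hij (ha e))] with c hc _
      exact sub_ne_zero.1 hc
  obtain ⟨ρ, hρ, hball⟩ := Metric.eventually_nhds_iff_ball.1 hgood
  have hderiv : ∀ c ∈ Metric.ball (0 : κ → ℂ) ρ,
      HasFDerivAt (fun c => ∑ i, Φ i (U c i)) (0 : (κ → ℂ) →L[ℂ] ℂ) c := by
    intro c hc
    obtain ⟨hUan, hroot, hDc, hHan, hHval, ⟨hf0, hdiv⟩, ⟨harc, hsep, hxv⟩, hinj, hcardc, hJc, hΦc⟩ :=
      hball c hc
    set dU : ι → (κ → ℂ) →L[ℂ] ℂ := fun i =>
      fderiv ℂ (fun c => U c i) c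
    have hdU : ∀ i, HasFDerivAt (fun c => U c i) (dU i) c := fun i =>
      (((ContinuousLinearMap.proj i : (ι → ℂ) →L[ℂ] ℂ).analyticAt _).comp hUan).differentiableAt.hasFDerivAt
    have hlin : ∀ i (δ : κ → ℂ), D c i * dU i δ + ∑ k, δ k * H i k (U c i) = 0 := by
      intro i δ
      have h1 : HasFDerivAt (fun c' => U c' i - a i + ∑ k, c' k * H i k (U c' i))
          (dU i + ∑ k, (c k • (deriv (H i k) (U c i) • dU i) +
            H i k (U c i) • (ContinuousLinearMap.proj k : (κ → ℂ) →L[ℂ] ℂ))) c := by
        refine ((hdU i).sub_const (a i)).add (HasFDerivAt.fun_sum fun k _ => ?_)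
        exact (ContinuousLinearMap.proj k : (κ → ℂ) →L[ℂ] ℂ).hasFDerivAt.mul
          ((hHan i k).differentiableAt.hasDerivAt.comp_hasFDerivAt c (hdU i))
      have h2 := (h1.congr_of_eventuallyEq (hroot.mono fun c' hc' => (hc' i).symm)).unique
        (hasFDerivAt_const (0 : ℂ) c)
      have h3 := DFunLike.congr_fun h2 δ
      simp only [add_apply, sum_apply, smul_apply,
        ContinuousLinearMap.proj_apply, smul_eq_mul, zero_apply] at h3
      rw [← h3]
      simp only [D, Finset.sum_add_distrib, add_mul, one_mul, Finset.sum_mul, mul_assoc]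
      rw [add_assoc]
      congr 2
      exact Finset.sum_congr rfl fun k _ => mul_comm _ _
    -- the residues
    set f := 1 + ∑ k, algebraMap ℂ F (c k) * φ k with hf
    set Q := fun i => γ i (U c i)
    have hQinj : Function.Injective Q := fun i j e => by
      by_contra hne; exact (hsep i j hne).1 e
    have hfd : ∀ R, R.ord f + B R = sumPts Q R := fun R => by
      have := DFunLike.congr_fun hdiv R
      rwa [Finsupp.add_apply, divOf_apply] at this
    have hres : ∀ k i, HasValue (Q i) ((x - algebraMap ℂ F (U c i)) * (φ k / f))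
        (H i k (U c i) / D c i) := by
      intro k i
      set s₀ := U c i
      have hx0 := ne_sub_const (harc i).trans s₀
      have hxa := ne_sub_const (harc i).trans (a i)
      set g := (x - algebraMap ℂ F (a i)) * f with hg
      have hg0 : g ≠ 0 := mul_ne_zero hxa hf0
      have hgord : (Q i).ord g = 1 := by
        rw [hg, (Q i).ord_mul hxa hf0]
        have h1 := hfd (Q i)
        rw [sumPts_apply_of_inj hQinj] at h1
        by_cases e : U c i = a i
        · have hB1 : B (Q i) = 1 := by
            rw [show Q i = γ i (a i) by simp only [Q, e]]; exact sumPts_apply_of_inj h.inj i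
          have hord := (h.arc_self i).simple.self_of_nhds.2
          rw [show Q i = γ i (a i) by simp only [Q, e]] at h1 hB1 ⊢
          rw [hord]; omega
        · have hB0 : B (Q i) = 0 := sumPts_apply_of_notMem fun j => by
            by_cases hij : j = i
            · subst hij
              intro e'
              have h2 := (h.arc_self j).simple.self_of_nhds.1
              rw [e'] at h2
              exact e ((hxv j).unique h2)
            · exact fun e' => (hsep i j (Ne.symm hij)).2 e'.symm
          rw [(((hxv i).sub (hasValue_algebraMap _ (a i))).ord_eq_zero (sub_ne_zero.2 e)).2]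
          omega
      set q := (x - algebraMap ℂ F s₀) * g⁻¹ with hq
      have hqreg : AtLeast (γ i s₀) 0 q := Or.inr (by
        rw [hq, (γ i s₀).ord_mul hx0 (inv_ne_zero hg0), (γ i s₀).ord_inv,
          show (γ i s₀).ord g = 1 from hgord, (harc i).simple.self_of_nhds.2]
        simp)
      obtain ⟨R, hR, hRv⟩ := (harc i).analytic q hqreg
      set G : ℂ → ℂ := fun s => s - a i + ∑ l, c l * H i l s
      have hGd : HasDerivAt G (D c i) s₀ := by
        refine ((hasDerivAt_id s₀).sub_const _).add (HasDerivAt.fun_sum fun l _ => ?_)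
        exact ((hHan i l).differentiableAt.hasDerivAt).const_mul (c l)
      have hG0 : G s₀ = 0 := hroot.self_of_nhds i
      have heq : ∀ᶠ s in 𝓝 s₀, R s * G s = s - s₀ := by
        filter_upwards [hRv, (harc i).simple, eventually_all.2 fun l => hHval i l] with s hs hsx hsH
        have hgs : HasValue (γ i s) g (G s) := by
          have h1 := (hsx.1.sub (hasValue_algebraMap _ (a i))).add
            (HasValue.finsetSum (s := Finset.univ) fun l _ => (hsH l).smul (c l))
          convert h1 using 1
          rw [hg, hf, mul_add, mul_one, Finset.mul_sum]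
          congr 1
          exact Finset.sum_congr rfl fun l _ => by ring
        have h2 := hs.mul hgs
        rw [hq, mul_assoc, inv_mul_cancel₀ hg0, mul_one] at h2
        exact h2.unique (hsx.1.sub (hasValue_algebraMap _ s₀))
      have hRD : R s₀ * D c i = 1 := by
        have h1 := (hR.differentiableAt.hasDerivAt.mul hGd)
        rw [hG0, mul_zero, zero_add] at h1
        exact (h1.congr_of_eventuallyEq (heq.mono fun s hs => hs.symm)).unique
          ((hasDerivAt_id s₀).sub_const s₀)
      have h3 := hRv.self_of_nhds.mul (hHval i k).self_of_nhds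
      rw [show H i k s₀ / D c i = R s₀ * H i k s₀ by rw [eq_inv_of_mul_eq_one_left hRD]; ring]
      convert h3 using 1
      rw [hq, hg]
      field_simp
    have hsum0 : ∀ k, ∑ i, J i (U c i) * (H i k (U c i) / D c i) = 0 := by
      intro k
      have hmem : ∀ P ∈ Finset.univ.image Q, ∃ i, Q i = P := fun P hP => by
        obtain ⟨i, -, hi⟩ := Finset.mem_image.1 hP
        exact ⟨i, hi⟩
      have hBr : ∀ R, AtLeast R (-B R) (φ k) := mem_riemannRochSpace.1 (hφ k)
      have hdivk : ∀ R, AtLeast R (-sumPts Q R) (φ k / f) := fun R => by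
        rw [div_eq_mul_inv]
        refine ((hBr R).mul (atLeast_ord f⁻¹)).mono ?_
        rw [R.ord_inv]
        have := hfd R
        omega
      have hres0 := sum_res_eq_zero hF hx hψ (φ := φ k / f) (Finset.univ.image Q)
        (Function.extend Q (U c) 0) (Function.extend Q (fun i => J i (U c i)) 0)
        (Function.extend Q (fun i => H i k (U c i) / D c i) 0)
        (fun P hP => by
          obtain ⟨i, rfl⟩ := hmem P hP
          rw [hQinj.extend_apply]; exact hxv i)
        (fun P hP P' hP' e => by
          obtain ⟨i, rfl⟩ := hmem P hP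
          obtain ⟨j, rfl⟩ := hmem P' hP'
          rw [hQinj.extend_apply, hQinj.extend_apply] at e
          by_contra hne
          exact hinj i j (fun e' => hne (e' ▸ rfl)) e)
        (fun P hP => by
          obtain ⟨i, rfl⟩ := hmem P hP
          rw [hQinj.extend_apply]; exact hcardc i)
        (fun R hR => by
          have := hdivk R
          rwa [sumPts_apply_of_notMem fun i e => hR (Finset.mem_image.2 ⟨i, Finset.mem_univ i, e⟩),
            neg_zero] at this)
        (fun P hP => by
          obtain ⟨i, rfl⟩ := hmem P hP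
          have := hdivk (Q i)
          rwa [sumPts_apply_of_inj hQinj] at this)
        (fun P hP => by
          obtain ⟨i, rfl⟩ := hmem P hP
          rw [hQinj.extend_apply]; exact hJc i)
        (fun P hP => by
          obtain ⟨i, rfl⟩ := hmem P hP
          rw [hQinj.extend_apply, hQinj.extend_apply]; exact hres k i)
      rw [Finset.sum_image hQinj.injOn] at hres0
      simp only [hQinj.extend_apply] at hres0
      simpa [mul_comm] using hres0
    have hΦd : HasFDerivAt (fun c => ∑ i, Φ i (U c i)) (∑ i, J i (U c i) • dU i) c :=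
      HasFDerivAt.fun_sum fun i _ => (hΦc i).comp_hasFDerivAt c (hdU i)
    refine hΦd.congr_fderiv (ContinuousLinearMap.ext fun δ => ?_)
    simp only [sum_apply, smul_apply, smul_eq_mul,
      zero_apply]
    have e : ∀ i, dU i δ = -∑ k, δ k * (H i k (U c i) / D c i) := fun i => by
      refine mul_left_cancel₀ (hDc i) ?_
      rw [mul_neg, Finset.mul_sum, eq_neg_iff_add_eq_zero]
      convert hlin i δ using 2
      exact Finset.sum_congr rfl fun k _ => by field_simp [hDc i]
    simp only [e, mul_neg, Finset.mul_sum, Finset.sum_neg_distrib]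
    rw [Finset.sum_comm, neg_eq_zero]
    refine Finset.sum_eq_zero fun k _ => ?_
    rw [show ∑ i, J i (U c i) * (δ k * (H i k (U c i) / D c i)) =
      δ k * ∑ i, J i (U c i) * (H i k (U c i) / D c i) by
        rw [Finset.mul_sum]; exact Finset.sum_congr rfl fun i _ => by ring, hsum0, mul_zero]
  filter_upwards [Metric.ball_mem_nhds (0 : κ → ℂ) hρ] with c hc
  have hcst := (Metric.isOpen_ball).is_const_of_fderiv_eq_zero (convex_ball (0 : κ → ℂ) ρ).isPreconnected
    (f := fun c => ∑ i, Φ i (U c i)) (fun c hc => (hderiv c hc).differentiableAt.differentiableWithinAt)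
    (fun c hc => (hderiv c hc).fderiv) hc (Metric.mem_ball_self hρ)
  simpa [hs.zero] using hcst

end FA.PicTors

end
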