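import Fermat.Agent.Curve.TraceLocal
import Mathlib.Topology.Compactification.OnePoint.Basic
import Mathlib.Analysis.Complex.Basic

/-!
# The compact space of places of a function field over `ℂ`

A place is determined by the values of all functions in `ℂ ∪ {∞}`; the set of these value maps is
closed in the product, so the space of places is compact Hausdorff.
-/

set_option autoImplicit false
set_option linter.style.haveILetI false
set_option linter.unusedSectionVars false

noncomputable section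

namespace FA.PicTors

open AlgebraicCurve FA.Curve FA.ModField Filter Set
open scoped Topology OnePoint

variable {F : Type} [Field F] [Algebra ℂ F]

open Classical in
/-- The value of a function at a place. -/
def val (P : Place ℂ F) (f : F) : OnePoint ℂ :=
  if h : ∃ c, HasValue P f c then (h.choose : OnePoint ℂ) else ∞

theorem val_of_hasValue {P : Place ℂ F} {f : F} {c : ℂ} (h : HasValue P f c) : val P f = c := by
  have h' : ∃ c, HasValue P f c := ⟨c, h⟩
  rw [val, dif_pos h', h'.choose_spec.unique h]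

theorem hasValue_of_val {P : Place ℂ F} {f : F} {c : ℂ} (h : val P f = c) : HasValue P f c := by
  unfold val at h
  split_ifs at h with h'
  · exact OnePoint.coe_injective h ▸ h'.choose_spec
  · exact absurd h (OnePoint.infty_ne_coe _)

theorem val_eq_coe_iff {P : Place ℂ F} {f : F} {c : ℂ} : val P f = c ↔ HasValue P f c :=
  ⟨hasValue_of_val, val_of_hasValue⟩

theorem val_algebraMap (P : Place ℂ F) (c : ℂ) : val P (algebraMap ℂ F c) = c :=
  val_of_hasValue (hasValue_algebraMap P c)

theorem val_eq_infty_of {P : Place ℂ F} {f : F} (h : ¬ AtLeast P 0 f) : val P f = ∞ := by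
  rw [val, dif_neg]
  rintro ⟨c, hc⟩
  exact h hc.atLeast

variable (hF : IsFunctionField ℂ F)

include hF in
theorem exists_val_coe {P : Place ℂ F} {f : F} (h : AtLeast P 0 f) : ∃ c : ℂ, val P f = c :=
  (exists_hasValue hF h).imp fun _ => val_of_hasValue

include hF in
theorem atLeast_of_val_ne {P : Place ℂ F} {f : F} (h : val P f ≠ ∞) : AtLeast P 0 f := by
  by_contra h'
  exact h (val_eq_infty_of h')

open Classical in
/-- Inversion on the sphere. -/
def invP (z : OnePoint ℂ) : OnePoint ℂ :=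
  OnePoint.elim z ((0 : ℂ) : OnePoint ℂ) fun c => if c = 0 then ∞ else ((c⁻¹ : ℂ) : OnePoint ℂ)

theorem invP_infty : invP ∞ = ((0 : ℂ) : OnePoint ℂ) := rfl

theorem invP_zero : invP ((0 : ℂ) : OnePoint ℂ) = ∞ := if_pos rfl

theorem invP_coe {c : ℂ} (h : c ≠ 0) : invP (c : OnePoint ℂ) = ((c⁻¹ : ℂ) : OnePoint ℂ) := if_neg h

theorem tendsto_invP_infty : Tendsto invP (𝓝 ∞) (𝓝 ((0 : ℂ) : OnePoint ℂ)) := by
  rw [OnePoint.tendsto_nhds_infty']
  refine ⟨invP_infty ▸ tendsto_pure_nhds invP ∞, ?_⟩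
  rw [coclosedCompact_eq_cocompact]
  have h0 : ∀ᶠ c : ℂ in cocompact ℂ, c ≠ 0 := by
    refine mem_cocompact.2 ⟨{0}, isCompact_singleton, fun c hc => ?_⟩
    simpa using hc
  have h1 : Tendsto (fun c : ℂ => ((c⁻¹ : ℂ) : OnePoint ℂ)) (cocompact ℂ)
      (𝓝 ((0 : ℂ) : OnePoint ℂ)) := by
    refine (OnePoint.continuous_coe.tendsto _).comp ?_
    rw [← Metric.cobounded_eq_cocompact]
    exact tendsto_inv₀_cobounded
  exact h1.congr' (h0.mono fun c hc => (invP_coe hc).symm)

theorem tendsto_invP_zero : Tendsto invP (𝓝 ((0 : ℂ) : OnePoint ℂ)) (𝓝 ∞) := by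
  rw [OnePoint.nhds_coe_eq, tendsto_map'_iff, OnePoint.hasBasis_nhds_infty.tendsto_right_iff]
  rintro s ⟨-, hs⟩
  obtain ⟨R, hR⟩ := hs.isBounded.exists_norm_le
  filter_upwards [Metric.ball_mem_nhds (0 : ℂ) (ε := 1 / (|R| + 1)) (by positivity)] with c hc
  show invP c ∈ _
  rcases eq_or_ne c 0 with rfl | hc0
  · rw [invP_zero]; exact Or.inr rfl
  rw [invP_coe hc0]
  refine Or.inl ⟨c⁻¹, fun hmem => ?_, rfl⟩
  have h1 := hR _ hmem
  rw [norm_inv] at h1
  rw [mem_ball_zero_iff, lt_div_iff₀ (by positivity)] at hc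
  have h2 : 1 ≤ R * ‖c‖ := (inv_le_iff_one_le_mul₀ (norm_pos_iff.2 hc0)).1 h1
  nlinarith [le_abs_self R, norm_nonneg c]

include hF in
theorem val_inv (P : Place ℂ F) {f : F} (hf : f ≠ 0) : val P f⁻¹ = invP (val P f) := by
  by_cases h : AtLeast P 0 f
  · obtain ⟨c, hc⟩ := exists_hasValue hF h
    rw [val_of_hasValue hc]
    rcases eq_or_ne c 0 with rfl | hc0
    · rw [invP_zero, val_eq_infty_of]
      rw [hasValue_zero_iff, atLeast_iff hf] at hc
      rw [atLeast_iff (inv_ne_zero hf), P.ord_inv]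
      omega
    · rw [invP_coe hc0]
      obtain ⟨-, h0⟩ := hc.ord_eq_zero hc0
      obtain ⟨d, hd⟩ := exists_hasValue hF
        (Or.inr (by rw [P.ord_inv, h0]; simp) : AtLeast P 0 f⁻¹)
      have h1 : c * d = 1 := (hc.mul hd).unique (by
        rw [mul_inv_cancel₀ hf]
        simpa using hasValue_algebraMap P (1 : ℂ))
      rw [val_of_hasValue hd, eq_inv_of_mul_eq_one_right h1]
  · rw [val_eq_infty_of h, invP_infty, val_of_hasValue]
    rw [hasValue_zero_iff, atLeast_iff (inv_ne_zero hf), P.ord_inv]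
    rw [atLeast_iff hf] at h
    omega

/-- The topology of places. -/
scoped instance placeTop : TopologicalSpace (Place ℂ F) :=
  TopologicalSpace.induced val Pi.topologicalSpace

theorem continuous_val (f : F) : Continuous fun P : Place ℂ F => val P f :=
  Continuous.comp (g := fun p : F → OnePoint ℂ => p f) (continuous_apply f)
    (continuous_induced_dom (f := (val : Place ℂ F → F → OnePoint ℂ)))

theorem tendsto_place {α : Type*} {l : Filter α} {γ : α → Place ℂ F} {P : Place ℂ F} :
    Tendsto γ l (𝓝 P) ↔ ∀ f, Tendsto (fun a => val (γ a) f) l (𝓝 (val P f)) := by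
  rw [nhds_induced, tendsto_comap_iff, tendsto_pi_nhds]
  rfl

include hF in
/-- Convergence can be tested on functions regular at the limit. -/
theorem tendsto_place_of_regular {α : Type*} {l : Filter α} {γ : α → Place ℂ F} {P : Place ℂ F}
    (h : ∀ f, AtLeast P 0 f → Tendsto (fun a => val (γ a) f) l (𝓝 (val P f))) :
    Tendsto γ l (𝓝 P) := by
  rw [tendsto_place]
  intro f
  by_cases hf : AtLeast P 0 f
  · exact h f hf
  have hf0 : f ≠ 0 := fun h0 => hf (h0 ▸ atLeast_zero)
  have hi : HasValue P f⁻¹ 0 := by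
    rw [hasValue_zero_iff, atLeast_iff (inv_ne_zero hf0), P.ord_inv]
    rw [atLeast_iff hf0] at hf
    omega
  have h1 := h f⁻¹ hi.atLeast
  rw [val_of_hasValue hi] at h1
  rw [val_eq_infty_of hf]
  have h2 := tendsto_invP_zero.comp h1
  refine h2.congr fun a => ?_
  show invP (val (γ a) f⁻¹) = _
  rw [← val_inv hF _ (inv_ne_zero hf0), inv_inv]

include hF in
theorem val_injective : Function.Injective (val : Place ℂ F → F → OnePoint ℂ) := by
  intro P Q h
  refine Place.ext (SetLike.ext fun f => ?_)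
  rw [← atLeast_zero_iff_mem, ← atLeast_zero_iff_mem]
  have hiff : ∀ R : Place ℂ F, AtLeast R 0 f ↔ val R f ≠ ∞ := fun R =>
    ⟨fun hR h0 => by
      obtain ⟨c, hc⟩ := exists_val_coe hF hR
      exact OnePoint.coe_ne_infty c (hc.symm.trans h0), atLeast_of_val_ne hF⟩
  rw [hiff, hiff, congrFun h f]

include hF in
theorem place_t2 : T2Space (Place ℂ F) := by
  have h : Topology.IsEmbedding (val : Place ℂ F → F → OnePoint ℂ) := ⟨⟨rfl⟩, val_injective hF⟩
  exact h.t2Space

/-- The finite part. -/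
def unc (z : OnePoint ℂ) : ℂ := OnePoint.elim z 0 id

theorem tendsto_unc {a : ℂ} : Tendsto unc (𝓝 (a : OnePoint ℂ)) (𝓝 a) := by
  rw [OnePoint.nhds_coe_eq, tendsto_map'_iff]
  exact tendsto_id

theorem eventually_coe {a : ℂ} :
    ∀ᶠ z in 𝓝 (a : OnePoint ℂ), z = (unc z : OnePoint ℂ) := by
  rw [OnePoint.nhds_coe_eq, eventually_map]
  exact Eventually.of_forall fun _ => rfl

include hF in
theorem isClosed_range_val : IsClosed (range (val : Place ℂ F → F → OnePoint ℂ)) := by
  refine isClosed_iff_frequently.2 fun φ hφ => ?_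
  set l := 𝓝 φ ⊓ 𝓟 (range (val : Place ℂ F → F → OnePoint ℂ))
  haveI : NeBot l := frequently_mem_iff_neBot.1 hφ
  have hev : ∀ᶠ ψ in l, ∃ Q, val Q = ψ := (eventually_principal.2 fun _ h => h).filter_mono inf_le_right
  have hlim : ∀ f, Tendsto (fun ψ : F → OnePoint ℂ => ψ f) l (𝓝 (φ f)) := fun f =>
    ((continuous_apply f).tendsto φ).mono_left inf_le_left
  have hcst : ∀ c, φ (algebraMap ℂ F c) = c := fun c => by
    refine tendsto_nhds_unique (hlim _) (tendsto_const_nhds.congr' ?_)
    filter_upwards [hev] with ψ ⟨Q, hQ⟩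
    rw [← hQ, val_algebraMap]
  have hbin : ∀ (op : ℂ → ℂ → ℂ) (opF : F → F → F), Continuous (fun p : ℂ × ℂ => op p.1 p.2) →
      (∀ (Q : Place ℂ F) f g a b, HasValue Q f a → HasValue Q g b → HasValue Q (opF f g) (op a b)) →
      ∀ f g a b, φ f = (a : ℂ) → φ g = (b : ℂ) → φ (opF f g) = (op a b : ℂ) := by
    intro op opF hc hQop f g a b ha hb
    refine tendsto_nhds_unique (hlim _) ?_
    have h1 : Tendsto (fun ψ : F → OnePoint ℂ => (unc (ψ f), unc (ψ g))) l (𝓝 (a, b)) :=
      (tendsto_unc.comp (ha ▸ hlim f)).prodMk_nhds (tendsto_unc.comp (hb ▸ hlim g))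
    refine ((OnePoint.continuous_coe.tendsto _).comp ((hc.tendsto (a, b)).comp h1)).congr' ?_
    filter_upwards [hev, (ha ▸ hlim f : Tendsto _ l (𝓝 (a : OnePoint ℂ))).eventually eventually_coe,
      (hb ▸ hlim g : Tendsto _ l (𝓝 (b : OnePoint ℂ))).eventually eventually_coe] with ψ ⟨Q, hQ⟩ e1 e2
    subst hQ
    exact (val_of_hasValue (hQop Q f g _ _ (hasValue_of_val e1) (hasValue_of_val e2))).symm
  have hadd := hbin (· + ·) (· + ·) continuous_add fun _ _ _ _ _ h1 h2 => h1.add h2
  have hmul := hbin (· * ·) (· * ·) continuous_mul fun _ _ _ _ _ h1 h2 => h1.mul h2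
  have hinv : ∀ f, φ f = ∞ → φ f⁻¹ = ((0 : ℂ) : OnePoint ℂ) := fun f hf => by
    have hf0 : f ≠ 0 := fun h0 => by
      have := hcst 0
      rw [map_zero, ← h0, hf] at this
      exact OnePoint.infty_ne_coe _ this
    refine tendsto_nhds_unique (hlim _) ?_
    refine (tendsto_invP_infty.comp (hf ▸ hlim f)).congr' ?_
    filter_upwards [hev] with ψ ⟨Q, hQ⟩
    subst hQ
    exact (val_inv hF Q hf0).symm
  -- the valuation ring
  let O : ValuationSubring F :=
    { carrier := {f | φ f ≠ ∞}
      mul_mem' := fun {f g} hf hg => by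
        obtain ⟨a, ha⟩ := OnePoint.ne_infty_iff_exists.1 hf
        obtain ⟨b, hb⟩ := OnePoint.ne_infty_iff_exists.1 hg
        show φ (f * g) ≠ ∞
        rw [hmul f g a b ha.symm hb.symm]; exact OnePoint.coe_ne_infty _
      one_mem' := by
        show φ 1 ≠ ∞
        rw [← map_one (algebraMap ℂ F), hcst]; exact OnePoint.coe_ne_infty _
      add_mem' := fun {f g} hf hg => by
        obtain ⟨a, ha⟩ := OnePoint.ne_infty_iff_exists.1 hf
        obtain ⟨b, hb⟩ := OnePoint.ne_infty_iff_exists.1 hg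
        show φ (f + g) ≠ ∞
        rw [hadd f g a b ha.symm hb.symm]; exact OnePoint.coe_ne_infty _
      zero_mem' := by
        show φ 0 ≠ ∞
        rw [← map_zero (algebraMap ℂ F), hcst]; exact OnePoint.coe_ne_infty _
      neg_mem' := fun {f} hf => by
        obtain ⟨a, ha⟩ := OnePoint.ne_infty_iff_exists.1 hf
        show φ (-f) ≠ ∞
        rw [show -f = algebraMap ℂ F (-1) * f by simp, hmul _ f (-1) a (hcst _) ha.symm]
        exact OnePoint.coe_ne_infty _
      mem_or_inv_mem' := fun f => by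
        by_cases hf : φ f = ∞
        · exact Or.inr (by show φ f⁻¹ ≠ ∞; rw [hinv f hf]; exact OnePoint.coe_ne_infty _)
        · exact Or.inl hf }
  have hmem : ∀ f, f ∈ O ↔ φ f ≠ ∞ := fun f => Iff.rfl
  have hne : O ≠ ⊤ := by
    intro htop
    obtain ⟨x, hx, -⟩ := id hF
    have hall : ∀ f, ∃ a : ℂ, φ f = a := fun f =>
      (OnePoint.ne_infty_iff_exists.1 ((hmem f).1 (htop ▸ ValuationSubring.mem_top f))).imp
        fun _ h => h.symm
    obtain ⟨a, ha⟩ := hall x
    set u := x + algebraMap ℂ F (-a) with hu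
    have hu0 : u ≠ 0 := fun h0 => hx (by
      rw [show x = algebraMap ℂ F a by rw [map_neg] at hu; linear_combination -hu + h0]
      exact isAlgebraic_algebraMap a)
    obtain ⟨b, hb⟩ := hall u⁻¹
    have h1 := hmul u u⁻¹ (a + -a) b (hadd x _ a (-a) ha (hcst _)) hb
    rw [mul_inv_cancel₀ hu0, ← map_one (algebraMap ℂ F), hcst, add_neg_cancel, zero_mul] at h1
    exact one_ne_zero (OnePoint.coe_injective h1)
  refine ⟨toPlace hF O (fun c => (hmem _).2 (by rw [hcst]; exact OnePoint.coe_ne_infty _)) hne,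
    funext fun f => ?_⟩
  set P := toPlace hF O _ hne
  by_cases hf : φ f = ∞
  · rw [hf, val_eq_infty_of]
    rw [atLeast_zero_iff_mem]
    exact fun h => (hmem f).1 h hf
  obtain ⟨a, ha⟩ := OnePoint.ne_infty_iff_exists.1 hf
  obtain ⟨c, hc⟩ := exists_hasValue hF
    (atLeast_zero_iff_mem.2 ((hmem f).2 hf) : AtLeast P 0 f)
  rw [val_of_hasValue hc, ← ha]
  congr 1
  set g := f + algebraMap ℂ F (-c) with hg
  have hga : φ g = ((a + -c : ℂ) : OnePoint ℂ) := hadd f _ a (-c) ha.symm (hcst _)
  by_contra hne'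
  have hg0 : g ≠ 0 := fun h0 => by
    rw [h0, ← map_zero (algebraMap ℂ F), hcst] at hga
    exact hne' (by linear_combination OnePoint.coe_injective hga)
  have hv : HasValue P g 0 := by
    have := hc.add (hasValue_algebraMap P (-c))
    rwa [add_neg_cancel, ← hg] at this
  rw [hasValue_zero_iff, atLeast_iff hg0] at hv
  have hgi : φ g⁻¹ = ∞ := by
    by_contra h
    have := (atLeast_iff (inv_ne_zero hg0)).1
      (atLeast_zero_iff_mem.2 ((hmem _).2 h) : AtLeast P 0 g⁻¹)
    rw [P.ord_inv] at this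
    omega
  have := hinv g⁻¹ hgi
  rw [inv_inv, hga] at this
  exact hne' (by linear_combination -(OnePoint.coe_injective this))

include hF in
theorem place_compact : CompactSpace (Place ℂ F) := by
  refine ⟨(Topology.IsInducing.isCompact_iff (f := (val : Place ℂ F → F → OnePoint ℂ)) ⟨rfl⟩).2 ?_⟩
  rw [image_univ]
  exact (isClosed_range_val hF).isCompact

end FA.PicTors

end
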