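import Mathlib.Analysis.Calculus.InverseFunctionTheorem.ContDiff
import Mathlib.Analysis.Complex.CauchyIntegral
import Mathlib.Analysis.Analytic.Constructions

/-!
# A simple root depends analytically on parameters
-/

set_option autoImplicit false

noncomputable section

namespace FA.PicTors

open Filter
open scoped Topology

variable {E : Type*} [NormedAddCommGroup E] [NormedSpace ℂ E] [CompleteSpace E]

/-- A simple root of an analytic function of `(v, w)` extends to an analytic function of `v`. -/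
theorem exists_analytic_root {G : E × ℂ → ℂ} {a : E} {w : ℂ} (hG : AnalyticAt ℂ G (a, w))
    (h0 : G (a, w) = 0) (hd : deriv (fun z => G (a, z)) w ≠ 0) :
    ∃ φ : E → ℂ, AnalyticAt ℂ φ a ∧ φ a = w ∧ ∀ᶠ v in 𝓝 a, G (v, φ v) = 0 := by
  set L : E × ℂ →L[ℂ] ℂ := fderiv ℂ G (a, w) with hL
  have hLd : HasFDerivAt G L (a, w) := hG.differentiableAt.hasFDerivAt
  set d := L (0, 1) with hddef
  have hd' : d ≠ 0 := by
    have h2 : HasDerivAt (fun z : ℂ => G (a, z)) d w :=
      hLd.comp_hasDerivAt w ((hasDerivAt_const w a).prodMk (hasDerivAt_id w))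
    rwa [h2.deriv] at hd
  have hLsplit : ∀ (v : E) (z : ℂ), L (v, z) = L (v, 0) + z * d := fun v z => by
    have : ((v, z) : E × ℂ) = (v, 0) + z • ((0, 1) : E × ℂ) := by simp
    rw [this, map_add, map_smul, smul_eq_mul, ← hddef]
  let f₁ : E × ℂ →L[ℂ] E × ℂ := (ContinuousLinearMap.fst ℂ E ℂ).prod L
  let f₂ : E × ℂ →L[ℂ] E × ℂ := (ContinuousLinearMap.fst ℂ E ℂ).prod
    (d⁻¹ • (ContinuousLinearMap.snd ℂ E ℂ -
      L.comp ((ContinuousLinearMap.fst ℂ E ℂ).prod (0 : E × ℂ →L[ℂ] ℂ))))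
  let e : (E × ℂ) ≃L[ℂ] E × ℂ := ContinuousLinearEquiv.equivOfInverse f₁ f₂
    (fun x => Prod.ext rfl (by
      show d⁻¹ * (L x - L (x.1, 0)) = x.2
      obtain ⟨v, z⟩ := x
      rw [hLsplit v z]
      field_simp
      ring))
    (fun x => Prod.ext rfl (by
      show L (x.1, d⁻¹ * (x.2 - L (x.1, 0))) = x.2
      rw [hLsplit]
      field_simp
      ring))
  set Φ : E × ℂ → E × ℂ := fun x => (x.1, G x) with hΦdef
  have hΦ : ContDiffAt ℂ ⊤ Φ (a, w) := (analyticAt_fst.prod hG).contDiffAt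
  have hΦ' : HasFDerivAt Φ (e : E × ℂ →L[ℂ] E × ℂ) (a, w) := (hasFDerivAt_fst).prodMk hLd
  have hn : (⊤ : WithTop ℕ∞) ≠ 0 := WithTop.top_ne_zero
  set ψ := hΦ.localInverse hΦ' hn
  have hψa : ψ (a, 0) = (a, w) := by
    have h := hΦ.localInverse_apply_image hΦ' hn
    rwa [show Φ (a, w) = (a, 0) from Prod.ext rfl h0] at h
  have hψan : AnalyticAt ℂ ψ (a, 0) := by
    have h := (hΦ.to_localInverse hΦ' hn).analyticAt
    rwa [show Φ (a, w) = (a, 0) from Prod.ext rfl h0] at h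
  have hev : ∀ᶠ y in 𝓝 (a, (0 : ℂ)), Φ (ψ y) = y := by
    have h := (hΦ.hasStrictFDerivAt' hΦ' hn).eventually_right_inverse
    rwa [show Φ (a, w) = (a, 0) from Prod.ext rfl h0] at h
  refine ⟨fun v => (ψ (v, 0)).2, ?_, by show (ψ (a, 0)).2 = w; rw [hψa], ?_⟩
  · have h : AnalyticAt ℂ (fun v : E => ψ (v, 0)) a :=
      hψan.comp (f := fun v : E => (v, (0 : ℂ))) (analyticAt_id.prod analyticAt_const)
    exact (analyticAt_snd).comp h
  · have hc : Tendsto (fun v : E => (v, (0 : ℂ))) (𝓝 a) (𝓝 (a, 0)) :=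
      (continuous_id.prodMk continuous_const).tendsto a
    filter_upwards [hc.eventually hev] with v hv
    have h1 : (ψ (v, 0)).1 = v := congrArg Prod.fst hv
    have h2 : G (ψ (v, 0)) = 0 := congrArg Prod.snd hv
    rwa [show ψ (v, 0) = (v, (ψ (v, 0)).2) from Prod.ext h1 rfl] at h2

end FA.PicTors

end
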