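import Fermat.Agent.PicTors.Fibre
import Fermat.Agent.PicTors.Points
import Fermat.Agent.PicTors.Root

/-!
# Analytic arcs through a place

Near an unramified value `a` of `t` the fibre consists of `[F : ℂ(t)]` arcs `s ↦ γ s`, along which
every regular function is analytic, and which are homeomorphisms onto neighbourhoods.
-/

set_option autoImplicit false
set_option linter.style.haveILetI false
set_option linter.unusedSectionVars false

noncomputable section

namespace FA.PicTors

open AlgebraicCurve FA.Curve FA.ModField Filter Polynomial IntermediateField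
open scoped Topology

variable {F : Type} [Field F] [Algebra ℂ F]

/-- `γ` parametrises a neighbourhood of `γ a` by the value of `t`. -/
structure IsArc (t : F) (a : ℂ) (γ : ℂ → Place ℂ F) : Prop where
  trans : Transcendental ℂ t
  simple : ∀ᶠ s in 𝓝 a, HasValue (γ s) t s ∧ (γ s).ord (t - algebraMap ℂ F s) = 1
  analytic : ∀ f, AtLeast (γ a) 0 f →
    ∃ H : ℂ → ℂ, AnalyticAt ℂ H a ∧ ∀ᶠ s in 𝓝 a, HasValue (γ s) f (H s)
  map_nhds : Filter.map γ (𝓝 a) = 𝓝 (γ a)

theorem hasValue_inv (hF : IsFunctionField ℂ F) {P : Place ℂ F} {f : F} {c : ℂ}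
    (h : HasValue P f c) (hc : c ≠ 0) : HasValue P f⁻¹ c⁻¹ := by
  refine hasValue_of_val ?_
  rw [val_inv hF P (h.ord_eq_zero hc).1, val_of_hasValue h, invP_coe hc]

theorem analyticAt_eval (p : ℂ[X]) (a : ℂ) : AnalyticAt ℂ (fun s => p.eval s) a :=
  p.differentiable.analyticAt a

variable (hF : IsFunctionField ℂ F)

/-- The arcs over an unramified value. -/
theorem exists_arc_of_sep {t y : F} {a : ℂ} (h : IsSep hF t y a) {P : Place ℂ F}
    (hP : P ∈ fibre hF t a) :
    ∃ γ : ℂ → Place ℂ F, γ a = P ∧ ∀ᶠ a' in 𝓝 a, IsArc t a' γ := by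
  classical
  set n := Module.finrank ℂ⟮t⟯ F with hn
  obtain ⟨q, p, hqa, hrel⟩ := h.exists_relation
  let ι := fibre hF t a
  choose w hw using fun i : ι => exists_hasValue hF (h.reg i i.2)
  have hwinj : Function.Injective w := fun i j hij =>
    Subtype.ext (h.inj i i.2 j j.2 (w i) (hw i) (hij ▸ hw j))
  let G : ℂ × ℂ → ℂ := fun x => q.eval x.1 * x.2 ^ n - ∑ k : Fin n, (p k).eval x.1 * x.2 ^ (k : ℕ)
  have hGan : ∀ x, AnalyticAt ℂ G x := fun x =>
    (((analyticAt_eval q x.1).comp analyticAt_fst).mul (analyticAt_snd.pow n)).sub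
      (Finset.analyticAt_fun_sum _ fun k _ =>
        ((analyticAt_eval (p k) x.1).comp analyticAt_fst).mul (analyticAt_snd.pow k))
  have hG0 : ∀ i : ι, G (a, w i) = 0 := fun i =>
    sub_eq_zero.2 (root_of_relation hrel (hasValue_of_mem_fibre hF i.2) (hw i))
  -- the relation at `a` has simple roots
  set R : ℂ[X] := C (q.eval a) * X ^ n - ∑ k : Fin n, C ((p k).eval a) * X ^ (k : ℕ) with hR
  have hRev : ∀ z, R.eval z = G (a, z) := fun z => by simp [hR, G, eval_finsetSum]
  have hlt : (∑ k : Fin n, C ((p k).eval a) * X ^ (k : ℕ)).degree <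
      (C (q.eval a) * X ^ n).degree := by
    rw [degree_C_mul_X_pow _ hqa]
    exact lt_of_le_of_lt (degree_sum_le _ _) ((Finset.sup_lt_iff (WithBot.bot_lt_coe _)).2
      fun k _ => lt_of_le_of_lt (degree_C_mul_X_pow_le _ _) (by exact_mod_cast k.2))
  have hRdeg : R.degree = n := by
    rw [hR, degree_sub_eq_left_of_degree_lt hlt, degree_C_mul_X_pow _ hqa]
  have hR0 : R ≠ 0 := fun h0 => by simp [h0] at hRdeg
  have hroots : (Finset.univ.image w).val = R.roots := by
    refine Multiset.eq_of_le_of_card_le ((Finset.val_le_iff_val_subset).2 fun z hz => ?_) ?_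
    · obtain ⟨i, -, rfl⟩ := Finset.mem_image.1 hz
      exact (mem_roots hR0).2 ((hRev _).trans (hG0 i))
    · refine le_trans (Polynomial.card_roots' R) ?_
      rw [natDegree_eq_of_degree_eq_some hRdeg]
      show n ≤ (Finset.univ.image w).card
      rw [Finset.card_image_of_injective _ hwinj, Finset.card_univ, Fintype.card_coe, h.card]
  have hder : ∀ i : ι, deriv (fun z => G (a, z)) (w i) ≠ 0 := fun i h0 => by
    rw [show (fun z => G (a, z)) = fun z => R.eval z from funext fun z => (hRev z).symm,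
      Polynomial.deriv] at h0
    have h1 : 1 < R.rootMultiplicity (w i) :=
      (one_lt_rootMultiplicity_iff_isRoot hR0).2 ⟨(hRev _).trans (hG0 i), h0⟩
    rw [← count_roots, ← hroots] at h1
    have h2 := Multiset.nodup_iff_count_le_one.1 (Finset.univ.image w).nodup (w i)
    omega
  choose φ hφan hφa hφG using fun i => exists_analytic_root (hGan _) (hG0 i) (hder i)
  -- a neighbourhood of `a`
  obtain ⟨U, hUgood, hUo, haU⟩ := eventually_nhds_iff.1
    (show ∀ᶠ s in 𝓝 a, q.eval s ≠ 0 ∧ (∀ i, G (s, φ i s) = 0) ∧ (∀ i, AnalyticAt ℂ (φ i) s) ∧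
        ∀ i j, i ≠ j → φ i s ≠ φ j s by
      refine ((analyticAt_eval q a).continuousAt.eventually_ne hqa).and
        ((eventually_all.2 hφG).and ((eventually_all.2 fun i => (hφan i).eventually_analyticAt).and
          (eventually_all.2 fun i => eventually_all.2 fun j => ?_)))
      by_cases hij : i = j
      · exact Eventually.of_forall fun s h' => absurd hij h'
      · have hne : φ i a - φ j a ≠ 0 := by
          rw [hφa, hφa, sub_ne_zero]; exact fun e => hij (hwinj e)
        filter_upwards [((hφan i).continuousAt.sub (hφan j).continuousAt).eventually_ne hne]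
          with s hs _
        exact sub_ne_zero.1 hs)
  let γ : ι → ℂ → Place ℂ F := fun i s =>
    if hex : ∃ Q, Q ∈ fibre hF t s ∧ HasValue Q y (φ i s) then hex.choose else i.1
  have hγ : ∀ s ∈ U, ∀ i, γ i s ∈ fibre hF t s ∧ HasValue (γ i s) y (φ i s) := by
    intro s hs i
    obtain ⟨hq, hG, -, -⟩ := hUgood s hs
    have hex : ∃ Q, Q ∈ fibre hF t s ∧ HasValue Q y (φ i s) :=
      exists_place_of_root hrel rfl h.trans h.linearIndependent_pow hq (sub_eq_zero.1 (hG i))
    simp only [γ, dif_pos hex]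
    exact hex.choose_spec
  have hγinj : ∀ s ∈ U, Function.Injective fun i => γ i s := by
    intro s hs i j hij
    by_contra hne
    refine (hUgood s hs).2.2.2 i j hne ((hγ s hs i).2.unique ?_)
    rw [show γ i s = γ j s from hij]
    exact (hγ s hs j).2
  have hfib : ∀ s ∈ U, Finset.univ.image (fun i => γ i s) = fibre hF t s := by
    intro s hs
    refine Finset.eq_of_subset_of_card_le (fun Q hQ => ?_) ?_
    · obtain ⟨i, -, rfl⟩ := Finset.mem_image.1 hQ
      exact (hγ s hs i).1
    · rw [Finset.card_image_of_injective _ (hγinj s hs), Finset.card_univ, Fintype.card_coe, h.card]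
      exact card_fibre_le hF h.trans s
  have hsep : ∀ s ∈ U, IsSep hF t y s := by
    intro s hs
    refine ⟨h.trans, le_antisymm (card_fibre_le hF h.trans s) ?_,
      fun Q hQ => atLeast_of_relation hrel (hUgood s hs).1 (hasValue_of_mem_fibre hF hQ),
      fun Q hQ Q' hQ' c hc hc' => ?_⟩
    · rw [← hfib s hs, Finset.card_image_of_injective _ (hγinj s hs), Finset.card_univ,
        Fintype.card_coe, h.card]
    · rw [← hfib s hs] at hQ hQ'
      obtain ⟨i, -, rfl⟩ := Finset.mem_image.1 hQ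
      obtain ⟨j, -, rfl⟩ := Finset.mem_image.1 hQ'
      by_contra hne
      exact (hUgood s hs).2.2.2 i j (fun e => hne (e ▸ rfl))
        (((hγ s hs i).2.unique hc).trans (hc'.unique (hγ s hs j).2))
  set i₀ : ι := ⟨P, hP⟩
  refine ⟨γ i₀, h.inj _ (hγ a haU i₀).1 P hP (w i₀) ?_ (hw i₀), ?_⟩
  · have := (hγ a haU i₀).2
    rwa [hφa] at this
  filter_upwards [hUo.mem_nhds haU] with a' ha'
  have hUa' : ∀ᶠ s in 𝓝 a', s ∈ U := hUo.mem_nhds ha'
  -- values of functions regular on the whole fibre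
  have hval : ∀ f, (∀ Q ∈ fibre hF t a', AtLeast Q 0 f) → ∃ H : ℂ → ℂ, AnalyticAt ℂ H a' ∧
      ∀ᶠ s in 𝓝 a', HasValue (γ i₀ s) f (H s) := by
    intro f hf
    obtain ⟨q₁, p₁, hq₁, hqp⟩ := (hsep a' ha').exists_coords_regular hf
    refine ⟨fun s => (q₁.eval s)⁻¹ * ∑ k : Fin n, (p₁ k).eval s * φ i₀ s ^ (k : ℕ),
      ((analyticAt_eval q₁ a').inv hq₁).mul (Finset.analyticAt_fun_sum _ fun k _ =>
        (analyticAt_eval (p₁ k) a').mul (((hUgood a' ha').2.2.1 i₀).pow k)), ?_⟩
    filter_upwards [hUa', (analyticAt_eval q₁ a').continuousAt.eventually_ne hq₁] with s hs hq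
    have ht := hasValue_of_mem_fibre hF (hγ s hs i₀).1
    have h1 : HasValue (γ i₀ s) (aeval t q₁ * f)
        (∑ k : Fin n, (p₁ k).eval s * φ i₀ s ^ (k : ℕ)) := by
      rw [hqp]
      exact HasValue.finsetSum fun k _ => (ht.aeval (p₁ k)).mul ((hγ s hs i₀).2.pow k)
    have hne := ((ht.aeval q₁).ord_eq_zero hq).1
    have := (hasValue_inv hF (ht.aeval q₁) hq).mul h1
    rwa [inv_mul_cancel_left₀ hne] at this
  have hsimple : ∀ᶠ s in 𝓝 a', HasValue (γ i₀ s) t s ∧
      (γ i₀ s).ord (t - algebraMap ℂ F s) = 1 := hUa'.mono fun s hs =>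
    ⟨hasValue_of_mem_fibre hF (hγ s hs i₀).1, (hsep s hs).ord_eq_one (hγ s hs i₀).1⟩
  have han : ∀ f, AtLeast (γ i₀ a') 0 f →
      ∃ H : ℂ → ℂ, AnalyticAt ℂ H a' ∧ ∀ᶠ s in 𝓝 a', HasValue (γ i₀ s) f (H s) := by
    intro f hf
    set T := fibre hF t a'
    set N : ℕ := 1 + ∑ Q ∈ T, (Q.ord f).natAbs with hN
    obtain ⟨e, he⟩ := exists_approx T (fun Q => if Q = γ i₀ a' then (1 : F) else 0) N
    have heP : AtLeast (γ i₀ a') N (e - 1) := by
      simpa using he _ (hγ a' ha' i₀).1
    have he1 : HasValue (γ i₀ a') e 1 := by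
      rw [HasValue, map_one]; exact heP.mono (by omega)
    have hereg : ∀ Q ∈ T, AtLeast Q 0 e := fun Q hQ => by
      rcases eq_or_ne Q (γ i₀ a') with rfl | hne
      · exact he1.atLeast
      · have := he Q hQ
        rw [if_neg hne, sub_zero] at this
        exact this.mono (by omega)
    have hfe : ∀ Q ∈ T, AtLeast Q 0 (f * e) := fun Q hQ => by
      rcases eq_or_ne Q (γ i₀ a') with rfl | hne
      · simpa using hf.mul he1.atLeast
      · have := he Q hQ
        rw [if_neg hne, sub_zero] at this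
        refine ((atLeast_ord f).mul this).mono ?_
        have := Finset.single_le_sum (f := fun Q : Place ℂ F => (Q.ord f).natAbs)
          (fun _ _ => Nat.zero_le _) hQ
        omega
    obtain ⟨He, hHe, hHev⟩ := hval e hereg
    obtain ⟨Hfe, hHfe, hHfev⟩ := hval (f * e) hfe
    have hone : He a' = 1 := hHev.self_of_nhds.unique he1
    refine ⟨fun s => Hfe s * (He s)⁻¹, hHfe.mul (hHe.inv (by rw [hone]; exact one_ne_zero)), ?_⟩
    filter_upwards [hHev, hHfev,
      hHe.continuousAt.eventually_ne (by rw [hone]; exact one_ne_zero)] with s h1 h2 h3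
    have := h2.mul (hasValue_inv hF h1 h3)
    rwa [mul_assoc, mul_inv_cancel₀ (h1.ord_eq_zero h3).1, mul_one] at this
  refine ⟨h.trans, hsimple, han, le_antisymm ?_ (le_map fun S hS => ?_)⟩
  · refine tendsto_place_of_regular hF fun f hf => ?_
    obtain ⟨H, hH, hHv⟩ := han f hf
    rw [val_of_hasValue hHv.self_of_nhds]
    exact ((OnePoint.continuous_coe.tendsto _).comp hH.continuousAt).congr'
      (hHv.mono fun s hs => (val_of_hasValue hs).symm)
  · set P' := γ i₀ a'
    have hPt : val P' t = (a' : OnePoint ℂ) := val_of_hasValue hsimple.self_of_nhds.1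
    have hPy : val P' y = (φ i₀ a' : OnePoint ℂ) := val_of_hasValue (hγ a' ha' i₀).2
    have lt : Tendsto (fun Q => unc (val Q t)) (𝓝 P') (𝓝 a') :=
      tendsto_unc.comp (hPt ▸ (continuous_val t).tendsto P')
    have ly : Tendsto (fun Q => unc (val Q y)) (𝓝 P') (𝓝 (φ i₀ a')) :=
      tendsto_unc.comp (hPy ▸ (continuous_val y).tendsto P')
    have hsepj : ∀ j, ∀ᶠ Q in 𝓝 P', φ j (unc (val Q t)) = unc (val Q y) → j = i₀ := by
      intro j
      by_cases hj : j = i₀
      · exact Eventually.of_forall fun _ _ => hj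
      have h1 := (((hUgood a' ha').2.2.1 j).continuousAt.tendsto.comp lt).sub ly
      filter_upwards [h1.eventually_ne (sub_ne_zero.2 ((hUgood a' ha').2.2.2 j i₀ hj))] with Q hQ hQe
      exact absurd (sub_eq_zero.2 hQe) hQ
    have hgood : ∀ᶠ Q in 𝓝 P', Q ∈ γ i₀ '' S := by
      filter_upwards [lt.eventually (inter_mem hS (hUo.mem_nhds ha')),
        ((hPt ▸ (continuous_val t).tendsto P' : Tendsto (fun Q => val Q t) _ (𝓝 (a' : OnePoint ℂ)))).eventually
          eventually_coe,
        ((hPy ▸ (continuous_val y).tendsto P' : Tendsto (fun Q => val Q y) _ (𝓝 (φ i₀ a' : OnePoint ℂ)))).eventually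
          eventually_coe, eventually_all.2 hsepj] with Q hQs hQt hQy hQj
      set s := unc (val Q t)
      have hmem : Q ∈ fibre hF t s :=
        (mem_fibre hF).2 ((hasValue_iff_pos h.trans).1 (hasValue_of_val hQt))
      rw [← hfib s hQs.2] at hmem
      obtain ⟨j, -, hjQ⟩ := Finset.mem_image.1 hmem
      have hj : j = i₀ := hQj j ((hγ s hQs.2 j).2.unique (hjQ.symm ▸ hasValue_of_val hQy))
      exact ⟨s, hQs.1, hj ▸ hjQ⟩
    exact hgood

include hF in
/-- Every place lies on an arc. -/
theorem exists_arc (P : Place ℂ F) :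
    ∃ (t : F) (γ : ℂ → Place ℂ F), γ 0 = P ∧ ∀ᶠ a' in 𝓝 (0 : ℂ), IsArc t a' γ := by
  obtain ⟨t, y, hP, h⟩ := exists_isSep hF P
  exact ⟨t, exists_arc_of_sep hF h hP⟩

end FA.PicTors

end
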