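import Fermat.Agent.PicTors.System

/-!
# Classes of divisors relative to a base place

`cls hF O D` is the class of `D - deg D • O`; every class of degree zero is the class of `genus`
places.
-/

set_option autoImplicit false
set_option linter.style.haveILetI false
set_option linter.unusedSectionVars false

noncomputable section

namespace FA.PicTors

open AlgebraicCurve FA.Curve FA.ModField

variable {F : Type} [Field F] [Algebra ℂ F] (hF : IsFunctionField ℂ F)

/-- The class of `D - deg D • O`. -/
def cls (O : Place ℂ F) : Divisor ℂ F →+ Pic0 ℂ F :=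
  (QuotientAddGroup.mk' _).comp
    ((AddMonoidHom.id (Divisor ℂ F) -
        (Finsupp.singleAddHom O).comp (Divisor.degree (K := ℂ) (F := F))).codRestrict
      (Divisor.degZero (K := ℂ) (F := F)) fun D => by
        rw [Divisor.mem_degZero]
        simp [map_sub, hF.deg_eq_one])

variable (O : Place ℂ F)

theorem cls_single_self : cls hF O (Finsupp.single O (1 : ℤ)) = 0 := by
  rw [cls, AddMonoidHom.comp_apply]
  refine (congrArg _ (Subtype.ext ?_ : _ = (0 : Divisor.degZero (K := ℂ) (F := F)))).trans
    (map_zero _)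
  show Finsupp.single O (1 : ℤ) - Finsupp.single O (Divisor.degree (Finsupp.single O (1 : ℤ))) = 0
  rw [Divisor.degree_single, hF.deg_eq_one]
  simp

theorem cls_of_degree {D : Divisor ℂ F} (h : Divisor.degree D = 0) :
    cls hF O D = Pic0.mk ⟨D, Divisor.mem_degZero.2 h⟩ := by
  rw [cls, AddMonoidHom.comp_apply]
  refine congrArg QuotientAddGroup.mk (Subtype.ext ?_)
  simp [h]

theorem cls_divOf {f : F} (hf : f ≠ 0) : cls hF O (divOf hF f) = 0 := by
  rw [cls_of_degree hF O (degree_divOf hF f)]
  refine (QuotientAddGroup.eq_zero_iff _).2 ?_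
  exact AddSubgroup.mem_addSubgroupOf.2 (Divisor.mem_principal.2 ⟨f, hf, fun v => divOf_apply hF f v⟩)

theorem cls_eq_of_equiv {f : F} (hf : f ≠ 0) {D D' : Divisor ℂ F}
    (h : divOf hF f + D = D') : cls hF O D' = cls hF O D := by
  rw [← h, map_add, cls_divOf hF O hf, zero_add]

theorem exists_equiv_of_cls {D D' : Divisor ℂ F} (hd : Divisor.degree D' = Divisor.degree D)
    (h : cls hF O D' = cls hF O D) : ∃ f : F, f ≠ 0 ∧ divOf hF f + D = D' := by
  rw [← sub_eq_zero, ← map_sub, cls_of_degree hF O (by rw [map_sub, hd, sub_self])] at h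
  obtain ⟨f, hf, hfv⟩ := Divisor.mem_principal.1
    (AddSubgroup.mem_addSubgroupOf.1 ((QuotientAddGroup.eq_zero_iff _).1 h))
  refine ⟨f, hf, Finsupp.ext fun v => ?_⟩
  have := hfv v
  rw [Finsupp.sub_apply] at this
  rw [Finsupp.add_apply, divOf_apply]
  omega

theorem cls_sumPts {ι : Type} [Fintype ι] (Q : ι → Place ℂ F) :
    cls hF O (sumPts Q) = ∑ i, cls hF O (Finsupp.single (Q i) (1 : ℤ)) := map_sum _ _ _

include hF in
/-- An effective divisor is a sum of places. -/
theorem exists_sumPts : ∀ (n : ℕ) {E : Divisor ℂ F}, 0 ≤ E → Divisor.degree E = n →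
    ∃ Q : Fin n → Place ℂ F, sumPts Q = E := by
  classical
  intro n
  induction n with
  | zero =>
    intro E hE hd
    refine ⟨Fin.elim0, ?_⟩
    rw [sumPts, Fin.sum_univ_zero]
    refine Finsupp.ext fun v => le_antisymm (Finsupp.le_def.1 hE v) ?_
    rw [degree_eq_finset_sum hF _ (Finset.subset_insert v _)] at hd
    have h1 := Finset.single_le_sum (f := fun R => E R) (fun R _ => Finsupp.le_def.1 hE R)
      (Finset.mem_insert_self v E.support)
    rw [hd] at h1
    exact h1
  | succ n ih =>
    intro E hE hd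
    obtain ⟨v, hv⟩ : E.support.Nonempty := by
      by_contra h
      rw [Finset.not_nonempty_iff_eq_empty, Finsupp.support_eq_empty] at h
      rw [h, map_zero] at hd
      omega
    have hv1 : 1 ≤ E v := by
      have h0 := Finsupp.le_def.1 hE v
      rw [Finsupp.mem_support_iff] at hv
      simp only [Finsupp.coe_zero, Pi.zero_apply] at h0
      omega
    obtain ⟨Q, hQ⟩ := ih (E := E - Finsupp.single v 1) (Finsupp.le_def.2 fun w => by
      rw [Finsupp.sub_apply, Finsupp.coe_zero, Pi.zero_apply]
      rcases eq_or_ne w v with rfl | hne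
      · rw [Finsupp.single_eq_same]; omega
      · rw [Finsupp.single_eq_of_ne hne, sub_zero]; exact Finsupp.le_def.1 hE w) (by
      rw [map_sub, hd, Divisor.degree_single, hF.deg_eq_one]; push_cast; ring)
    refine ⟨Fin.cons v Q, ?_⟩
    rw [sumPts, Fin.sum_univ_succ, Fin.cons_zero]
    simp only [Fin.cons_succ]
    rw [show ∑ i, Finsupp.single (Q i) (1 : ℤ) = sumPts Q from rfl, hQ, add_sub_cancel]

/-- **Every class is the class of `genus` places.** -/
theorem exists_rep (c : Pic0 ℂ F) :
    ∃ Q : Fin (FA.Curve.genus ℂ F) → Place ℂ F, cls hF O (sumPts Q) = c := by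
  obtain ⟨⟨D, hD⟩, rfl⟩ := Pic0.mk_surjective c
  have hd := Divisor.mem_degZero.1 hD
  set D' := D + Finsupp.single O (FA.Curve.genus ℂ F : ℤ) with hD'
  have hd' : Divisor.degree D' = FA.Curve.genus ℂ F := by
    rw [hD', map_add, hd, Divisor.degree_single, hF.deg_eq_one]; simp
  have h1 := riemann_inequality hF D'
  obtain ⟨f, hf, hle⟩ := exists_effective_of_ell_pos hF (D := D') (by omega)
  obtain ⟨Q, hQ⟩ := exists_sumPts hF (FA.Curve.genus ℂ F) hle (by
    rw [map_add, degree_divOf, add_zero, hd'])
  refine ⟨Q, ?_⟩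
  rw [hQ, map_add, cls_divOf hF O hf, add_zero, hD', map_add, cls_of_degree hF O hd,
    ← Finsupp.smul_single_one, map_zsmul, cls_single_self, smul_zero, add_zero]

include hF in
/-- If `l(D) = 1` only the constants are in `L(D)`. -/
theorem exists_const_of_ell_one {D : Divisor ℂ F} (h0 : 0 ≤ D) (h1 : ell D = 1) {f : F}
    (hf : f ∈ riemannRochSpace D) : ∃ c : ℂ, f = algebraMap ℂ F c := by
  haveI := finite_riemannRochSpace hF D
  have hle : Submodule.span ℂ {(1 : F)} ≤ riemannRochSpace D := by
    rw [Submodule.span_le, Set.singleton_subset_iff, SetLike.mem_coe, mem_riemannRochSpace]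
    exact fun v => Or.inr (by simpa using Finsupp.le_def.1 h0 v)
  rw [← Submodule.eq_of_le_of_finrank_le hle (le_of_eq ?_), Submodule.mem_span_singleton] at hf
  · obtain ⟨c, rfl⟩ := hf
    exact ⟨c, by rw [Algebra.smul_def, mul_one]⟩
  · rw [finrank_span_singleton (one_ne_zero' F)]
    rw [FA.Curve.ell] at h1
    exact_mod_cast h1

end FA.PicTors

end
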