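import Mathlib.FieldTheory.IsAlgClosed.Classification
import Mathlib.Analysis.Complex.Cardinality
import Mathlib.Analysis.Complex.Polynomial.Basic
import Fermat.Agent.Period.AutC

/-!
# Countable fields inside `ℂ`
-/

set_option autoImplicit false
set_option linter.style.haveILetI false

noncomputable section

namespace FA.PicTors

open Cardinal

/-- Countable fields of characteristic zero embed in `ℂ`. -/
theorem exists_ringHom_complex (k : Type*) [Field k] [CharZero k] [Countable k] :
    Nonempty (k →+* ℂ) := by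
  classical
  obtain ⟨t, ht⟩ := exists_isTranscendenceBasis ℚ k
  obtain ⟨s, hs⟩ := exists_isTranscendenceBasis ℚ ℂ
  have hlt : ℵ₀ < #ℂ := by rw [Cardinal.mk_complex]; exact Cardinal.aleph0_lt_continuum
  have hs' : ℵ₀ ≤ #s := by
    have h := IsAlgClosed.cardinal_eq_cardinal_transcendence_basis_of_aleph0_lt _ hs
      Cardinal.mk_le_aleph0 hlt
    simp only [Cardinal.lift_id] at h
    exact h ▸ hlt.le
  haveI : Infinite s := Cardinal.infinite_iff.2 hs'
  obtain ⟨g, hg⟩ := Countable.exists_injective_nat (↥t)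
  have hind : AlgebraicIndependent ℚ fun j : t => ((Infinite.natEmbedding s (g j) : s) : ℂ) :=
    hs.1.comp _ ((Infinite.natEmbedding s).injective.comp hg)
  let A := MvPolynomial t ℚ
  letI : Algebra A k := (MvPolynomial.aeval ((↑) : t → k)).toRingHom.toAlgebra
  letI : Algebra A ℂ :=
    (MvPolynomial.aeval fun j : t => ((Infinite.natEmbedding s (g j) : s) : ℂ)).toRingHom.toAlgebra
  haveI : Algebra.IsAlgebraic A k := by
    haveI := ht.isAlgebraic
    refine ⟨fun z => ?_⟩
    have hz := Algebra.IsAlgebraic.isAlgebraic (R := Algebra.adjoin ℚ (Set.range ((↑) : t → k))) z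
    exact hz.of_ringHom_of_comp_eq (ht.1.aevalEquiv : A →+* _) (RingHom.id k)
      ht.1.aevalEquiv.surjective Function.injective_id (RingHom.ext fun p => rfl)
  haveI : Module.IsTorsionFree A k := Module.isTorsionFree_iff_algebraMap_injective.2 ht.1
  haveI : Module.IsTorsionFree A ℂ := Module.isTorsionFree_iff_algebraMap_injective.2 hind
  exact ⟨(IsAlgClosed.lift (R := A) (S := k) (M := ℂ)).toRingHom⟩

/-- A complex number with finite orbit over an algebraically closed subfield lies in it. -/
theorem mem_range_of_orbit {k : Type*} [Field k] [IsAlgClosed k] (i : k →+* ℂ) (z : ℂ)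
    (h : ((fun σ : ℂ ≃+* ℂ => σ z) '' {σ | ∀ a : k, σ (i a) = i a}).Finite) :
    ∃ a : k, i a = z := by
  letI : Algebra k ℂ := i.toAlgebra
  by_contra hz
  have htr : Transcendental k z := fun halg => hz
    (RingHom.mem_range.1 (minpoly.degree_eq_one_iff.1
      (IsAlgClosed.degree_eq_one_of_irreducible k (minpoly.irreducible halg.isIntegral))))
  have hs : AlgebraicIndepOn k id ({z} : Set ℂ) := by
    have : Unique ({z} : Set ℂ) := Set.uniqueSingleton z
    refine algebraicIndependent_unique_type_iff.mpr ?_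
    rw [show (default : ({z} : Set ℂ)) = ⟨z, rfl⟩ from Subsingleton.elim _ _]
    exact htr
  obtain ⟨t, hzt, ht⟩ := exists_isTranscendenceBasis_superset hs
  obtain ⟨σ, hσ⟩ :=
    FA.Period.exists_ringEquiv_extending _ ht (FA.Period.shiftVars t k).toRingEquiv
  have hz1 : σ z = z + 1 := by
    have h1 := hσ (MvPolynomial.X ⟨z, hzt rfl⟩)
    simpa [FA.Period.shiftVars] using h1
  have hfix : ∀ a : k, σ (i a) = i a := fun a => by
    have h1 := hσ (MvPolynomial.C a)
    simpa [FA.Period.shiftVars, RingHom.algebraMap_toAlgebra] using h1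
  have hk : ∀ m : ℕ, ∃ τ : ℂ ≃+* ℂ, τ z = z + m ∧ ∀ a : k, τ (i a) = i a := by
    intro m
    induction m with
    | zero => exact ⟨RingEquiv.refl ℂ, by simp, fun a => rfl⟩
    | succ m ih =>
      obtain ⟨τ, hτ, hτf⟩ := ih
      refine ⟨τ.trans σ, ?_, fun a => by rw [RingEquiv.trans_apply, hτf, hfix]⟩
      rw [RingEquiv.trans_apply, hτ, map_add, hz1, map_natCast]
      push_cast
      ring
  refine Set.infinite_range_of_injective (f := fun m : ℕ => z + (m : ℂ)) (fun a b hab => ?_)
    (h.subset ?_)
  · exact_mod_cast add_left_cancel hab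
  · rintro _ ⟨m, rfl⟩
    obtain ⟨τ, hτ, hτf⟩ := hk m
    exact ⟨τ, hτf, hτ⟩

end FA.PicTors

end
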