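import Fermat.Agent.Curve.Genus

/-!
# Torsion of the degree zero class group: the contract between the analytic and algebraic parts

`CountComplex` is the count over `ℂ`, proved analytically (the class group is `ℂ^g` modulo a
lattice of rank `2g`); the statement over an arbitrary algebraically closed field of characteristic
zero follows from it by change of the field of constants.
-/

set_option autoImplicit false

noncomputable section

namespace FA.PicTors

open AlgebraicCurve FA.Curve

/-- Over `ℂ` a curve of genus `g` has `n^(2g)` classes of degree zero killed by `n`. -/
def CountComplex : Prop :=
  ∀ (F : Type) [Field F] [Algebra ℂ F], IsFunctionField ℂ F → ∀ n : ℕ, n ≠ 0 →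
    Nat.card (Pic0.torsion ℂ F n) = n ^ (2 * FA.Curve.genus ℂ F)

end FA.PicTors

end
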