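import Fermat.Agent.PicTors.Class
import Fermat.Agent.PicTors.Countable
import Fermat.Agent.PicTors.ExtClass
import Fermat.Agent.PicTors.Model

/-!
# The torsion classes of a model over `ℂ` are defined over the countable field of constants

There are finitely many of them, the automorphisms of `ℂ` over the constants permute them, and the
effective divisor without motion representing a class is determined by the class.
-/

set_option autoImplicit false
set_option linter.style.haveILetI false
set_option linter.unusedSectionVars false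

noncomputable section

namespace FA.PicTors

open AlgebraicCurve FA.Curve FA.ModField Polynomial

section

variable {F : Type} [Field F] [Algebra ℂ F] (hF : IsFunctionField ℂ F) (O : Place ℂ F)

include hF in
theorem eq_zero_of_degree_zero {E : Divisor ℂ F} (hE : 0 ≤ E) (hd : Divisor.degree E = 0) :
    E = 0 := by
  obtain ⟨Q, hQ⟩ := exists_sumPts hF 0 hE (by rw [hd]; rfl)
  rw [← hQ, sumPts, Fin.sum_univ_zero]

/-- An effective divisor without motion is determined by its class. -/
theorem eq_of_cls {E₁ E₂ : Divisor ℂ F} (h1 : 0 ≤ E₁) (h2 : 0 ≤ E₂)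
    (hd : Divisor.degree E₂ = Divisor.degree E₁) (hl : ell E₁ = 1)
    (hc : cls hF O E₂ = cls hF O E₁) : E₁ = E₂ := by
  obtain ⟨f, hf, hfe⟩ := exists_equiv_of_cls hF O hd hc
  obtain ⟨c, rfl⟩ := exists_const_of_ell_one hF (f := f) h1 hl
    (mem_riemannRochSpace.2 fun R => Or.inr (by
      have e := DFunLike.congr_fun hfe R
      rw [Finsupp.add_apply, divOf_apply] at e
      have := Finsupp.le_def.1 h2 R
      simp only [Finsupp.coe_zero, Pi.zero_apply] at this
      omega))
  rw [← hfe, show divOf hF (algebraMap ℂ F c) = 0 from Finsupp.ext fun R => by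
    rw [divOf_apply, place_ord_algebraMap]; rfl, zero_add]

/-- Every class is that of an effective divisor without motion. -/
theorem exists_reduced (c : Pic0 ℂ F) :
    ∃ E : Divisor ℂ F, 0 ≤ E ∧ ell E = 1 ∧ cls hF O E = c := by
  classical
  obtain ⟨⟨D, hD⟩, rfl⟩ := Pic0.mk_surjective c
  have hdD := Divisor.mem_degZero.1 hD
  have hdeg : ∀ m : ℕ, Divisor.degree (D + Finsupp.single O (m : ℤ)) = m := fun m => by
    rw [map_add, hdD, Divisor.degree_single, hF.deg_eq_one]; simp
  have hex : ∃ m : ℕ, 1 ≤ ell (D + Finsupp.single O (m : ℤ)) := ⟨FA.Curve.genus ℂ F, by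
    have := riemann_inequality hF (D + Finsupp.single O (FA.Curve.genus ℂ F : ℤ))
    rw [hdeg] at this
    omega⟩
  set m := Nat.find hex
  have hm1 : 1 ≤ ell (D + Finsupp.single O (m : ℤ)) := Nat.find_spec hex
  obtain ⟨f, hf, hle⟩ := exists_effective_of_ell_pos hF
    (D := D + Finsupp.single O (m : ℤ)) (by omega)
  set E := D + Finsupp.single O (m : ℤ) + divOf hF f with hE
  have hdE : Divisor.degree E = m := by rw [hE, map_add, degree_divOf, hdeg, add_zero]
  have h0 : 1 ≤ ell E := by
    have := ell_mono hF hle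
    rwa [ell_zero hF] at this
  refine ⟨E, hle, le_antisymm ?_ h0, ?_⟩
  · by_contra hlt
    rcases Nat.eq_zero_or_pos m with hm | hm
    · rw [eq_zero_of_degree_zero hF hle (by rw [hdE, hm]; rfl), ell_zero hF] at hlt
      omega
    haveI := finite_riemannRochSpace hF (E - Finsupp.single O 1)
    have hs := (finrank_succ hF (E - Finsupp.single O 1) O).2
    rw [sub_add_cancel] at hs
    have h2 : 0 < ell (E - Finsupp.single O 1) := by
      simp only [ell] at hlt ⊢
      omega
    obtain ⟨g, hg, hgle⟩ := exists_effective_of_ell_pos hF h2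
    refine Nat.find_min hex (m := m - 1) (by omega) ?_
    haveI := finite_riemannRochSpace hF (D + Finsupp.single O (((m - 1 : ℕ)) : ℤ))
    have hmem : f * g ∈ riemannRochSpace (D + Finsupp.single O (((m - 1 : ℕ)) : ℤ)) := by
      refine mem_riemannRochSpace.2 fun R => Or.inr ?_
      have e := Finsupp.le_def.1 hgle R
      simp only [hE, Finsupp.add_apply, Finsupp.sub_apply, divOf_apply, Finsupp.coe_zero,
        Pi.zero_apply] at e
      rw [R.ord_mul hf hg, Finsupp.add_apply]
      rcases eq_or_ne R O with rfl | hne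
      · rw [Finsupp.single_eq_same] at e ⊢
        rw [Finsupp.single_eq_same] at e
        omega
      · rw [Finsupp.single_eq_of_ne hne] at e ⊢
        rw [Finsupp.single_eq_of_ne hne] at e
        omega
    have hne : riemannRochSpace (D + Finsupp.single O (((m - 1 : ℕ)) : ℤ)) ≠ ⊥ := fun e => by
      rw [e, Submodule.mem_bot] at hmem
      exact mul_ne_zero hf hg hmem
    have : 0 < Module.finrank ℂ (riemannRochSpace (D + Finsupp.single O (((m - 1 : ℕ)) : ℤ))) :=
      Nat.pos_of_ne_zero fun e => hne (Submodule.finrank_eq_zero.1 e)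
    rw [ell]
    omega
  · rw [hE, map_add, cls_divOf hF O hf, add_zero, map_add, ← Finsupp.smul_single_one, map_zsmul,
      cls_single_self, smul_zero, add_zero, cls_of_degree hF O hdD]

end

/-- **Over a countable field of constants the count holds for models.** -/
theorem natCard_torsion_model (hC : CountComplex) {k : Type*} [Field k] [IsAlgClosed k]
    [CharZero k] [Countable k] {Q : k[X][X]} (hQ : Q.Monic) (hirr : Irreducible Q)
    [Fact (Irreducible (fracQ Q))] (n : ℕ) (hn : n ≠ 0) :
    Nat.card (Pic0.torsion k (MField Q) n) = n ^ (2 * FA.Curve.genus k (MField Q)) := by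
  classical
  obtain ⟨σ₀⟩ := exists_ringHom_complex k
  set Q' : ℂ[X][X] := Q.map (mapRingHom σ₀) with hQ'
  have hQ'm : Q'.Monic := hQ.map _
  haveI : Fact (Irreducible (fracQ Q')) :=
    ⟨irreducible_fracQ hQ'm (irreducible_map σ₀ hQ hirr)⟩
  have hx' := transcendental_mX (Q := Q')
  have hy' : Q.eval₂ (evalX σ₀ (mX Q')) (mY Q') = 0 := by
    have h1 := root_mY (Q := Q')
    rw [← evalX_mX] at h1
    have h2 : (Q.map (mapRingHom σ₀)).eval₂ (evalX (RingHom.id ℂ) (mX Q')) (mY Q') = 0 := h1
    rw [eval₂_map, evalX_comp, RingHom.id_comp] at h2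
    exact h2
  set φ := modelHom σ₀ hx' hy'
  have h : IsExt σ₀ φ := isExt_modelHom σ₀ hx' hy' hQ adjoin_mX_mY
  have hF' := h.isFunctionField
  have hcard := hC _ hF' n hn
  have hfin : Finite (Pic0.torsion ℂ (MField Q') n) :=
    Nat.finite_of_card_ne_zero (by rw [hcard]; exact pow_ne_zero _ hn)
  haveI := infinite_places h.func
  obtain ⟨O₀⟩ := (inferInstance : Nonempty (Place k (MField Q)))
  set O := h.up O₀
  -- the automorphisms
  let Fix : Type := {σ : ℂ ≃+* ℂ // ∀ a, σ (σ₀ a) = σ₀ a}
  have hyσ : ∀ σ : Fix, Q'.eval₂ (evalX (σ.1 : ℂ →+* ℂ) (mX Q')) (mY Q') = 0 := fun σ => by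
    show (Q.map (mapRingHom σ₀)).eval₂ _ (mY Q') = 0
    rw [eval₂_map, evalX_comp,
      show ((σ.1 : ℂ →+* ℂ).comp σ₀) = σ₀ from RingHom.ext σ.2]
    exact hy'
  let τ : Fix → MField Q' →+* MField Q' := fun σ => modelHom (σ.1 : ℂ →+* ℂ) hx' (hyσ σ)
  have hτ : ∀ σ : Fix, IsExt (σ.1 : ℂ →+* ℂ) (τ σ) := fun σ =>
    isExt_modelHom _ hx' (hyσ σ) hQ'm adjoin_mX_mY
  have hτφ : ∀ σ f, τ σ (φ f) = φ f := fun σ f => by
    refine DFunLike.congr_fun (f := (τ σ).comp φ) (modelHom_ext (fun a => ?_) ?_ ?_) f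
    · show τ σ (φ _) = φ _
      rw [h.comm, (hτ σ).comm]
      exact congrArg _ (σ.2 a)
    · show τ σ (φ _) = φ _
      simp only [φ, τ, modelHom_mX]
    · show τ σ (φ _) = φ _
      simp only [φ, τ, modelHom_mY]
  have hτO : ∀ σ : Fix, (hτ σ).up O = O := fun σ => h.up_comp (hτ σ) h (hτφ σ) O₀
  -- surjectivity
  have hsurj : ∀ c ∈ Pic0.torsion ℂ (MField Q') n,
      ∃ c₀ ∈ Pic0.torsion k (MField Q) n, h.mapPic c₀ = c := by
    intro c hc
    obtain ⟨E, hE0, hE1, hEc⟩ := exists_reduced hF' O c
    have hnn : ∀ σ : Fix, 0 ≤ (hτ σ).pull E := fun σ => Finsupp.le_def.2 fun P' => by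
      rw [Finsupp.coe_zero, Pi.zero_apply]
      by_cases hR : ∃ R, P' = (hτ σ).up R
      · obtain ⟨R, rfl⟩ := hR
        rw [(hτ σ).pull_up]; exact Finsupp.le_def.1 hE0 R
      · push Not at hR
        rw [(hτ σ).pull_of_notMem _ hR]
    have hcls : ∀ σ : Fix, cls hF' O ((hτ σ).pull E) = (hτ σ).mapPic c := fun σ => by
      have e : ∀ D (hd : Divisor.degree D = 0),
          cls hF' O ((hτ σ).pull D) = (hτ σ).mapPic (cls hF' O D) := fun D hd => by
        rw [cls_of_degree hF' O hd, cls_of_degree hF' O (((hτ σ).degree_pull D).trans hd),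
          (hτ σ).mapPic_mk]
      have h1 := e (E - Finsupp.single O (Divisor.degree E)) (by
        rw [map_sub, Divisor.degree_single, hF'.deg_eq_one]; simp)
      rw [← Finsupp.smul_single_one O (Divisor.degree E)] at h1
      simp only [map_sub, map_zsmul, IsExt.pull, Finsupp.mapDomain.addMonoidHom_apply,
        Finsupp.mapDomain_single] at h1
      rw [hτO, cls_single_self, smul_zero, sub_zero, map_zero, smul_zero, sub_zero, hEc] at h1
      exact h1
    have hinvol : ∀ σ σ' : Fix, (hτ σ).mapPic c = (hτ σ').mapPic c →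
        (hτ σ).pull E = (hτ σ').pull E := fun σ σ' e =>
      eq_of_cls hF' O (hnn σ) (hnn σ') (by rw [(hτ σ).degree_pull, (hτ σ').degree_pull])
        (by rw [(hτ σ).ell_pull, hE1]) (by rw [hcls, hcls, e])
    have hfinE : (Set.range fun σ : Fix => (hτ σ).pull E).Finite := by
      let T : Fix → Pic0.torsion ℂ (MField Q') n := fun σ => ⟨(hτ σ).mapPic c, by
        rw [Pic0.mem_torsion, ← map_zsmul, Pic0.mem_torsion.1 hc, map_zero]⟩
      have hft : ∀ σ σ', T σ = T σ' → (hτ σ).pull E = (hτ σ').pull E := fun σ σ' e =>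
        hinvol σ σ' (congrArg Subtype.val e)
      have : Set.range (fun σ : Fix => (hτ σ).pull E) ⊆
          Set.range fun t : Set.range T => (hτ t.2.choose).pull E := by
        rintro _ ⟨σ, rfl⟩
        exact ⟨⟨T σ, σ, rfl⟩, hft _ _ (⟨T σ, σ, rfl⟩ : Set.range T).2.choose_spec⟩
      exact (Set.finite_range _).subset this
    -- the support comes from `k`
    let vx : Place ℂ (MField Q') → ℂ := fun P =>
      if hP : ∃ z, HasValue P (mX Q') z then hP.choose else 0
    have hvx : ∀ {P z}, HasValue P (mX Q') z → vx P = z := fun {P z} hz => by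
      have hP : ∃ z, HasValue P (mX Q') z := ⟨z, hz⟩
      simp only [vx, dif_pos hP]
      exact hP.choose_spec.unique hz
    have hsupp : ∀ P' ∈ E.support, ∃ R, P' = h.up R := by
      intro P' hP'
      by_cases hpole : P'.ord (mX Q') < 0
      · exact h.exists_eq_up (g := mX Q) (by rw [modelHom_mX]; omega)
      obtain ⟨z, hz⟩ := exists_hasValue hF' (Or.inr (not_lt.1 hpole) : AtLeast P' 0 (mX Q'))
      obtain ⟨a, ha⟩ := mem_range_of_orbit σ₀ z (by
        refine ((hfinE.biUnion fun E' _ => E'.support.finite_toSet).image vx).subset ?_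
        rintro _ ⟨σ, hσ, rfl⟩
        refine ⟨(hτ ⟨σ, hσ⟩).up P', ?_, ?_⟩
        · refine Set.mem_biUnion ⟨⟨σ, hσ⟩, rfl⟩ ?_
          rw [Finset.mem_coe, Finsupp.mem_support_iff, IsExt.pull_up]
          exact Finsupp.mem_support_iff.1 hP'
        · have h1 := (hτ ⟨σ, hσ⟩).hasValue_up hz
          rw [show τ ⟨σ, hσ⟩ (mX Q') = mX Q' from modelHom_mX _ _ _] at h1
          exact hvx h1)
      have hne : mX Q' - algebraMap ℂ (MField Q') z ≠ 0 := fun e =>
        hx' (sub_eq_zero.1 e ▸ isAlgebraic_algebraMap z)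
      refine h.exists_eq_up (g := mX Q - algebraMap k (MField Q) a) ?_
      rw [map_sub, h.comm, modelHom_mX, ha]
      have := (atLeast_iff hne).1 hz
      omega
    obtain ⟨c₀, hc₀⟩ := h.exists_mapPic_eq (D := ⟨E - Finsupp.single O (Divisor.degree E), by
      rw [Divisor.mem_degZero, map_sub, Divisor.degree_single, hF'.deg_eq_one]; simp⟩)
      fun P' hP' => by
        rcases Finset.mem_union.1 (Finsupp.support_sub hP') with hP' | hP'
        · exact hsupp P' hP'
        · exact ⟨O₀, Finset.mem_singleton.1 (Finsupp.support_single_subset hP')⟩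
    have hc₀c : h.mapPic c₀ = c := by
      rw [hc₀, ← cls_of_degree hF' O (D := E - Finsupp.single O (Divisor.degree E))
        (by rw [map_sub, Divisor.degree_single, hF'.deg_eq_one]; simp), map_sub, ← Finsupp.smul_single_one O, map_zsmul,
        cls_single_self, smul_zero, sub_zero, hEc]
    refine ⟨c₀, Pic0.mem_torsion.2 (h.mapPic_injective ?_), hc₀c⟩
    rw [map_zsmul, hc₀c, Pic0.mem_torsion.1 hc, map_zero]
  rw [← h.genus_eq, ← hcard]
  refine Nat.card_congr (Equiv.ofBijective (fun c₀ => ⟨h.mapPic c₀.1, by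
    rw [Pic0.mem_torsion, ← map_zsmul, Pic0.mem_torsion.1 c₀.2, map_zero]⟩) ⟨?_, ?_⟩)
  · exact fun c d e => Subtype.ext (h.mapPic_injective (congrArg Subtype.val e))
  · rintro ⟨c, hc⟩
    obtain ⟨c₀, hc₀, rfl⟩ := hsurj c hc
    exact ⟨⟨c₀, hc₀⟩, rfl⟩

end FA.PicTors

end
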