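import Fermat.Agent.PicTors.System
import Fermat.Agent.PicTors.Residue
import Mathlib.Analysis.Complex.HasPrimitives
import Mathlib.Analysis.Calculus.InverseFunctionTheorem.FDeriv
import Mathlib.LinearAlgebra.Matrix.NonsingularInverse

/-!
# An arc with the integrals of a basis of the regular differentials

On a disc in the `x`-line an arc and the primitives `Φ j` of `ψ j dx`; at a nonspecial tuple of
points of the disc the map `u ↦ (∑ i, Φ j (u i))` is a local isomorphism.
-/

set_option autoImplicit false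
set_option linter.style.haveILetI false
set_option linter.unusedSectionVars false

noncomputable section

namespace FA.PicTors

open AlgebraicCurve FA.Curve FA.ModField Filter IntermediateField Metric
open scoped Topology

variable {F : Type} [Field F] [Algebra ℂ F] (hF : IsFunctionField ℂ F)

local notation "gg" => FA.Curve.genus ℂ F

include hF in
/-- A nonspecial set of places inside a given infinite set. -/
theorem exists_nonspecial_within {Z : Set (Place ℂ F)} (hZ : Z.Infinite) :
    ∃ S : Finset (Place ℂ F), S.card = gg ∧ ↑S ⊆ Z ∧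
      ell (∑ v ∈ S, Finsupp.single v (1 : ℤ)) = 1 := by
  classical
  obtain ⟨c, hc⟩ := exists_threshold hF
  set n : ℕ := c.toNat + gg + 1 with hn
  obtain ⟨S₀, hS₀, hcard⟩ := hZ.exists_subset_card_eq n
  have hdeg : ∀ S : Finset (Place ℂ F),
      Divisor.degree (∑ v ∈ S, Finsupp.single v (1 : ℤ)) = S.card := fun S => by
    simp [map_sum, hF.deg_eq_one]
  suffices h : ∀ m : ℕ, ∀ S : Finset (Place ℂ F), S.card = m → ↑S ⊆ Z →
      ell (∑ v ∈ S, Finsupp.single v (1 : ℤ)) = m + 1 - gg → gg ≤ m →
      ∃ S : Finset (Place ℂ F), S.card = gg ∧ ↑S ⊆ Z ∧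
        ell (∑ v ∈ S, Finsupp.single v (1 : ℤ)) = 1 by
    refine h n S₀ hcard hS₀ ?_ (by omega)
    rw [hc _ (by rw [hdeg, hcard, hn]; push_cast; omega), hdeg, hcard]
  intro m
  induction m with
  | zero => intro S hS hsub hell hg; exact ⟨S, by omega, hsub, by rw [hell]; omega⟩
  | succ m ih =>
    intro S hS hsub hell hg
    rcases eq_or_lt_of_le hg with heq | hlt
    · exact ⟨S, by omega, hsub, by rw [hell]; omega⟩
    -- some point of `S` is not a base point
    obtain ⟨v, hv, hlt'⟩ : ∃ v ∈ S, ell (∑ u ∈ S.erase v, Finsupp.single u (1 : ℤ)) <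
        ell (∑ u ∈ S, Finsupp.single u (1 : ℤ)) := by
      by_contra hno
      push Not at hno
      have hle : riemannRochSpace (∑ u ∈ S, Finsupp.single u (1 : ℤ)) ≤
          riemannRochSpace (0 : Divisor ℂ F) := by
        intro f hf
        rw [mem_riemannRochSpace]
        intro w
        by_cases hw : w ∈ S
        · have hsub' : riemannRochSpace (∑ u ∈ S.erase w, Finsupp.single u (1 : ℤ)) ≤
              riemannRochSpace (∑ u ∈ S, Finsupp.single u (1 : ℤ)) := riemannRochSpace_mono
            (Finset.sum_le_sum_of_subset_of_nonneg (Finset.erase_subset _ _)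
              fun u _ _ => Finsupp.single_nonneg.2 zero_le_one)
          haveI := finite_riemannRochSpace hF (∑ u ∈ S, Finsupp.single u (1 : ℤ))
          rw [← Submodule.eq_of_le_of_finrank_le hsub' (Int.ofNat_le.1 (hno w hw)),
            mem_riemannRochSpace] at hf
          have := hf w
          rw [Finset.sum_apply', Finset.sum_eq_zero fun u hu =>
            Finsupp.single_eq_of_ne (Finset.ne_of_mem_erase hu).symm] at this
          simpa using this
        · have := (mem_riemannRochSpace.1 hf) w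
          rw [Finset.sum_apply', Finset.sum_eq_zero fun u hu =>
            Finsupp.single_eq_of_ne fun e => hw (by rw [e]; exact hu)] at this
          simpa using this
      haveI := finite_riemannRochSpace hF (0 : Divisor ℂ F)
      have h2 : ell (∑ u ∈ S, Finsupp.single u (1 : ℤ)) ≤ ell (0 : Divisor ℂ F) :=
        Int.ofNat_le.2 (Submodule.finrank_mono hle)
      rw [ell_zero hF, hell] at h2
      omega
    refine ih (S.erase v) (by rw [Finset.card_erase_of_mem hv, hS]; omega)
      (fun u hu => hsub (Finset.mem_of_mem_erase hu)) ?_ (by omega)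
    have h1 := riemann_inequality hF (∑ u ∈ S.erase v, Finsupp.single u (1 : ℤ))
    rw [hdeg, Finset.card_erase_of_mem hv, hS] at h1
    rw [hell] at hlt'
    push_cast at h1 hlt' ⊢
    omega

/-- An arc over a disc of unramified values, and the integrals along it. -/
structure Frame where
  x : F
  γ : ℂ → Place ℂ F
  ρ : ℝ
  pos : 0 < ρ
  trans : Transcendental ℂ x
  arc : ∀ s ∈ ball (0 : ℂ) ρ, IsArc x s γ
  card : ∀ s ∈ ball (0 : ℂ) ρ, (fibre hF x s).card = Module.finrank ℂ⟮x⟯ F
  ψ : Fin (FA.Curve.genus ℂ F) → F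
  indep : LinearIndependent ℂ ψ
  reg : ∀ j, IsRegDiff ℂ x (ψ j)
  J : Fin (FA.Curve.genus ℂ F) → ℂ → ℂ
  Φ : Fin (FA.Curve.genus ℂ F) → ℂ → ℂ
  analyticJ : ∀ j, ∀ s ∈ ball (0 : ℂ) ρ, AnalyticAt ℂ (J j) s
  valJ : ∀ j, ∀ s ∈ ball (0 : ℂ) ρ, HasValue (γ s) (ψ j) (J j s)
  derivΦ : ∀ j, ∀ s ∈ ball (0 : ℂ) ρ, HasDerivAt (Φ j) (J j s) s

include hF in
/-- Frames exist. -/
theorem exists_frame : Nonempty (Frame hF) := by
  classical
  haveI := infinite_places hF
  haveI := place_t2 hF
  obtain ⟨P⟩ := (inferInstance : Nonempty (Place ℂ F))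
  obtain ⟨x, y, hP, h⟩ := exists_isSep hF P
  haveI := hF.finiteDimensional h.trans
  haveI : Algebra.IsSeparable ℂ⟮x⟯ F := inferInstance
  choose δ hδ0 hδ using fun i : fibre hF x (0 : ℂ) => exists_arc_of_sep hF h i.2
  have hdist : ∀ i j : fibre hF x (0 : ℂ), ∀ᶠ s in 𝓝 (0 : ℂ), δ i s = δ j s → i = j := fun i j => by
    by_cases hij : i = j
    · exact Eventually.of_forall fun _ _ => hij
    obtain ⟨V, W, hV, hW, hiV, hjW, hVW⟩ :=
      t2_separation (show (i : Place ℂ F) ≠ j from fun e => hij (Subtype.ext e))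
    have hc : ∀ k, Tendsto (δ k) (𝓝 0) (𝓝 (k : Place ℂ F)) := fun k => by
      have := (hδ k).self_of_nhds.map_nhds.le
      rwa [hδ0 k] at this
    filter_upwards [(hc i).eventually (hV.mem_nhds hiV), (hc j).eventually (hW.mem_nhds hjW)]
      with s hs hs' e
    exact absurd (e ▸ hs' : δ i s ∈ W) (Set.disjoint_left.1 hVW hs)
  obtain ⟨ρ, hρ, hball⟩ := Metric.eventually_nhds_iff_ball.1
    ((eventually_all.2 hδ).and (eventually_all.2 fun i => eventually_all.2 (hdist i)))
  set γ := δ ⟨P, hP⟩
  have harc : ∀ s ∈ ball (0 : ℂ) ρ, IsArc x s γ := fun s hs => (hball s hs).1 _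
  have hcard : ∀ s ∈ ball (0 : ℂ) ρ, (fibre hF x s).card = Module.finrank ℂ⟮x⟯ F := fun s hs => by
    refine le_antisymm (card_fibre_le hF h.trans s) ?_
    rw [← h.card, ← Fintype.card_coe, ← Finset.card_univ]
    refine Finset.card_le_card_of_injOn (fun i => δ i s) (fun i _ => ?_)
      fun i _ j _ e => (hball s hs).2 i j e
    exact (mem_fibre hF).2 ((hasValue_iff_pos h.trans).1
      ((hball s hs).1 i).simple.self_of_nhds.1)
  obtain ⟨ψ, hli, hdual⟩ := exists_dual hF h.trans
  have hreg : ∀ j, IsRegDiff ℂ x (ψ j) := fun j => (hdual j).isRegDiff hF h.trans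
  set J : Fin gg → ℂ → ℂ := fun j s => unc (val (γ s) (ψ j))
  have hJ : ∀ j, ∀ s ∈ ball (0 : ℂ) ρ, HasValue (γ s) (ψ j) (J j s) := fun j s hs => by
    obtain ⟨hv, h1⟩ := (harc s hs).simple.self_of_nhds
    obtain ⟨c, hc⟩ := exists_hasValue hF (f := ψ j) (P := γ s) (by
      simpa [h1] using (hreg j).1 (γ s) s hv)
    simp only [J, val_of_hasValue hc]
    exact hc
  have hJan : ∀ j, ∀ s ∈ ball (0 : ℂ) ρ, AnalyticAt ℂ (J j) s := fun j s hs => by
    obtain ⟨H, hH, hHv⟩ := (harc s hs).analytic (ψ j) (hJ j s hs).atLeast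
    refine hH.congr ?_
    filter_upwards [hHv, isOpen_ball.mem_nhds hs] with s' h1 h2
    exact h1.unique (hJ j s' h2)
  choose Φ hΦ using fun j => DifferentiableOn.isExactOn_ball (f := J j) (c := (0 : ℂ)) (r := ρ)
    fun s hs => (hJan j s hs).differentiableAt.differentiableWithinAt
  exact ⟨⟨x, γ, ρ, hρ, h.trans, harc, hcard, ψ, hli, hreg, J, Φ, hJan, hJ, hΦ⟩⟩

namespace Frame

variable {hF} (X : Frame hF)

theorem valX {s : ℂ} (hs : s ∈ ball (0 : ℂ) X.ρ) : HasValue (X.γ s) X.x s :=
  (X.arc s hs).simple.self_of_nhds.1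

theorem injOn : Set.InjOn X.γ (ball (0 : ℂ) X.ρ) := fun _ hs _ hs' e =>
  (X.valX hs).unique (e ▸ X.valX hs')

theorem isFamily {ι : Type} [Fintype ι] {a : ι → ℂ} (ha : Function.Injective a)
    (hb : ∀ i, a i ∈ ball (0 : ℂ) X.ρ) : IsFamily (fun _ : ι => X.x) a fun _ => X.γ :=
  ⟨fun i => eventually_of_mem (isOpen_ball.mem_nhds (hb i)) X.arc,
    fun i j e => ha (X.injOn (hb i) (hb j) e)⟩

include X in
/-- Nonspecial tuples of distinct points on the arc, avoiding a finite set. -/
theorem exists_tuple (T : Finset ℂ) :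
    ∃ a : Fin gg → ℂ, Function.Injective a ∧ (∀ i, a i ∈ ball (0 : ℂ) X.ρ ∧ a i ∉ T) ∧
      ell (sumPts fun i => X.γ (a i)) = 1 := by
  classical
  have hinf : (ball (0 : ℂ) X.ρ).Infinite :=
    infinite_of_mem_nhds 0 (isOpen_ball.mem_nhds (mem_ball_self X.pos))
  obtain ⟨S, hS, hsub, hell⟩ := exists_nonspecial_within hF
    ((hinf.sdiff T.finite_toSet).image (X.injOn.mono Set.sdiff_subset))
  choose s hs hsv using fun v : S => hsub v.2
  let e : Fin gg ≃ S := (finCongr hS.symm).trans S.equivFin.symm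
  refine ⟨fun i => s (e i), fun i j hij => e.injective (Subtype.ext ?_), fun i => hs (e i), ?_⟩
  · rw [← hsv (e i), ← hsv (e j)]; exact congrArg X.γ hij
  · have hsum : sumPts (fun i => X.γ (s (e i))) = ∑ v ∈ S, Finsupp.single v (1 : ℤ) := by
      simp only [sumPts, hsv]
      rw [e.sum_comp (fun v : S => Finsupp.single (v : Place ℂ F) (1 : ℤ))]
      exact Finset.sum_coe_sort S fun v => Finsupp.single v (1 : ℤ)
    rw [hsum]; exact hell

variable {a : Fin (FA.Curve.genus ℂ F) → ℂ}

/-- No regular differential vanishes at all points of a nonspecial tuple. -/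
theorem eq_zero_of_vanish (ha : Function.Injective a) (hb : ∀ i, a i ∈ ball (0 : ℂ) X.ρ)
    (hell : ell (sumPts fun i => X.γ (a i)) = 1) {c : Fin gg → ℂ}
    (hc : ∀ i, ∑ j, c j * X.J j (a i) = 0) : c = 0 := by
  classical
  set ψ := ∑ j, algebraMap ℂ F (c j) * X.ψ j with hψdef
  have hψ : IsRegDiff ℂ X.x ψ :=
    ⟨fun P z hz => atLeast_sum fun j _ => ((X.reg j).1 P z hz).smul (c j),
      fun P hP => atLeast_sum fun j _ => ((X.reg j).2 P hP).smul (c j)⟩
  have hval : ∀ s ∈ ball (0 : ℂ) X.ρ, HasValue (X.γ s) ψ (∑ j, c j * X.J j s) := fun s hs =>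
    HasValue.finsetSum fun j _ => (X.valJ j s hs).smul (c j)
  have hzero : ∀ s ∈ ball (0 : ℂ) X.ρ \ Set.range a, ∑ j, c j * X.J j s = 0 := by
    rintro s ⟨hs, hsa⟩
    set b : Option (Fin gg) → ℂ := fun o => o.elim s a
    have hbi : Function.Injective b := by
      rintro (_ | i) (_ | j) e
      · rfl
      · exact absurd ⟨j, e.symm⟩ hsa
      · exact absurd ⟨i, e⟩ hsa
      · exact congrArg some (ha e)
    have hbb : ∀ o, b o ∈ ball (0 : ℂ) X.ρ := by
      rintro (_ | i)
      · exact hs
      · exact hb i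
    set Q := fun o => X.γ (b o)
    have hQ : Function.Injective Q := fun o o' e => hbi (X.injOn (hbb o) (hbb o') e)
    set B := sumPts Q
    set D₀ := sumPts fun i => X.γ (a i)
    have hB : B = Finsupp.single (X.γ s) 1 + D₀ := Fintype.sum_option _
    obtain ⟨φ, hφ, hφ0⟩ : ∃ φ ∈ riemannRochSpace B, φ ∉ riemannRochSpace D₀ := by
      by_contra hno
      push Not at hno
      haveI := finite_riemannRochSpace hF D₀
      have h1 : ell B ≤ ell D₀ := Int.ofNat_le.2 (Submodule.finrank_mono fun f hf => hno f hf)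
      have h2 := riemann_inequality hF B
      rw [degree_sumPts hF, Fintype.card_option, Fintype.card_fin] at h2
      push_cast at h2
      omega
    have hφB := mem_riemannRochSpace.1 hφ
    have hpole : ∀ o, AtLeast (Q o) (-1) φ := fun o => by
      have := hφB (Q o)
      rwa [sumPts_apply_of_inj hQ] at this
    choose r hr using fun o => exists_hasValue hF
      (f := (X.x - algebraMap ℂ F (b o)) * φ) (P := Q o) (by
        simpa using AtLeast.mul (Or.inr (X.arc _ (hbb o)).simple.self_of_nhds.2.ge :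
          AtLeast (Q o) 1 (X.x - algebraMap ℂ F (b o))) (hpole o))
    have hsum := sum_res_eq_zero hF X.trans hψ (φ := φ) (Finset.univ.image Q)
      (Function.extend Q b 0) (Function.extend Q (fun o => ∑ j, c j * X.J j (b o)) 0)
      (Function.extend Q r 0)
      (fun P hP => by
        obtain ⟨o, -, rfl⟩ := Finset.mem_image.1 hP
        rw [hQ.extend_apply]; exact X.valX (hbb o))
      (fun P hP P' hP' e => by
        obtain ⟨o, -, rfl⟩ := Finset.mem_image.1 hP
        obtain ⟨o', -, rfl⟩ := Finset.mem_image.1 hP'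
        rw [hQ.extend_apply, hQ.extend_apply] at e
        rw [hbi e])
      (fun P hP => by
        obtain ⟨o, -, rfl⟩ := Finset.mem_image.1 hP
        rw [hQ.extend_apply]; exact X.card _ (hbb o))
      (fun R hR => by
        have := hφB R
        rwa [sumPts_apply_of_notMem fun o e => hR (Finset.mem_image.2 ⟨o, Finset.mem_univ o, e⟩),
          neg_zero] at this)
      (fun P hP => by
        obtain ⟨o, -, rfl⟩ := Finset.mem_image.1 hP
        exact hpole o)
      (fun P hP => by
        obtain ⟨o, -, rfl⟩ := Finset.mem_image.1 hP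
        rw [hQ.extend_apply]; exact hval _ (hbb o))
      (fun P hP => by
        obtain ⟨o, -, rfl⟩ := Finset.mem_image.1 hP
        rw [hQ.extend_apply, hQ.extend_apply]; exact hr o)
    rw [Finset.sum_image hQ.injOn] at hsum
    simp only [hQ.extend_apply, Fintype.sum_option] at hsum
    have hrest : ∑ i, r (some i) * ∑ j, c j * X.J j (b (some i)) = 0 :=
      Finset.sum_eq_zero fun i _ => by rw [show b (some i) = a i from rfl, hc, mul_zero]
    rw [hrest, add_zero, show b none = s from rfl] at hsum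
    refine (mul_eq_zero.1 hsum).resolve_left fun hr0 => hφ0 ?_
    refine mem_riemannRochSpace.2 fun R => ?_
    have hR := hφB R
    rw [hB, Finsupp.add_apply] at hR
    rcases eq_or_ne R (X.γ s) with rfl | hne
    · have hD : D₀ (X.γ s) = 0 :=
        sumPts_apply_of_notMem fun i e => hsa ⟨i, X.injOn (hb i) hs e⟩
      rw [hD, neg_zero]
      have h1 := hr none
      rw [hr0, hasValue_zero_iff] at h1
      rcases eq_or_ne φ 0 with h0 | h0
      · rw [h0]; exact atLeast_zero
      have hx0 := ne_sub_const X.trans s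
      refine Or.inr ?_
      have h2 := (atLeast_iff (mul_ne_zero hx0 h0)).1 h1
      rw [show Q none = X.γ s from rfl, (X.γ s).ord_mul hx0 h0,
        (X.arc s hs).simple.self_of_nhds.2] at h2
      omega
    · rwa [Finsupp.single_eq_of_ne hne, zero_add] at hR
  have hψ0 : ψ = 0 := by
    by_contra hne
    have hinf : (ball (0 : ℂ) X.ρ).Infinite :=
      infinite_of_mem_nhds 0 (isOpen_ball.mem_nhds (mem_ball_self X.pos))
    refine ((hinf.sdiff (Set.finite_range a)).image (X.injOn.mono Set.sdiff_subset))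
      ((finite_zeros hF ψ).subset ?_)
    rintro _ ⟨s, hs, rfl⟩
    have h1 := hval s hs.1
    rw [hzero s hs, hasValue_zero_iff, atLeast_iff hne] at h1
    exact h1
  refine funext (Fintype.linearIndependent_iff.1 X.indep c ?_)
  rw [← hψ0, hψdef]
  exact Finset.sum_congr rfl fun j _ => Algebra.smul_def _ _

/-- The sums of integrals from the tuple `a` to `u`. -/
def psum (a u : Fin gg → ℂ) : Fin gg → ℂ := fun j => ∑ i, (X.Φ j (u i) - X.Φ j (a i))

theorem psum_self (a : Fin gg → ℂ) : X.psum a a = 0 := by funext j; simp [psum]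

/-- The sums of integrals are coordinates near a nonspecial tuple. -/
theorem exists_chart (ha : Function.Injective a) (hb : ∀ i, a i ∈ ball (0 : ℂ) X.ρ)
    (hell : ell (sumPts fun i => X.γ (a i)) = 1) :
    ∃ L : (Fin gg → ℂ) → (Fin gg → ℂ), Tendsto L (𝓝 0) (𝓝 a) ∧
      (∀ᶠ v in 𝓝 0, X.psum a (L v) = v) ∧ Tendsto (X.psum a) (𝓝 a) (𝓝 0) ∧
      ∀ᶠ u in 𝓝 a, L (X.psum a u) = u := by
  classical
  let M : Matrix (Fin gg) (Fin gg) ℂ := Matrix.of fun j i => X.J j (a i)
  have hvec : Function.Injective M.vecMul := by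
    intro c c' e
    refine sub_eq_zero.1 (X.eq_zero_of_vanish ha hb hell (c := c - c') fun i => ?_)
    have h1 : Matrix.vecMul (c - c') M i = 0 := by
      rw [Matrix.sub_vecMul, Pi.sub_apply, show Matrix.vecMul c M = Matrix.vecMul c' M from e,
        sub_self]
    exact h1
  have hM : Function.Injective M.mulVec :=
    Matrix.mulVec_injective_iff_isUnit.2 (Matrix.vecMul_injective_iff_isUnit.1 hvec)
  let d : (Fin gg → ℂ) →L[ℂ] (Fin gg → ℂ) := ContinuousLinearMap.pi fun j =>
    ∑ i, X.J j (a i) • (ContinuousLinearMap.proj i : (Fin gg → ℂ) →L[ℂ] ℂ)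
  have hd : ∀ u, d u = M.mulVec u := fun u => by
    funext j; simp [d, M, Matrix.mulVec, dotProduct]
  have hinj : Function.Injective (d : (Fin gg → ℂ) →ₗ[ℂ] Fin gg → ℂ) := fun u v e =>
    hM (by rw [← hd, ← hd]; exact e)
  let e : (Fin gg → ℂ) ≃L[ℂ] (Fin gg → ℂ) :=
    (LinearEquiv.ofInjectiveEndo _ hinj).toContinuousLinearEquiv
  have hder : HasStrictFDerivAt (X.psum a) (d : (Fin gg → ℂ) →L[ℂ] Fin gg → ℂ) a := by
    refine hasStrictFDerivAt_pi.2 fun j => HasStrictFDerivAt.fun_sum fun i _ => ?_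
    have han : AnalyticAt ℂ (X.Φ j) (a i) := by
      refine DifferentiableOn.analyticAt (s := ball (0 : ℂ) X.ρ)
        (fun s hs => (X.derivΦ j s hs).differentiableAt.differentiableWithinAt)
        (isOpen_ball.mem_nhds (hb i))
    have h1 : HasStrictDerivAt (X.Φ j) (X.J j (a i)) (a i) := by
      have := han.hasStrictDerivAt
      rwa [(X.derivΦ j (a i) (hb i)).deriv] at this
    exact (h1.comp_hasStrictFDerivAt a (hasStrictFDerivAt_apply i a)).sub_const _
  have hde : (e : (Fin gg → ℂ) →L[ℂ] Fin gg → ℂ) = d := ContinuousLinearMap.ext fun u => rfl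
  rw [← hde] at hder
  have h0 := X.psum_self a
  refine ⟨hder.localInverse (X.psum a) e a, ?_, ?_, ?_, hder.eventually_left_inverse⟩
  · have := hder.localInverse_tendsto; rwa [h0] at this
  · have := hder.eventually_right_inverse; rwa [h0] at this
  · have := hder.continuousAt.tendsto; rwa [h0] at this

end Frame

end FA.PicTors

end
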