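import Fermat.Agent.PicTors.System
import Fermat.Agent.PicTors.Class

/-!
# Moving part of a family freely inside its linear system

If the complement of the points indexed by `T` is a nonspecial divisor of degree `genus`, those
points can be moved arbitrarily, the others following, inside the linear system of the family.
-/

set_option autoImplicit false
set_option linter.style.haveILetI false
set_option linter.unusedSectionVars false

noncomputable section

namespace FA.PicTors

open AlgebraicCurve FA.Curve FA.ModField Filter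
open scoped Topology

variable {F : Type} [Field F] [Algebra ℂ F] (hF : IsFunctionField ℂ F)
  {ι : Type} [Fintype ι] {t : ι → F} {a : ι → ℂ} {γ : ι → ℂ → Place ℂ F} (h : IsFamily t a γ)

include hF h in
/-- Parameters for which prescribed points move as wanted. -/
theorem IsFamily.exists_move {κ : Type} [Fintype κ] (T : κ → ι) (hT : Function.Injective T)
    (D₀ : Divisor ℂ F) (h1 : ell D₀ = 1)
    (hD : sumPts (fun i => γ i (a i)) = D₀ + sumPts fun k => γ (T k) (a (T k)))
    (hcard : Fintype.card ι = FA.Curve.genus ℂ F + Fintype.card κ) :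
    ∃ φ H U M, (∀ k, φ k ∈ riemannRochSpace (sumPts fun i => γ i (a i))) ∧
      Sys (t := t) (a := a) (γ := γ) (κ := κ) hF φ H U ∧
      Tendsto M (𝓝 fun k => a (T k)) (𝓝 0) ∧
      ∀ᶠ v in 𝓝 (fun k => a (T k)), ∀ k, U (M v) (T k) = v k := by
  classical
  set B := sumPts fun i => γ i (a i)
  set P := fun k => γ (T k) (a (T k))
  have hPinj : Function.Injective P := fun k l e => hT (h.inj e)
  -- the principal parts at the points that move
  have hmem : ∀ (f : riemannRochSpace B) k, AtLeast (P k) 0
      ((t (T k) - algebraMap ℂ F (a (T k))) * (f : F)) := fun f k => by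
    have e1 : AtLeast (P k) 1 (t (T k) - algebraMap ℂ F (a (T k))) :=
      Or.inr (h.arc_self (T k)).simple.self_of_nhds.2.ge
    have e2 := mem_riemannRochSpace.1 f.2 (P k)
    rw [sumPts_apply_of_inj h.inj] at e2
    simpa using e1.mul e2
  choose r hr using fun (f : riemannRochSpace B) k => exists_hasValue hF (hmem f k)
  let R : riemannRochSpace B →ₗ[ℂ] (κ → ℂ) :=
    { toFun := r
      map_add' := fun f g => funext fun k => (hr (f + g) k).unique (by
        have := (hr f k).add (hr g k)
        rwa [← mul_add] at this)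
      map_smul' := fun c f => funext fun k => (hr (c • f) k).unique (by
        have := (hr f k).smul c
        rwa [mul_left_comm, ← Algebra.smul_def] at this) }
  have hker : ∀ f : LinearMap.ker R, ((f : riemannRochSpace B) : F) ∈ riemannRochSpace D₀ := by
    intro f
    refine mem_riemannRochSpace.2 fun Q => ?_
    have e1 := mem_riemannRochSpace.1 (f : riemannRochSpace B).2 Q
    have hBQ : ∀ Q, B Q = D₀ Q + sumPts P Q := fun Q =>
      (DFunLike.congr_fun hD Q).trans (Finsupp.add_apply _ _ _)
    rw [hBQ] at e1
    by_cases hQ : ∀ k, P k ≠ Q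
    · rwa [sumPts_apply_of_notMem hQ, add_zero] at e1
    push Not at hQ
    obtain ⟨k, rfl⟩ := hQ
    rcases eq_or_ne ((f : riemannRochSpace B) : F) 0 with e0 | e0
    · exact Or.inl e0
    have e2 : D₀ (P k) = 0 := by
      have e3 := sumPts_apply_of_inj h.inj (T k)
      rw [show sumPts (fun i => γ i (a i)) = B from rfl, hBQ,
        show γ (T k) (a (T k)) = P k from rfl, sumPts_apply_of_inj hPinj] at e3
      omega
    have e4 := hr (f : riemannRochSpace B) k
    rw [show r (f : riemannRochSpace B) k = 0 from congrFun (LinearMap.mem_ker.1 f.2) k,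
      hasValue_zero_iff] at e4
    have hne := ne_sub_const (h.arc_self (T k)).trans (a (T k))
    have e5 := (atLeast_iff (mul_ne_zero hne e0)).1 e4
    rw [(P k).ord_mul hne e0, (h.arc_self (T k)).simple.self_of_nhds.2] at e5
    refine Or.inr ?_
    rw [e2]; omega
  haveI := finite_riemannRochSpace hF B
  haveI := finite_riemannRochSpace hF D₀
  have hsurj : Function.Surjective R := by
    rw [← LinearMap.range_eq_top]
    refine Submodule.eq_top_of_finrank_eq (le_antisymm (Submodule.finrank_le _) ?_)
    have e1 := LinearMap.finrank_range_add_finrank_ker R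
    have e2 : Module.finrank ℂ (LinearMap.ker R) ≤ Module.finrank ℂ (riemannRochSpace D₀) :=
      LinearMap.finrank_le_finrank_of_injective (f := ((riemannRochSpace B).subtype.comp
        (LinearMap.ker R).subtype).codRestrict _ hker) fun f g e =>
          Subtype.ext (Subtype.ext (by have e' := congrArg Subtype.val e; exact e'))
    have e3 := riemann_inequality hF B
    rw [degree_sumPts hF, hcard] at e3
    rw [FA.Curve.ell] at e3 h1
    rw [Module.finrank_fintype_fun_eq_card]
    omega
  choose φ hφ using fun k => hsurj (Pi.single k 1)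
  obtain ⟨H, U, hs⟩ := h.exists_sys hF (fun k => (φ k : F)) fun k => (φ k).2
  have hH : ∀ l k, H (T l) k (a (T l)) = if l = k then 1 else 0 := fun l k => by
    rw [(hs.valH (T l) k).self_of_nhds.unique (hr (φ k) l),
      show r (φ k) = Pi.single k 1 from hφ k, Pi.single_apply]
  -- the derivative of the moving points
  set M₀ : (κ → ℂ) → κ → ℂ := fun c l => U c (T l)
  have hd : HasFDerivAt M₀ (-ContinuousLinearMap.id ℂ (κ → ℂ)) 0 := by
    refine hasFDerivAt_pi'.2 fun l => ?_
    set dU := fderiv ℂ (fun c => U c (T l)) 0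
    have hdU : HasFDerivAt (fun c => U c (T l)) dU 0 :=
      (((ContinuousLinearMap.proj (T l) : (ι → ℂ) →L[ℂ] ℂ).analyticAt _).comp
        hs.an).differentiableAt.hasFDerivAt
    refine hdU.congr_fderiv (ContinuousLinearMap.ext fun δ => ?_)
    have d1 : HasFDerivAt (fun c => U c (T l) - a (T l) + ∑ k, c k * H (T l) k (U c (T l)))
        (dU + ∑ k, ((0 : κ → ℂ) k • (deriv (H (T l) k) (a (T l)) • dU) +
          H (T l) k (a (T l)) • (ContinuousLinearMap.proj k : (κ → ℂ) →L[ℂ] ℂ))) 0 := by
      refine (hdU.sub_const (a (T l))).add (HasFDerivAt.fun_sum fun k _ => ?_)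
      have hU0 : U 0 (T l) = a (T l) := by rw [hs.zero]
      have := (ContinuousLinearMap.proj k : (κ → ℂ) →L[ℂ] ℂ).hasFDerivAt.fun_mul
        (((hU0 ▸ (hs.anH (T l) k).self_of_nhds : AnalyticAt ℂ (H (T l) k)
          (U 0 (T l)))).differentiableAt.hasDerivAt.comp_hasFDerivAt 0 hdU)
      simp only [Function.comp_apply, hU0] at this
      exact this
    have d2 := (d1.congr_of_eventuallyEq (hs.root.mono fun c hc => (hc (T l)).symm)).unique
      (hasFDerivAt_const (0 : ℂ) 0)
    have d3 := DFunLike.congr_fun d2 δ
    simp only [add_apply, sum_apply, smul_apply, ContinuousLinearMap.proj_apply, smul_eq_mul,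
      zero_apply, Pi.zero_apply, zero_mul, zero_add, hH, ite_mul, one_mul, Finset.sum_ite_eq,
      Finset.mem_univ, if_true] at d3
    simp only [ContinuousLinearMap.comp_apply, ContinuousLinearMap.proj_apply, neg_apply,
      ContinuousLinearMap.id_apply, Pi.neg_apply]
    linear_combination d3
  have hM₀ : AnalyticAt ℂ M₀ 0 := AnalyticAt.pi fun l =>
    ((ContinuousLinearMap.proj (T l) : (ι → ℂ) →L[ℂ] ℂ).analyticAt _).comp hs.an
  have hstrict : HasStrictFDerivAt M₀
      ((ContinuousLinearEquiv.neg ℂ : (κ → ℂ) ≃L[ℂ] κ → ℂ) : (κ → ℂ) →L[ℂ] κ → ℂ) 0 := by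
    have := hM₀.hasStrictFDerivAt
    rw [hd.fderiv] at this
    exact this.congr_fderiv (ContinuousLinearMap.ext fun v => rfl)
  have hM00 : M₀ 0 = fun k => a (T k) := funext fun k => congrFun hs.zero (T k)
  refine ⟨fun k => (φ k : F), H, U, hstrict.localInverse M₀ _ 0, fun k => (φ k).2, hs, ?_, ?_⟩
  · have := hstrict.localInverse_tendsto; rwa [hM00] at this
  · have := hstrict.eventually_right_inverse
    rw [hM00] at this
    exact this.mono fun v hv k => congrFun hv k

include hF h in
/-- The family moves inside its class with the prescribed points. -/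
theorem IsFamily.exists_move_cls {κ : Type} [Fintype κ] (T : κ → ι) (hT : Function.Injective T)
    (D₀ : Divisor ℂ F) (h1 : ell D₀ = 1)
    (hD : sumPts (fun i => γ i (a i)) = D₀ + sumPts fun k => γ (T k) (a (T k)))
    (hcard : Fintype.card ι = FA.Curve.genus ℂ F + Fintype.card κ) (O : Place ℂ F) :
    ∃ W : (κ → ℂ) → ι → ℂ, Tendsto W (𝓝 fun k => a (T k)) (𝓝 a) ∧
      ∀ᶠ v in 𝓝 (fun k => a (T k)), (∀ k, W v (T k) = v k) ∧
        cls hF O (sumPts fun i => γ i (W v i)) = cls hF O (sumPts fun i => γ i (a i)) := by
  obtain ⟨φ, H, U, M, -, hs, hM, hMv⟩ := h.exists_move hF T hT D₀ h1 hD hcard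
  have hU : Tendsto U (𝓝 0) (𝓝 a) := by
    have := hs.an.continuousAt.tendsto; rwa [hs.zero] at this
  exact ⟨fun v => U (M v), hU.comp hM, hMv.and ((hM.eventually hs.div).mono fun v hv =>
    cls_eq_of_equiv hF O hv.1 hv.2)⟩

end FA.PicTors

end
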