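import Fermat.Agent.PicTors.Abel
import Fermat.Agent.PicTors.Frame
import Fermat.Agent.PicTors.Moving
import Mathlib.Analysis.Normed.Module.Basic

/-!
# The exponential map `ℂ^g → Pic⁰`

By Abel's theorem the class of `∑ P i - ∑ P i⁰` is additive in the sums of integrals; it extends
to a homomorphism with discrete kernel whose image contains all `Q - P` for `Q` near `P`.
-/

set_option autoImplicit false
set_option linter.style.haveILetI false
set_option linter.unusedSectionVars false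

noncomputable section

namespace FA.PicTors

open AlgebraicCurve FA.Curve FA.ModField Filter Metric
open scoped Topology

/-- A locally additive map extends to a homomorphism. -/
theorem exists_hom_of_local {V A : Type} [NormedAddCommGroup V] [NormedSpace ℝ V] [AddCommGroup A]
    (h : V → A) (r : ℝ) (hr : 0 < r)
    (hadd : ∀ v ∈ ball (0 : V) r, ∀ w ∈ ball (0 : V) r, h (v + w) = h v + h w) :
    ∃ E : V →+ A, ∀ v ∈ ball (0 : V) r, E v = h v := by
  have h0 : h 0 = 0 := by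
    have := hadd 0 (mem_ball_self hr) 0 (mem_ball_self hr)
    rw [add_zero] at this
    exact left_eq_add.1 this
  have hk : ∀ (v : V) (k : ℕ), (∀ j ≤ k, (j : ℝ) • v ∈ ball (0 : V) r) →
      h ((k : ℝ) • v) = k • h v := by
    intro v k
    induction k with
    | zero => intro _; simp [h0]
    | succ k ih =>
      intro hmem
      rcases Nat.eq_zero_or_pos k with rfl | hk
      · simp
      have h1 : v ∈ ball (0 : V) r := by simpa using hmem 1 (by omega)
      rw [Nat.cast_succ, add_smul, one_smul, hadd _ (hmem k (by omega)) v h1,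
        ih fun j hj => hmem j (by omega), succ_nsmul]
  have hsmall : ∀ (v : V), v ∈ ball (0 : V) r → ∀ N : ℕ, 0 < N →
      N • h ((N : ℝ)⁻¹ • v) = h v := by
    intro v hv N hN
    have hN' : (0 : ℝ) < N := by exact_mod_cast hN
    rw [← hk ((N : ℝ)⁻¹ • v) N fun j hj => ?_, smul_inv_smul₀ hN'.ne']
    rw [mem_ball_zero_iff] at hv ⊢
    rw [smul_smul, norm_smul, Real.norm_eq_abs, abs_of_nonneg (by positivity)]
    refine lt_of_le_of_lt (mul_le_of_le_one_left (norm_nonneg v) ?_) hv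
    rw [← div_eq_mul_inv, div_le_one hN']
    exact_mod_cast hj
  have hind : ∀ (v : V) (M N : ℕ), 0 < M → 0 < N → (M : ℝ)⁻¹ • v ∈ ball (0 : V) r →
      (N : ℝ)⁻¹ • v ∈ ball (0 : V) r → M • h ((M : ℝ)⁻¹ • v) = N • h ((N : ℝ)⁻¹ • v) := by
    intro v M N hM hN hMv hNv
    rw [← hsmall _ hMv N hN, ← hsmall _ hNv M hM, smul_smul, smul_smul, smul_smul, smul_smul,
      mul_comm M N, mul_comm (N : ℝ)⁻¹]
  let N : V → ℕ := fun v => ⌈‖v‖ / r⌉₊ + 1
  have hN : ∀ (v : V) (M : ℕ), N v ≤ M → 0 < M ∧ (M : ℝ)⁻¹ • v ∈ ball (0 : V) r := by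
    intro v M hM
    have h1 : ‖v‖ / r < M := by
      refine lt_of_le_of_lt (Nat.le_ceil _) ?_
      exact_mod_cast (show ⌈‖v‖ / r⌉₊ < M by simp only [N] at hM; omega)
    have hM0 : 0 < M := by simp only [N] at hM; omega
    refine ⟨hM0, ?_⟩
    have hM' : (0 : ℝ) < M := by exact_mod_cast hM0
    rw [mem_ball_zero_iff, norm_smul, Real.norm_eq_abs, abs_of_pos (inv_pos.2 hM'),
      inv_mul_lt_iff₀ hM']
    rwa [div_lt_iff₀ hr] at h1
  let e : V → A := fun v => N v • h ((N v : ℝ)⁻¹ • v)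
  have he : ∀ (v : V) (M : ℕ), N v ≤ M → e v = M • h ((M : ℝ)⁻¹ • v) := fun v M hM =>
    hind v (N v) M (hN v _ le_rfl).1 (hN v M hM).1 (hN v _ le_rfl).2 (hN v M hM).2
  refine ⟨AddMonoidHom.mk' e fun v w => ?_, fun v hv => hsmall v hv _ (hN v _ le_rfl).1⟩
  set M := N v + N w + N (v + w)
  rw [he v M (by simp [M]; omega), he w M (by simp [M]; omega), he (v + w) M (by simp [M]),
    ← smul_add, ← hadd _ (hN v M (by simp [M]; omega)).2 _ (hN w M (by simp [M]; omega)).2,
    smul_add]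

variable {F : Type} [Field F] [Algebra ℂ F] {hF : IsFunctionField ℂ F}

/-- Three disjoint nonspecial tuples on a frame. -/
structure Base (X : Frame hF) where
  a : Fin 3 → Fin (FA.Curve.genus ℂ F) → ℂ
  inj : Function.Injective fun k : Fin 3 × Fin (FA.Curve.genus ℂ F) => a k.1 k.2
  mem : ∀ m i, a m i ∈ ball (0 : ℂ) X.ρ
  ell : ∀ m, FA.Curve.ell (sumPts fun i => X.γ (a m i)) = 1

local notation "gg" => FA.Curve.genus ℂ F

theorem exists_base (X : Frame hF) : Nonempty (Base X) := by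
  classical
  obtain ⟨a0, i0, m0, e0⟩ := X.exists_tuple ∅
  obtain ⟨a1, i1, m1, e1⟩ := X.exists_tuple (Finset.univ.image a0)
  obtain ⟨a2, i2, m2, e2⟩ := X.exists_tuple (Finset.univ.image a0 ∪ Finset.univ.image a1)
  have d1 : ∀ i j, a0 j ≠ a1 i := fun i j e =>
    (m1 i).2 (Finset.mem_image.2 ⟨j, Finset.mem_univ j, e⟩)
  have d2 : ∀ i j, a0 j ≠ a2 i := fun i j e =>
    (m2 i).2 (Finset.mem_union_left _ (Finset.mem_image.2 ⟨j, Finset.mem_univ j, e⟩))
  have d3 : ∀ i j, a1 j ≠ a2 i := fun i j e =>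
    (m2 i).2 (Finset.mem_union_right _ (Finset.mem_image.2 ⟨j, Finset.mem_univ j, e⟩))
  refine ⟨⟨![a0, a1, a2], ?_, ?_, ?_⟩⟩
  · rintro ⟨m, i⟩ ⟨n, j⟩ e
    fin_cases m <;> fin_cases n <;>
      first
        | exact congrArg _ (i0 e)
        | exact congrArg _ (i1 e)
        | exact congrArg _ (i2 e)
        | exact absurd e (d1 _ _)
        | exact absurd e.symm (d1 _ _)
        | exact absurd e (d2 _ _)
        | exact absurd e.symm (d2 _ _)
        | exact absurd e (d3 _ _)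
        | exact absurd e.symm (d3 _ _)
  · intro m i; fin_cases m
    exacts [(m0 i).1, (m1 i).1, (m2 i).1]
  · intro m; fin_cases m
    exacts [e0, e1, e2]

namespace Base

variable {X : Frame hF} (B : Base X)

theorem inj_m (m : Fin 3) : Function.Injective (B.a m) := fun i j e =>
  (Prod.mk.inj (B.inj (show B.a (m, i).1 (m, i).2 = B.a (m, j).1 (m, j).2 from e))).2

/-- The inverse of the sums of integrals near the tuple `m`. -/
def L (m : Fin 3) : (Fin gg → ℂ) → (Fin gg → ℂ) :=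
  (X.exists_chart (B.inj_m m) (B.mem m) (B.ell m)).choose

theorem L_spec (m : Fin 3) : Tendsto (B.L m) (𝓝 0) (𝓝 (B.a m)) ∧
      (∀ᶠ v in 𝓝 0, X.psum (B.a m) (B.L m v) = v) ∧
      Tendsto (X.psum (B.a m)) (𝓝 (B.a m)) (𝓝 0) ∧
      ∀ᶠ u in 𝓝 (B.a m), B.L m (X.psum (B.a m) u) = u :=
  (X.exists_chart (B.inj_m m) (B.mem m) (B.ell m)).choose_spec

theorem L_zero (m : Fin 3) : B.L m 0 = B.a m := by
  have := (B.L_spec m).2.2.2.self_of_nhds
  rwa [X.psum_self] at this

/-- The class of the tuple with sums of integrals `v`, minus that of the base tuple. -/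
def cm (m : Fin 3) (v : Fin gg → ℂ) : Pic0 ℂ F :=
  cls hF (X.γ 0) (sumPts fun i => X.γ (B.L m v i)) - cls hF (X.γ 0) (sumPts fun i => X.γ (B.a m i))

theorem cm_zero (m : Fin 3) : B.cm m 0 = 0 := by rw [cm, L_zero, sub_self]

/-- Abel's theorem for the three tuples. -/
theorem relation : ∀ᶠ p : (Fin gg → ℂ) × (Fin gg → ℂ) in 𝓝 0,
    B.cm 0 (-(p.1 + p.2)) + B.cm 1 p.1 + B.cm 2 p.2 = 0 := by
  classical
  let a : Fin 3 × Fin gg → ℂ := fun k => B.a k.1 k.2
  have hfam : IsFamily (fun _ : Fin 3 × Fin gg => X.x) a (fun _ => X.γ) := X.isFamily B.inj fun k => B.mem _ _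
  let T : Fin 2 × Fin gg → Fin 3 × Fin gg := fun k => (k.1.succ, k.2)
  have hT : Function.Injective T := fun k l e => by
    obtain ⟨e1, e2⟩ := Prod.mk.inj e
    exact Prod.ext (Fin.succ_injective _ e1) e2
  have hprod : ∀ u : Fin 3 × Fin gg → ℂ, sumPts (fun k => X.γ (u k)) =
      sumPts (fun i => X.γ (u (0, i))) + sumPts fun k => X.γ (u (T k)) := fun u => by
    simp only [sumPts, Fintype.sum_prod_type, T, Fin.sum_univ_succ (n := 2)]
  obtain ⟨φ, H, U, M, hφ, hs, hM, hMv⟩ := hfam.exists_move hF T hT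
    (sumPts fun i => X.γ (B.a 0 i)) (B.ell 0) (hprod a) (by
      simp only [Fintype.card_prod, Fintype.card_fin]; ring)
  have habel : ∀ j, ∀ᶠ c in 𝓝 0, ∑ k, X.Φ j (U c k) = ∑ k, X.Φ j (a k) := fun j =>
    hs.abel hF hfam X.trans hφ B.inj
      (fun k => eventually_of_mem (isOpen_ball.mem_nhds (B.mem k.1 k.2)) X.card) (X.reg j)
      (fun _ => X.J j) (fun _ => X.Φ j)
      (fun k => eventually_of_mem (isOpen_ball.mem_nhds (B.mem k.1 k.2)) (X.valJ j))
      (fun k => eventually_of_mem (isOpen_ball.mem_nhds (B.mem k.1 k.2)) (X.derivΦ j))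
  have hU : Tendsto U (𝓝 0) (𝓝 a) := by
    have := hs.an.continuousAt.tendsto; rwa [hs.zero] at this
  -- the points that are prescribed
  set pre : (Fin gg → ℂ) × (Fin gg → ℂ) → Fin 2 × Fin gg → ℂ := fun p k =>
    B.L k.1.succ (![p.1, p.2] k.1) k.2
  have hpre : Tendsto pre (𝓝 0) (𝓝 fun k => a (T k)) := by
    refine tendsto_pi_nhds.2 fun k => ?_
    refine ((continuous_apply k.2).tendsto _).comp ((B.L_spec k.1.succ).1.comp ?_)
    have hc : Continuous fun p : (Fin gg → ℂ) × (Fin gg → ℂ) => ![p.1, p.2] k.1 := by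
      obtain ⟨m, i⟩ := k
      fin_cases m
      exacts [continuous_fst, continuous_snd]
    refine hc.tendsto' 0 0 ?_
    obtain ⟨m, i⟩ := k
    fin_cases m <;> rfl
  set u0 : (Fin gg → ℂ) × (Fin gg → ℂ) → Fin gg → ℂ := fun p i => U (M (pre p)) (0, i)
  have hu0 : Tendsto u0 (𝓝 0) (𝓝 (B.a 0)) := by
    refine tendsto_pi_nhds.2 fun i => ?_
    exact ((continuous_apply ((0 : Fin 3), i)).tendsto a).comp ((hU.comp hM).comp hpre)
  have hp1 : Tendsto (fun p : (Fin gg → ℂ) × (Fin gg → ℂ) => p.1) (𝓝 0) (𝓝 0) :=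
    continuous_fst.tendsto 0
  have hp2 : Tendsto (fun p : (Fin gg → ℂ) × (Fin gg → ℂ) => p.2) (𝓝 0) (𝓝 0) :=
    continuous_snd.tendsto 0
  filter_upwards [(hM.comp hpre).eventually (eventually_all.2 habel),
    (hM.comp hpre).eventually hs.div, hpre.eventually hMv, hu0.eventually (B.L_spec 0).2.2.2,
    hp1.eventually (B.L_spec 1).2.1, hp2.eventually (B.L_spec 2).2.1]
    with p hab hdiv hmv hleft hR1 hR2
  simp only [Function.comp_apply] at hab hdiv
  set c := M (pre p)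
  have hU1 : ∀ i, U c (1, i) = B.L 1 p.1 i := fun i => hmv (0, i)
  have hU2 : ∀ i, U c (2, i) = B.L 2 p.2 i := fun i => hmv (1, i)
  have hps : X.psum (B.a 0) (u0 p) = -(p.1 + p.2) := by
    funext j
    have e1 := congrFun hR1 j
    have e2 := congrFun hR2 j
    have e3 := hab j
    simp only [Fintype.sum_prod_type, Fin.sum_univ_three, a] at e3
    simp only [hU1, hU2] at e3
    simp only [Frame.psum, Finset.sum_sub_distrib] at e1 e2
    simp only [Frame.psum, Finset.sum_sub_distrib, Pi.neg_apply, Pi.add_apply, u0]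
    linear_combination e3 - e1 - e2
  have hcls := cls_eq_of_equiv hF (X.γ 0) hdiv.1 hdiv.2
  simp only [cls_sumPts, Fintype.sum_prod_type, Fin.sum_univ_three, a] at hcls
  simp only [hU1, hU2] at hcls
  rw [cm, cm, cm, ← hps, hleft]
  simp only [cls_sumPts]
  rw [show (1 : Fin 3) = 1 from rfl] at hcls
  linear_combination (norm := abel) hcls

theorem eventually_add : ∀ᶠ p : (Fin gg → ℂ) × (Fin gg → ℂ) in 𝓝 0,
    B.cm 0 (p.1 + p.2) = B.cm 0 p.1 + B.cm 0 p.2 := by
  have t : ∀ f : (Fin gg → ℂ) × (Fin gg → ℂ) → (Fin gg → ℂ) × (Fin gg → ℂ),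
      Continuous f → f 0 = 0 → ∀ᶠ p in 𝓝 0,
        B.cm 0 (-((f p).1 + (f p).2)) + B.cm 1 (f p).1 + B.cm 2 (f p).2 = 0 :=
    fun f hf h0 => (hf.tendsto' 0 0 h0).eventually B.relation
  filter_upwards [t (fun p => (-p.1, -p.2)) (by fun_prop) (by simp),
    t (fun p => (-p.1, 0)) (by fun_prop) (by simp),
    t (fun p => (0, -p.2)) (by fun_prop) (by simp)] with p h1 h2 h3
  simp only [neg_add_rev, neg_neg, add_zero, zero_add, B.cm_zero] at h1 h2 h3
  rw [add_comm p.2] at h1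
  linear_combination (norm := abel) h1 - h2 - h3

theorem eventually_eq (m : Fin 3) : ∀ᶠ v in 𝓝 0, B.cm m v = B.cm 0 v := by
  have hn : Tendsto (fun v : Fin gg → ℂ => (-v, v)) (𝓝 0) (𝓝 0) :=
    (by fun_prop : Continuous fun v : Fin gg → ℂ => (-v, v)).tendsto' 0 0 (by simp)
  have h1 : Tendsto (fun v : Fin gg → ℂ => (v, (0 : Fin gg → ℂ))) (𝓝 0) (𝓝 0) :=
    (by fun_prop : Continuous fun v : Fin gg → ℂ => (v, (0 : Fin gg → ℂ))).tendsto' 0 0 rfl
  have h2 : Tendsto (fun v : Fin gg → ℂ => ((0 : Fin gg → ℂ), v)) (𝓝 0) (𝓝 0) :=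
    (by fun_prop : Continuous fun v : Fin gg → ℂ => ((0 : Fin gg → ℂ), v)).tendsto' 0 0 rfl
  filter_upwards [hn.eventually B.eventually_add, h1.eventually B.relation,
    h2.eventually B.relation] with v e0 e1 e2
  simp only [neg_add_cancel, add_zero, zero_add, B.cm_zero] at e0 e1 e2
  fin_cases m
  · rfl
  · show B.cm 1 v = _
    linear_combination (norm := abel) e1 + e0
  · show B.cm 2 v = _
    linear_combination (norm := abel) e2 + e0

theorem eventually_inj : ∀ᶠ v in 𝓝 0, B.cm 0 v = 0 → v = 0 := by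
  have hfam : IsFamily (fun _ : Fin gg => X.x) (B.a 0) (fun _ => X.γ) :=
    X.isFamily (B.inj_m 0) (B.mem 0)
  have hball : ∀ᶠ u in 𝓝 (B.a 0), ∀ i, u i ∈ ball (0 : ℂ) X.ρ := eventually_all.2 fun i =>
    ((continuous_apply i).tendsto _).eventually (isOpen_ball.mem_nhds (B.mem 0 i))
  filter_upwards [(B.L_spec 0).1.eventually (hball.and (hfam.eventually_sep hF)),
    (B.L_spec 0).2.1] with v hu hv h0
  set u := B.L 0 v
  obtain ⟨hub, -, hsep, -⟩ := hu
  obtain ⟨f, hf, hfe⟩ := exists_equiv_of_cls hF (X.γ 0)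
    (by rw [degree_sumPts hF, degree_sumPts hF]) (sub_eq_zero.1 h0)
  have hnn : ∀ (Q : Fin gg → Place ℂ F) R, (0 : ℤ) ≤ sumPts Q R := fun Q R => by
    classical
    rw [sumPts, eval_pt_sum]
    exact Int.natCast_nonneg _
  obtain ⟨c, rfl⟩ := exists_const_of_ell_one hF (f := f) (Finsupp.le_def.2 (hnn _)) (B.ell 0)
    (mem_riemannRochSpace.2 fun R => Or.inr (by
      have e := DFunLike.congr_fun hfe R
      rw [Finsupp.add_apply, divOf_apply] at e
      have := hnn (fun i => X.γ (B.L 0 v i)) R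
      omega))
  rw [show divOf hF (algebraMap ℂ F c) = 0 from Finsupp.ext fun R => by
    rw [divOf_apply, place_ord_algebraMap]; rfl, zero_add] at hfe
  have huinj : Function.Injective fun i => X.γ (u i) := fun i j e => by
    by_contra hne
    exact (hsep i j hne).1 e
  have hueq : u = B.a 0 := funext fun i => by
    have e := DFunLike.congr_fun hfe (X.γ (u i))
    rw [sumPts_apply_of_inj huinj i] at e
    by_contra hne
    rw [sumPts_apply_of_notMem fun j ej => ?_] at e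
    · exact zero_ne_one e
    rcases eq_or_ne i j with rfl | hij
    · exact hne (X.injOn (hub i) (B.mem 0 i) ej.symm)
    · exact (hsep i j hij).2 ej.symm
  rw [← hv, hueq, X.psum_self]

/-- Points near `P` differ from `P` by a small class. -/
theorem eventually_sub (P : Place ℂ F) {r : ℝ} (hr : 0 < r)
    (hh : ∀ m, ∀ v ∈ ball (0 : Fin gg → ℂ) r, B.cm m v = B.cm 0 v) :
    ∀ᶠ Q in 𝓝 P, ∃ v ∈ ball (0 : Fin gg → ℂ) r,
      cls hF (X.γ 0) (Finsupp.single Q (1 : ℤ)) - cls hF (X.γ 0) (Finsupp.single P (1 : ℤ)) =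
        -B.cm 0 v := by
  classical
  obtain ⟨m, hm⟩ : ∃ m, ∀ i, X.γ (B.a m i) ≠ P := by
    by_contra hno
    push Not at hno
    obtain ⟨i, hi⟩ := hno 0
    obtain ⟨j, hj⟩ := hno 1
    have := B.inj (a₁ := (0, i)) (a₂ := (1, j)) (X.injOn (B.mem 0 i) (B.mem 1 j) (hi.trans hj.symm))
    exact absurd (Prod.mk.inj this).1 (by decide)
  obtain ⟨t, δ, hδ0, hδ⟩ := exists_arc hF P
  let ι := Option (Fin gg)
  let a : ι → ℂ := fun o => o.elim 0 (B.a m)
  let tt : ι → F := fun o => o.elim t fun _ => X.x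
  let γ : ι → ℂ → Place ℂ F := fun o => o.elim δ fun _ => X.γ
  have hfam : IsFamily tt a γ := by
    refine ⟨?_, ?_⟩
    · rintro (_ | i)
      · exact hδ
      · exact eventually_of_mem (isOpen_ball.mem_nhds (B.mem m i)) X.arc
    · rintro (_ | i) (_ | j) e
      · rfl
      · exact absurd (e.symm.trans hδ0) (hm j)
      · exact absurd (e.trans hδ0) (hm i)
      · exact congrArg some (B.inj_m m (X.injOn (B.mem m i) (B.mem m j) e))
  obtain ⟨W, hW, hWv⟩ := hfam.exists_move_cls hF (fun _ : Unit => (none : ι))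
    (fun _ _ _ => rfl) (sumPts fun i => X.γ (B.a m i)) (B.ell m) (by
      simp only [sumPts, ι, Fintype.sum_option, Fintype.sum_unique]
      exact add_comm _ _) (by simp [ι]) (X.γ 0)
  have hs : Tendsto (fun (s : ℂ) (_ : Unit) => s) (𝓝 0) (𝓝 fun _ : Unit => (0 : ℂ)) :=
    tendsto_pi_nhds.2 fun _ => tendsto_id
  set u : ℂ → Fin gg → ℂ := fun s i => W (fun _ => s) (some i)
  have hu : Tendsto u (𝓝 0) (𝓝 (B.a m)) := tendsto_pi_nhds.2 fun i =>
    ((continuous_apply (some i)).tendsto a).comp (hW.comp hs)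
  have hev : ∀ᶠ s in 𝓝 (0 : ℂ), ∃ v ∈ ball (0 : Fin gg → ℂ) r,
      cls hF (X.γ 0) (Finsupp.single (δ s) (1 : ℤ)) - cls hF (X.γ 0) (Finsupp.single P (1 : ℤ)) =
        -B.cm 0 v := by
    filter_upwards [hs.eventually hWv, hu.eventually (B.L_spec m).2.2.2,
      ((B.L_spec m).2.2.1.comp hu).eventually (ball_mem_nhds _ hr)] with s hWs hl hv
    refine ⟨_, hv, ?_⟩
    rw [← hh m _ hv, cm, Function.comp_apply, hl]
    have hc := hWs.2
    simp only [cls_sumPts, ι, Fintype.sum_option] at hc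
    rw [hWs.1 ()] at hc
    simp only [a, γ, Option.elim, hδ0] at hc
    simp only [cls_sumPts, u]
    linear_combination (norm := abel) hc
  have hmap := hδ.self_of_nhds.map_nhds
  rw [hδ0] at hmap
  rw [← hmap]
  exact hev

end Base

/-- **The exponential map.** -/
theorem exists_exp (hF : IsFunctionField ℂ F) :
    ∃ (O : Place ℂ F) (E : (Fin (FA.Curve.genus ℂ F) → ℂ) →+ Pic0 ℂ F) (r : ℝ), 0 < r ∧
      (∀ v ∈ ball (0 : Fin gg → ℂ) r, E v = 0 → v = 0) ∧
      ∀ P, ∀ᶠ Q in 𝓝 P, ∃ v ∈ ball (0 : Fin gg → ℂ) r,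
        cls hF O (Finsupp.single Q (1 : ℤ)) - cls hF O (Finsupp.single P (1 : ℤ)) = E v := by
  obtain ⟨X⟩ := exists_frame hF
  obtain ⟨B⟩ := exists_base X
  obtain ⟨r₁, hr₁, h₁⟩ := Metric.eventually_nhds_iff_ball.1 B.eventually_add
  obtain ⟨r₂, hr₂, h₂⟩ := Metric.eventually_nhds_iff_ball.1
    ((eventually_all.2 B.eventually_eq).and B.eventually_inj)
  set r := min r₁ r₂
  have hr : 0 < r := lt_min hr₁ hr₂
  have hsub : ball (0 : Fin gg → ℂ) r ⊆ ball 0 r₂ := ball_subset_ball (min_le_right _ _)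
  obtain ⟨E, hE⟩ := exists_hom_of_local (B.cm 0) r hr fun v hv w hw => by
    refine h₁ (v, w) ?_
    rw [mem_ball_zero_iff] at hv hw ⊢
    exact lt_of_lt_of_le (max_lt hv hw) (min_le_left _ _)
  refine ⟨X.γ 0, E, r, hr, fun v hv h0 => (h₂ v (hsub hv)).2 (hE v hv ▸ h0), fun P => ?_⟩
  filter_upwards [B.eventually_sub P hr fun m v hv => (h₂ v (hsub hv)).1 m] with Q ⟨v, hv, hQ⟩
  refine ⟨-v, by simpa using hv, ?_⟩
  rw [hQ, map_neg, hE v hv]

end FA.PicTors

end
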