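import Fermat.Agent.Curve.Value
import Fermat.Agent.Curve.TraceLocal
import Fermat.Agent.Curve.Duality
import Fermat.Agent.PicTors.Defs

/-!
# An unramified fibre with a separating function

Over a value `s` with unramified fibre and a function `y` regular there with distinct values, the
powers of `y` generate everything regular on the fibre with coefficients regular at `s`; the roots
of the relation of `y` at a nearby `s'` are exactly the values of `y` over `s'`.
-/

set_option autoImplicit false
set_option linter.style.haveILetI false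
set_option linter.unusedSectionVars false

noncomputable section

namespace FA.PicTors

open AlgebraicCurve FA.Curve FA.ModField Polynomial IntermediateField

variable {K F : Type*} [Field K] [Field F] [Algebra K F] [IsAlgClosed K]

theorem ne_sub_const {t : F} (ht : Transcendental K t) (s : K) :
    t - algebraMap K F s ≠ 0 := fun h =>
  ht (by rw [sub_eq_zero.1 h]; exact isAlgebraic_algebraMap s)

theorem transcendental_sub_const {t : F} (ht : Transcendental K t) (s : K) :
    Transcendental K (t - algebraMap K F s) := fun h =>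
  ht (by simpa using h.add (isAlgebraic_algebraMap s))

theorem hasValue_iff_pos {t : F} (ht : Transcendental K t) {P : Place K F} {s : K} :
    HasValue P t s ↔ 0 < P.ord (t - algebraMap K F s) := by
  rw [HasValue, atLeast_iff (ne_sub_const ht s)]
  omega

theorem exists_common_denominator {t : F} (ht : Transcendental K t) {ι : Type*} [Fintype ι]
    (c : ι → F) (hc : ∀ i, c i ∈ K⟮t⟯) :
    ∃ (q : K[X]) (p : ι → K[X]), q ≠ 0 ∧ ∀ i, aeval t q * c i = aeval t (p i) := by
  classical
  choose r d hrd using fun i => (IntermediateField.mem_adjoin_simple_iff K (c i)).1 (hc i)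
  let e : ι → K[X] := fun i => if d i = 0 then 1 else d i
  have he : ∀ i, e i ≠ 0 := fun i => by simp only [e]; split_ifs with h <;> simp [h]
  have hec : ∀ i, ∃ p, aeval t (e i) * c i = aeval t p := fun i => by
    by_cases h : d i = 0
    · exact ⟨0, by simp [e, h, hrd i]⟩
    · refine ⟨r i, ?_⟩
      simp only [e, if_neg h]
      rw [hrd i, mul_div_cancel₀ _ fun h0 => h (transcendental_iff.1 ht _ h0)]
  choose p hp using hec
  refine ⟨∏ i, e i, fun i => (∏ j ∈ Finset.univ.erase i, e j) * p i,
    Finset.prod_ne_zero_iff.2 fun i _ => he i, fun i => ?_⟩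
  rw [← Finset.mul_prod_erase _ _ (Finset.mem_univ i), map_mul, map_mul, ← hp i]
  ring

variable (hF : IsFunctionField K F)

/-- The places where `t` takes the value `s`. -/
def fibre (t : F) (s : K) : Finset (Place K F) :=
  (finite_zeros hF (t - algebraMap K F s)).toFinset

theorem mem_fibre {t : F} {s : K} {P : Place K F} :
    P ∈ fibre hF t s ↔ 0 < P.ord (t - algebraMap K F s) := by
  rw [fibre, Set.Finite.mem_toFinset]; rfl

theorem hasValue_of_mem_fibre {t : F} {s : K} {P : Place K F} (hP : P ∈ fibre hF t s) :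
    HasValue P t s := Or.inr (by have := (mem_fibre hF).1 hP; omega)

theorem sum_fibre {t : F} (ht : Transcendental K t) (s : K) :
    ∑ P ∈ fibre hF t s, P.ord (t - algebraMap K F s) = Module.finrank K⟮t⟯ F := by
  have hu := transcendental_sub_const ht s
  have hui := transcendental_inv hu
  have h := degree_poleDiv hF hui
  rw [degree_eq_finset_sum hF _ (S := fibre hF t s) fun P hP => by
    rw [Finsupp.mem_support_iff, poleDiv_apply, P.ord_inv] at hP
    rw [mem_fibre]
    omega] at h
  refine Eq.trans (Finset.sum_congr rfl fun P hP => ?_) (h.trans ?_)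
  · rw [poleDiv_apply, P.ord_inv]
    have := (mem_fibre hF).1 hP
    omega
  · rw [adjoin_inv_eq, adjoin_sub_eq]

theorem fibre_nonempty' {t : F} (ht : Transcendental K t) (s : K) :
    (fibre hF t s).Nonempty := by
  haveI := hF.finiteDimensional ht
  by_contra h
  have h2 := sum_fibre hF ht s
  rw [Finset.not_nonempty_iff_eq_empty.1 h, Finset.sum_empty] at h2
  have : 0 < Module.finrank K⟮t⟯ F := Module.finrank_pos
  omega

theorem card_fibre_le {t : F} (ht : Transcendental K t) (s : K) :
    (fibre hF t s).card ≤ Module.finrank K⟮t⟯ F := by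
  have h : ((fibre hF t s).card : ℤ) ≤ ∑ P ∈ fibre hF t s, P.ord (t - algebraMap K F s) := by
    rw [Finset.card_eq_sum_ones, Nat.cast_sum]
    exact Finset.sum_le_sum fun P hP => by
      have := (mem_fibre hF).1 hP
      push_cast; omega
  rw [sum_fibre hF ht s] at h
  omega

/-- The fibre over `s` is unramified and `y` is regular there with distinct values. -/
structure IsSep (t y : F) (s : K) : Prop where
  trans : Transcendental K t
  card : (fibre hF t s).card = Module.finrank K⟮t⟯ F
  reg : ∀ P ∈ fibre hF t s, AtLeast P 0 y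
  inj : ∀ P ∈ fibre hF t s, ∀ Q ∈ fibre hF t s, ∀ c : K,
    HasValue P y c → HasValue Q y c → P = Q

namespace IsSep

variable {hF} {t y : F} {s : K} (h : IsSep hF t y s)

local notation "nd" => Module.finrank K⟮t⟯ F

include h

theorem ord_eq_one {P : Place K F} (hP : P ∈ fibre hF t s) :
    P.ord (t - algebraMap K F s) = 1 := by
  classical
  have h1 := sum_fibre hF h.trans s
  rw [← Finset.add_sum_erase _ _ hP] at h1
  have h2 : (((fibre hF t s).erase P).card : ℤ) ≤
      ∑ Q ∈ (fibre hF t s).erase P, Q.ord (t - algebraMap K F s) := by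
    rw [Finset.card_eq_sum_ones, Nat.cast_sum]
    exact Finset.sum_le_sum fun Q hQ => by
      have := (mem_fibre hF).1 (Finset.mem_of_mem_erase hQ)
      push_cast; omega
  rw [Finset.card_erase_of_mem hP, h.card] at h2
  have h3 : 0 < nd := h.card ▸ Finset.card_pos.2 ⟨P, hP⟩
  have := (mem_fibre hF).1 hP
  omega

theorem eval_eq_zero (p : Fin nd → K[X])
    (hv : ∀ P ∈ fibre hF t s, HasValue P (∑ k, aeval t (p k) * y ^ (k : ℕ)) 0) :
    ∀ k, (p k).eval s = 0 := by
  classical
  set R : K[X] := ∑ k : Fin nd, C ((p k).eval s) * X ^ (k : ℕ) with hR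
  have hcoeff : ∀ k : Fin nd, R.coeff k = (p k).eval s := fun k => by
    simp only [hR, finsetSum_coeff, coeff_C_mul, coeff_X_pow, mul_ite, mul_one, mul_zero,
      Fin.val_inj, Finset.sum_ite_eq, Finset.mem_univ, if_true]
  suffices hR0 : R = 0 by
    intro k; rw [← hcoeff, hR0, coeff_zero]
  choose w hw using fun P : fibre hF t s => exists_hasValue hF (h.reg P P.2)
  have hwinj : Function.Injective w := fun P Q hPQ =>
    Subtype.ext (h.inj P P.2 Q Q.2 (w P) (hw P) (hPQ ▸ hw Q))
  refine eq_zero_of_degree_lt_of_eval_finset_eq_zero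
    (Finset.univ.image w) ?_ fun c hc => ?_
  · rw [Finset.card_image_of_injective _ hwinj, Finset.card_univ, Fintype.card_coe, h.card, hR]
    refine lt_of_le_of_lt (degree_sum_le _ _) ((Finset.sup_lt_iff (WithBot.bot_lt_coe _)).2
      fun k _ => ?_)
    exact lt_of_le_of_lt (degree_C_mul_X_pow_le _ _) (by exact_mod_cast k.2)
  · obtain ⟨P, -, rfl⟩ := Finset.mem_image.1 hc
    refine (HasValue.unique ?_ (hv P P.2)).trans rfl
    rw [hR, eval_finsetSum]
    simp only [eval_mul, eval_C, eval_pow, eval_X]
    exact HasValue.finsetSum fun k _ =>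
      ((hasValue_of_mem_fibre hF P.2).aeval (p k)).mul ((hw P).pow k)

theorem eq_zero_of_sum (p : Fin nd → K[X]) (h0 : ∑ k, aeval t (p k) * y ^ (k : ℕ) = 0) :
    ∀ k, p k = 0 := by
  suffices key : ∀ (N : ℕ) (p : Fin nd → K[X]), (∀ k, (p k).natDegree ≤ N) →
      ∑ k, aeval t (p k) * y ^ (k : ℕ) = 0 → ∀ k, p k = 0 from
    key (Finset.univ.sup fun k => (p k).natDegree) p
      (fun k => Finset.le_sup (f := fun k => (p k).natDegree) (Finset.mem_univ k)) h0
  intro N
  induction N with
  | zero =>
    intro p hp h0 k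
    have hv := h.eval_eq_zero p (fun P _ => by rw [h0]; exact hasValue_zero_iff.2 atLeast_zero) k
    rw [eq_C_of_natDegree_le_zero (hp k), eval_C] at hv
    rw [eq_C_of_natDegree_le_zero (hp k), hv, map_zero]
  | succ N ih =>
    intro p hp h0 k
    have hv := h.eval_eq_zero p (fun P _ => by rw [h0]; exact hasValue_zero_iff.2 atLeast_zero)
    choose p' hp' using fun k => dvd_iff_isRoot.2 (hv k)
    have hN : ∀ k, (p' k).natDegree ≤ N := fun k => by
      rcases eq_or_ne (p' k) 0 with h' | h'
      · simp [h']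
      · have := hp k
        rw [hp' k, natDegree_mul (X_sub_C_ne_zero s) h', natDegree_X_sub_C] at this
        omega
    have h0' : ∑ k, aeval t (p' k) * y ^ (k : ℕ) = 0 := by
      refine (mul_eq_zero.1 ?_).resolve_left (ne_sub_const h.trans s)
      rw [Finset.mul_sum, ← h0]
      refine Finset.sum_congr rfl fun k _ => ?_
      rw [hp' k, map_mul, map_sub, aeval_X, aeval_C]
      ring
    rw [hp' k, ih p' hN h0' k, mul_zero]

theorem linearIndependent_pow : LinearIndependent K⟮t⟯ fun k : Fin nd => y ^ (k : ℕ) := by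
  rw [Fintype.linearIndependent_iff]
  intro c hc k
  obtain ⟨q, p, hq, hp⟩ :=
    exists_common_denominator h.trans (fun k => (c k : F)) fun k => (c k).2
  have hq' : aeval t q ≠ 0 := fun h0 => hq (transcendental_iff.1 h.trans _ h0)
  have h0 := h.eq_zero_of_sum p (by
    simp only [← hp, mul_assoc, ← Finset.mul_sum]
    rw [show (∑ k, (c k : F) * y ^ (k : ℕ)) = 0 from hc, mul_zero])
  have := hp k
  rw [h0 k, map_zero, mul_eq_zero] at this
  exact Subtype.ext (this.resolve_left hq')

theorem exists_coords (f : F) :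
    ∃ (q : K[X]) (p : Fin nd → K[X]), q ≠ 0 ∧
      aeval t q * f = ∑ k, aeval t (p k) * y ^ (k : ℕ) := by
  haveI := hF.finiteDimensional h.trans
  haveI : Nonempty (Fin nd) := ⟨⟨0, Module.finrank_pos⟩⟩
  set b := basisOfLinearIndependentOfCardEqFinrank h.linearIndependent_pow (Fintype.card_fin _)
  obtain ⟨q, p, hq, hp⟩ := exists_common_denominator h.trans (fun k => (b.repr f k : F))
    fun k => (b.repr f k).2
  refine ⟨q, p, hq, ?_⟩
  simp only [← hp, mul_assoc, ← Finset.mul_sum]
  congr 1
  conv_lhs => rw [← b.sum_repr f]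
  refine Finset.sum_congr rfl fun k _ => ?_
  rw [coe_basisOfLinearIndependentOfCardEqFinrank, IntermediateField.smul_def, smul_eq_mul]

/-- Functions regular on the fibre have coordinates regular at `s`. -/
theorem exists_coords_regular {f : F} (hf : ∀ P ∈ fibre hF t s, AtLeast P 0 f) :
    ∃ (q : K[X]) (p : Fin nd → K[X]), q.eval s ≠ 0 ∧
      aeval t q * f = ∑ k, aeval t (p k) * y ^ (k : ℕ) := by
  suffices key : ∀ (N : ℕ) (q : K[X]) (p : Fin nd → K[X]), q ≠ 0 → q.natDegree = N →
      aeval t q * f = ∑ k, aeval t (p k) * y ^ (k : ℕ) →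
      ∃ (q : K[X]) (p : Fin nd → K[X]), q.eval s ≠ 0 ∧
        aeval t q * f = ∑ k, aeval t (p k) * y ^ (k : ℕ) by
    obtain ⟨q, p, hq, hqp⟩ := h.exists_coords f
    exact key _ q p hq rfl hqp
  intro N
  induction N using Nat.strong_induction_on with
  | _ N ih =>
    intro q p hq hN hqp
    by_cases hs : q.eval s = 0
    swap
    · exact ⟨q, p, hs, hqp⟩
    obtain ⟨q', rfl⟩ := dvd_iff_isRoot.2 hs
    have hv := h.eval_eq_zero p fun P hP => by
      rw [← hqp, hasValue_zero_iff]
      have h1 : HasValue P (aeval t ((X - C s) * q')) 0 := by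
        have := (hasValue_of_mem_fibre hF hP).aeval ((X - C s) * q')
        rwa [eval_mul, eval_sub, eval_X, eval_C, sub_self, zero_mul] at this
      exact ((hasValue_zero_iff.1 h1).mul (hf P hP)).mono (by omega)
    choose p' hp' using fun k => dvd_iff_isRoot.2 (hv k)
    have hq' : q' ≠ 0 := right_ne_zero_of_mul hq
    refine ih q'.natDegree ?_ q' p' hq' rfl ?_
    · rw [← hN, natDegree_mul (X_sub_C_ne_zero s) hq', natDegree_X_sub_C]
      omega
    · refine mul_left_cancel₀ (ne_sub_const h.trans s) ?_
      rw [Finset.mul_sum]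
      calc (t - algebraMap K F s) * (aeval t q' * f) = aeval t ((X - C s) * q') * f := by
            rw [map_mul, map_sub, aeval_X, aeval_C]; ring
        _ = _ := hqp
        _ = _ := Finset.sum_congr rfl fun k _ => by
            rw [hp' k, map_mul, map_sub, aeval_X, aeval_C]; ring

/-- The relation of `y`. -/
theorem exists_relation :
    ∃ (q : K[X]) (p : Fin nd → K[X]), q.eval s ≠ 0 ∧
      aeval t q * y ^ nd = ∑ k, aeval t (p k) * y ^ (k : ℕ) :=
  h.exists_coords_regular fun P hP => by simpa using atLeast_pow (h.reg P hP) nd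

end IsSep

variable {hF} {t y : F} {n : ℕ} {q : K[X]} {p : Fin n → K[X]}
  (hrel : aeval t q * y ^ n = ∑ k, aeval t (p k) * y ^ (k : ℕ))

include hrel

/-- Over a value where the leading coefficient does not vanish, `y` is regular. -/
theorem atLeast_of_relation {s : K} (hq : q.eval s ≠ 0) {P : Place K F} (hP : HasValue P t s) :
    AtLeast P 0 y := by
  by_contra hcon
  simp only [AtLeast, not_or, not_le] at hcon
  obtain ⟨hy0, hneg⟩ := hcon
  obtain ⟨hq0, hqord⟩ := (hP.aeval q).ord_eq_zero hq
  have hsum : AtLeast P ((n : ℤ) * P.ord y - P.ord y) (∑ k, aeval t (p k) * y ^ (k : ℕ)) := by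
    refine atLeast_sum fun k _ => ?_
    refine ((hP.aeval (p k)).atLeast.mul (atLeast_pow (atLeast_ord y) k)).mono ?_
    have hk : (k : ℤ) + 1 ≤ n := by exact_mod_cast k.2
    nlinarith
  rw [← hrel, atLeast_iff (mul_ne_zero hq0 (pow_ne_zero _ hy0)), P.ord_mul hq0
    (pow_ne_zero _ hy0), hqord, place_ord_pow] at hsum
  omega

/-- Values of `y` over `s` are roots of the relation at `s`. -/
theorem root_of_relation {s w : K} {P : Place K F} (hP : HasValue P t s) (hw : HasValue P y w) :
    q.eval s * w ^ n = ∑ k, (p k).eval s * w ^ (k : ℕ) :=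
  (HasValue.mul (hP.aeval q) (hw.pow n)).unique
    (hrel ▸ HasValue.finsetSum fun k _ => (hP.aeval (p k)).mul (hw.pow k))

variable (hn : n = Module.finrank K⟮t⟯ F) (ht : Transcendental K t)
  (hli : LinearIndependent K⟮t⟯ fun k : Fin n => y ^ (k : ℕ))

include hn ht hli

/-- Every root of the relation at `s` is a value of `y` over `s`. -/
theorem exists_place_of_root {s w : K} (hq : q.eval s ≠ 0)
    (hw : q.eval s * w ^ n = ∑ k, (p k).eval s * w ^ (k : ℕ)) :
    ∃ P ∈ fibre hF t s, HasValue P y w := by
  classical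
  haveI := hF.finiteDimensional ht
  haveI := hasPrincipalDivisors hF
  have hE := isFunctionField_simple ht (F := F)
  obtain ⟨P₀, hP₀⟩ := fibre_nonempty' hF ht s
  have hP₀v := hasValue_of_mem_fibre hF hP₀
  by_contra hno
  push Not at hno
  set E := K⟮t⟯
  let T : E := AdjoinSimple.gen K t
  have hT : ∀ r : K[X], ((aeval T r : E) : F) = aeval t r := fun r => by
    exact (aeval_algHom_apply E.val T r).symm
  have hqT : aeval T q ≠ 0 := fun h0 => by
    have := hT q
    rw [h0] at this
    exact hq (by simp [transcendental_iff.1 ht q this.symm])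
  -- the characteristic polynomial
  let b := basisOfLinearIndependentOfCardEqFinrank' (fun k : Fin n => y ^ (k : ℕ)) hli
    (by simpa using hn)
  set Pc := (Algebra.leftMulMatrix b y).charpoly with hPc
  set G : E[X] := X ^ n - ∑ k : Fin n, C (aeval T (p k) / aeval T q) * X ^ (k : ℕ) with hG
  have hGy : aeval y G = 0 := by
    have hd : aeval t q ≠ 0 := fun h0 => hqT (Subtype.ext (by rw [hT]; exact h0))
    simp only [hG, map_sub, map_pow, aeval_X, map_sum, map_mul, aeval_C]
    refine (mul_eq_zero.1 ?_).resolve_left hd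
    rw [mul_sub, hrel, Finset.mul_sum, sub_eq_zero]
    refine Finset.sum_congr rfl fun k _ => ?_
    show _ = aeval t q * (((aeval T (p k) / aeval T q : E) : F) * _)
    push_cast
    rw [hT, hT, ← mul_assoc, mul_div_cancel₀ _ hd]
  have hPy : aeval y Pc = 0 := by
    have h1 := Matrix.aeval_self_charpoly (Algebra.leftMulMatrix b y)
    rw [← hPc, aeval_algHom_apply] at h1
    exact Algebra.leftMulMatrix_injective b (h1.trans (map_zero _).symm)
  have hnd : 0 < n := hn ▸ Module.finrank_pos
  have hGdeg : G.degree = n ∧ G.Monic := by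
    have hlt : (∑ k : Fin n, C (aeval T (p k) / aeval T q) * X ^ (k : ℕ)).degree <
        ((X : E[X]) ^ n).degree := by
      rw [degree_X_pow]
      refine lt_of_le_of_lt (degree_sum_le _ _) ((Finset.sup_lt_iff (WithBot.bot_lt_coe _)).2
        fun k _ => lt_of_le_of_lt (degree_C_mul_X_pow_le _ _) (by exact_mod_cast k.2))
    exact ⟨by rw [hG, degree_sub_eq_left_of_degree_lt hlt, degree_X_pow],
      (monic_X_pow n).sub_of_left hlt⟩
  have hPG : Pc = G := by
    have hdP : Pc.degree = n := by
      rw [hPc, Matrix.charpoly_degree_eq_dim, Fintype.card_fin]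
    have hlt : (Pc - G).degree < n := by
      rcases eq_or_ne (Pc - G) 0 with h0 | h0
      · rw [h0, degree_zero]; exact WithBot.bot_lt_coe _
      exact hdP ▸ degree_sub_lt_left (hdP.trans hGdeg.1.symm) (fun h => by simp [h] at hdP)
        (by rw [(Matrix.charpoly_monic _).leadingCoeff, hGdeg.2.leadingCoeff])
    refine sub_eq_zero.1 (Polynomial.ext fun i => ?_)
    rw [coeff_zero]
    by_cases hi : i < n
    · have h0 : ∑ k : Fin n, (Pc - G).coeff k • y ^ (k : ℕ) = 0 := by
        rw [Fin.sum_univ_eq_sum_range (fun k => (Pc - G).coeff k • y ^ k) n]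
        have h1 : aeval y (Pc - G) = 0 := by rw [map_sub, hPy, hGy, sub_zero]
        have hnat : (Pc - G).natDegree < n := by
          rcases eq_or_ne (Pc - G) 0 with h | h
          · rw [h, natDegree_zero]; exact hnd
          · exact (natDegree_lt_iff_degree_lt h).2 hlt
        rwa [aeval_eq_sum_range' hnat] at h1
      exact Fintype.linearIndependent_iff.1 hli _ h0 ⟨i, hi⟩
    · exact coeff_eq_zero_of_degree_lt (hlt.trans_le (by exact_mod_cast not_lt.1 hi))
  -- the norm of `w - y`
  set z : E := Algebra.norm E (algebraMap K F w - y)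
  have hz : aeval T q * z = aeval T q * algebraMap K E (w ^ n) -
      ∑ k : Fin n, aeval T (p k) * algebraMap K E (w ^ (k : ℕ)) := by
    show aeval T q * Algebra.norm E (algebraMap K F w - y) = _
    rw [IsScalarTower.algebraMap_apply K E F, ← eval_charpoly_eq_norm b, ← hPc, hPG, hG, eval_sub,
      eval_pow, eval_X, eval_finsetSum, mul_sub, Finset.mul_sum, ← map_pow]
    congr 1
    refine Finset.sum_congr rfl fun k _ => ?_
    rw [eval_mul, eval_C, eval_pow, eval_X, ← map_pow, ← mul_assoc, mul_div_cancel₀ _ hqT]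
  have hne : algebraMap K F w - y ≠ 0 := fun h0 =>
    hno P₀ hP₀ (by rw [← sub_eq_zero.1 h0]; exact hasValue_algebraMap P₀ w)
  have hreg : ∀ P ∈ fibre hF t s, AtLeast P 0 y := fun P hP =>
    atLeast_of_relation hrel hq (hasValue_of_mem_fibre hF hP)
  have hu : t - algebraMap K F s ∈ E := sub_mem (mem_adjoin_simple_self K t) (E.algebraMap_mem s)
  have hfib : ∀ P, P ∈ (P₀.restrict E).fiber F ↔ P ∈ fibre hF t s := fun P => by
    rw [mem_fibre]
    exact (restrict_of_pos hF ht hu (adjoin_sub_eq t s) (w := P) ((mem_fibre hF).1 hP₀)).2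
  have hz0 : z ≠ 0 := Algebra.norm_ne_zero_iff.2 hne
  have hordz : P₀.ord (z : F) = 0 := by
    rw [ord_coe hF ht, show (z : E) = Algebra.norm E (algebraMap K F w - y) from rfl,
      ← sum_fiber_ord hE hF (P₀.restrict E) hne,
      Finset.sum_eq_zero fun P hP => ?_, mul_zero]
    have hP' := (hfib P).1 hP
    obtain ⟨c, hc⟩ := exists_hasValue hF (hreg P hP')
    have hcw : w - c ≠ 0 := sub_ne_zero.2 fun h => hno P hP' (h ▸ hc)
    exact (((hasValue_algebraMap P w).sub hc).ord_eq_zero hcw).2
  have hval : HasValue P₀ (aeval t q * (z : F)) 0 := by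
    have h := congrArg (fun e : E => (e : F)) hz
    push_cast [hT] at h
    rw [h, show (0 : K) = q.eval s * w ^ n - ∑ k, (p k).eval s * w ^ (k : ℕ) by rw [hw, sub_self]]
    exact ((hP₀v.aeval q).mul ((hasValue_algebraMap P₀ w).pow n)).sub
      (HasValue.finsetSum fun k _ => (hP₀v.aeval (p k)).mul ((hasValue_algebraMap P₀ w).pow k))
  obtain ⟨hq0, hqord⟩ := (hP₀v.aeval q).ord_eq_zero hq
  have hz0' : (z : F) ≠ 0 := fun h => hz0 (Subtype.ext h)
  rw [hasValue_zero_iff, atLeast_iff (mul_ne_zero hq0 hz0'), P₀.ord_mul hq0 hz0', hqord,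
    hordz] at hval
  omega

omit hrel hn ht hli

variable (hF)

/-- Every place is in an unramified fibre with a separating function. -/
theorem exists_isSep [CharZero K] (P : Place K F) :
    ∃ t y : F, P ∈ fibre hF t 0 ∧ IsSep hF t y 0 := by
  classical
  obtain ⟨S, hS, hSP, hell⟩ := exists_nonspecial hF ({P} : Finset (Place K F))
  have hPS : P ∉ S := fun h => Finset.disjoint_left.1 hSP h (Finset.mem_singleton_self P)
  set D₀ : Divisor K F := ∑ v ∈ S, Finsupp.single v (1 : ℤ) with hD₀
  set D := D₀ + Finsupp.single P 1 with hD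
  have hdeg : Divisor.degree D = genus K F + 1 := by
    simp [hD, hD₀, hF.deg_eq_one, hS]
  have h2 : 2 ≤ ell D := by
    have := riemann_inequality hF D
    rw [hdeg] at this
    omega
  obtain ⟨f, hfD, hf0⟩ : ∃ f ∈ riemannRochSpace D, f ∉ riemannRochSpace D₀ := by
    by_contra hno
    push Not at hno
    haveI := finite_riemannRochSpace hF D₀
    have : ell D ≤ ell D₀ := Int.ofNat_le.2 (Submodule.finrank_mono fun f hf => hno f hf)
    omega
  have hf0' : f ≠ 0 := fun h => hf0 (h ▸ zero_mem _)
  have hbound : ∀ Q : Place K F, -1 ≤ Q.ord f := fun Q => by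
    have h := (atLeast_iff hf0').1 (mem_riemannRochSpace.1 hfD Q)
    rw [hD, Finsupp.add_apply, hD₀, Finset.sum_apply'] at h
    simp only [Finsupp.single_apply, Finset.sum_ite_eq'] at h
    by_cases hQP : P = Q
    · subst hQP
      simp [hPS] at h
      omega
    · by_cases hQ : Q ∈ S <;> simp [hQ, hQP] at h <;> omega
  have hP : P.ord f = -1 := by
    refine le_antisymm ?_ (hbound P)
    by_contra hlt
    refine hf0 (mem_riemannRochSpace.2 fun Q => ?_)
    rcases eq_or_ne Q P with rfl | hQ
    · refine Or.inr ?_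
      rw [hD₀, Finset.sum_apply', Finset.sum_eq_zero fun v hv =>
        Finsupp.single_eq_of_ne fun h => hPS (by rw [h]; exact hv)]
      omega
    · have h := mem_riemannRochSpace.1 hfD Q
      rw [hD, Finsupp.add_apply, Finsupp.single_eq_of_ne hQ, add_zero] at h
      exact h
  set t := f⁻¹ with ht'
  have ht : Transcendental K t := transcendental_inv (transcendental_of_ord_ne_zero P (by omega))
  have hmem : ∀ Q, Q ∈ fibre hF t 0 ↔ Q.ord f = -1 := fun Q => by
    rw [mem_fibre, map_zero, sub_zero, ht', Q.ord_inv]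
    have := hbound Q
    omega
  have hcard : (fibre hF t 0).card = Module.finrank K⟮t⟯ F := by
    have h := sum_fibre hF ht (0 : K)
    rw [Finset.sum_congr rfl fun Q hQ => show Q.ord (t - algebraMap K F 0) = (1 : ℤ) by
      rw [map_zero, sub_zero, ht', Q.ord_inv, (hmem Q).1 hQ]; ring] at h
    simpa using h
  let num : fibre hF t 0 → K := fun Q => ((Fintype.equivFin _ Q : ℕ) : K)
  obtain ⟨y, hy⟩ := exists_approx (fibre hF t 0)
    (fun Q => if h : Q ∈ fibre hF t 0 then algebraMap K F (num ⟨Q, h⟩) else 0) 1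
  have hval : ∀ Q (h : Q ∈ fibre hF t 0), HasValue Q y (num ⟨Q, h⟩) := fun Q h => by
    have := hy Q h
    rwa [dif_pos h] at this
  refine ⟨t, y, (hmem P).2 hP, ht, hcard, fun Q hQ => (hval Q hQ).atLeast,
    fun Q hQ R hR c h1 h2 => ?_⟩
  have := ((hval Q hQ).unique h1).trans ((hval R hR).unique h2).symm
  simp only [num, Nat.cast_inj, Fin.val_inj, EmbeddingLike.apply_eq_iff_eq, Subtype.mk.injEq] at this
  exact this

end FA.PicTors

end
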