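import Fermat.Agent.PicTors.Exp
import Mathlib.Analysis.Complex.AbsMax
import Mathlib.Algebra.Module.ZLattice.Basic

/-!
# `Pic⁰` is `ℂ^g` modulo a lattice

The places whose class lies in the image of the exponential map form a closed and dense set: by the
maximum principle all of them. By compactness a bounded set maps onto `Pic⁰`, so the kernel is a
lattice of rank `2g`.
-/

set_option autoImplicit false
set_option linter.style.haveILetI false
set_option linter.unusedSectionVars false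

noncomputable section

namespace FA.PicTors

open AlgebraicCurve FA.Curve FA.ModField Filter Metric
open scoped Topology

variable {F : Type} [Field F] [Algebra ℂ F] (hF : IsFunctionField ℂ F)

local notation "gg" => FA.Curve.genus ℂ F

include hF in
/-- The only nonempty open and closed set of places is everything. -/
theorem eq_univ_of_isClopen {S : Set (Place ℂ F)} (hS : IsClopen S) (hne : S.Nonempty) :
    S = Set.univ := by
  haveI := place_compact hF
  obtain ⟨O, hO⟩ := hne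
  by_contra hno
  obtain ⟨f, hfO, hf⟩ := exists_pole_only hF O
  have hreg : ∀ P ∈ Sᶜ, AtLeast P 0 f := fun P hP => Or.inr (hf P fun e => hP (e ▸ hO))
  have hcont : ContinuousOn (fun P => ‖unc (val P f)‖) Sᶜ := fun P hP => by
    obtain ⟨c, hc⟩ := exists_val_coe hF (hreg P hP)
    refine (ContinuousAt.norm ?_).continuousWithinAt
    show Tendsto (fun P => unc (val P f)) (𝓝 P) (𝓝 (unc (val P f)))
    rw [hc]
    exact tendsto_unc.comp (hc ▸ (continuous_val f).tendsto P)
  obtain ⟨Q, hQS, hmax⟩ := hS.2.isClosed_compl.isCompact.exists_isMaxOn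
    (Set.nonempty_compl.2 hno) hcont
  obtain ⟨t, δ, hδ0, hδ⟩ := exists_arc hF Q
  have harc := hδ.self_of_nhds
  obtain ⟨H, hH, hHv⟩ := harc.analytic f (hδ0 ▸ hreg Q hQS)
  have hin : ∀ᶠ s in 𝓝 (0 : ℂ), δ s ∈ Sᶜ := by
    have hm := harc.map_nhds.le
    rw [hδ0] at hm
    exact hm (hS.1.isOpen_compl.mem_nhds hQS)
  have hloc : IsLocalMax (norm ∘ H) 0 := by
    filter_upwards [hin, hHv] with s hs hv
    have h1 : ‖unc (val (δ s) f)‖ ≤ ‖unc (val Q f)‖ := hmax hs
    have h2 : HasValue Q f (H 0) := hδ0 ▸ hHv.self_of_nhds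
    rw [val_of_hasValue hv, val_of_hasValue h2] at h1
    exact h1
  have hconst := Complex.eventually_eq_of_isLocalMax_norm
    (hH.eventually_analyticAt.mono fun s hs => hs.differentiableAt) hloc
  have hset : ∀ᶠ s in 𝓝 (0 : ℂ), HasValue (δ s) f (H 0) ∧ HasValue (δ s) t s := by
    filter_upwards [hHv, hconst, harc.simple] with s h1 h2 h3
    exact ⟨h2 ▸ h1, h3.1⟩
  have hf0 : f - algebraMap ℂ F (H 0) ≠ 0 := fun e => by
    rw [sub_eq_zero.1 e, place_ord_algebraMap] at hfO
    exact lt_irrefl _ hfO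
  refine ((infinite_of_mem_nhds (0 : ℂ) hset).image fun s hs s' hs' e =>
    HasValue.unique hs.2 (show HasValue (δ s) t s' by
      rw [show δ s = δ s' from e]; exact hs'.2)) ((finite_zeros hF (f - algebraMap ℂ F (H 0))).subset ?_)
  rintro _ ⟨s, hs, rfl⟩
  have h1 : HasValue (δ s) f (H 0) := hs.1
  rw [HasValue, atLeast_iff hf0] at h1
  exact h1

include hF in
/-- **The uniformisation of `Pic⁰`.** -/
theorem exists_uniformisation :
    ∃ (E : (Fin (FA.Curve.genus ℂ F) → ℂ) →+ Pic0 ℂ F) (r R : ℝ), 0 < r ∧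
      (∀ v ∈ ball (0 : Fin gg → ℂ) r, E v = 0 → v = 0) ∧ ∀ c, ∃ v, ‖v‖ ≤ R ∧ E v = c := by
  classical
  obtain ⟨O, E, r, hr, hinj, hloc⟩ := exists_exp hF
  set κ : Place ℂ F → Pic0 ℂ F := fun P => cls hF O (Finsupp.single P (1 : ℤ))
  have hall : ∀ P, ∃ v, κ P = E v := by
    have hopen : ∀ P, ∀ᶠ Q in 𝓝 P, (∃ v, κ Q = E v) ↔ ∃ v, κ P = E v := fun P =>
      (hloc P).mono fun Q ⟨v, _, hv⟩ => by
        constructor
        · rintro ⟨w, hw⟩
          exact ⟨w - v, by rw [map_sub, ← hv, ← hw]; simp [κ]⟩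
        · rintro ⟨w, hw⟩
          exact ⟨w + v, by rw [map_add, ← hv, ← hw]; simp [κ]⟩
    have hS : IsClopen {P : Place ℂ F | ∃ v, κ P = E v} :=
      ⟨⟨isOpen_iff_eventually.2 fun P hP => (hopen P).mono fun Q hQ h => hP (hQ.1 h)⟩,
        isOpen_iff_eventually.2 fun P hP => (hopen P).mono fun Q hQ => hQ.2 hP⟩
    exact fun P => Set.eq_univ_iff_forall.1 (eq_univ_of_isClopen hF hS
      ⟨O, 0, by rw [map_zero]; exact cls_single_self hF O⟩) P
  choose p hp using hall
  haveI := place_compact hF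
  obtain ⟨T, -, hT⟩ := isCompact_univ.elim_nhds_subcover
    (fun P : Place ℂ F => {Q | ∃ v ∈ ball (0 : Fin gg → ℂ) r, κ Q - κ P = E v}) fun P _ => hloc P
  set R := r + ∑ P ∈ T, ‖p P‖
  have hbd : ∀ Q, ∃ v, ‖v‖ ≤ R ∧ κ Q = E v := fun Q => by
    obtain ⟨P, hPT, v, hv, hQ⟩ := Set.mem_iUnion₂.1 (hT (Set.mem_univ Q))
    refine ⟨v + p P, ?_, by rw [map_add, ← hQ, ← hp P, sub_add_cancel]⟩
    exact (norm_add_le _ _).trans (add_le_add (mem_ball_zero_iff.1 hv).le
      (Finset.single_le_sum (f := fun P => ‖p P‖) (fun _ _ => norm_nonneg _) hPT))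
  choose w hwn hw using hbd
  refine ⟨E, r, gg * R, hr, hinj, fun c => ?_⟩
  obtain ⟨Q, hQ⟩ := exists_rep hF O c
  refine ⟨∑ i, w (Q i), (norm_sum_le _ _).trans ((Finset.sum_le_sum fun i _ => hwn (Q i)).trans
    (by simp)), ?_⟩
  rw [map_sum, ← hQ, cls_sumPts]
  exact Finset.sum_congr rfl fun i _ => (hw (Q i)).symm

/-- A quotient of a real vector space by a discrete cocompact subgroup has `n ^ d` elements killed
by `n`. -/
theorem natCard_torsionBy_of_bounded {V A : Type} [NormedAddCommGroup V] [NormedSpace ℝ V]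
    [FiniteDimensional ℝ V] [AddCommGroup A] (E : V →+ A) (r R : ℝ) (hr : 0 < r)
    (hinj : ∀ v ∈ ball (0 : V) r, E v = 0 → v = 0) (hsurj : ∀ c, ∃ v, ‖v‖ ≤ R ∧ E v = c)
    (n : ℕ) (hn : n ≠ 0) :
    Nat.card (Submodule.torsionBy ℤ A (n : ℤ)) = n ^ Module.finrank ℝ V := by
  classical
  let Λ : Submodule ℤ V := E.ker.toIntSubmodule
  have hΛ : ∀ v, v ∈ Λ ↔ E v = 0 := fun v => Iff.rfl
  haveI : DiscreteTopology Λ := by
    rw [discreteTopology_iff_isOpen_singleton_zero]
    convert (isOpen_ball (x := (0 : V)) (ε := r)).preimage continuous_subtype_val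
    ext ⟨v, hv⟩
    simp only [Set.mem_singleton_iff, Set.mem_preimage]
    constructor
    · intro e
      rw [show v = 0 from congrArg Subtype.val e]; exact mem_ball_self hr
    · exact fun h => Subtype.ext (hinj v h ((hΛ v).1 hv))
  haveI : IsZLattice ℝ Λ := ⟨by
    by_contra hne
    obtain ⟨l, hl0, hl⟩ := Submodule.exists_le_ker_of_lt_top _ (lt_top_iff_ne_top.2 hne)
    set L := LinearMap.toContinuousLinearMap l
    have hb : ∀ v, |l v| ≤ ‖L‖ * R := fun v => by
      obtain ⟨w, hw, hwE⟩ := hsurj (E v)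
      have h1 : l (v - w) = 0 := LinearMap.mem_ker.1 (hl (Submodule.subset_span
        ((hΛ _).2 (by rw [map_sub, hwE, sub_self]))))
      rw [map_sub, sub_eq_zero] at h1
      rw [h1, ← Real.norm_eq_abs]
      exact (L.le_opNorm w).trans (mul_le_mul_of_nonneg_left hw (norm_nonneg _))
    refine hl0 (LinearMap.ext fun v => ?_)
    by_contra h0
    have h1 := hb (((‖L‖ * R + 1) / l v) • v)
    rw [map_smul, smul_eq_mul, div_mul_cancel₀ _ h0] at h1
    linarith [le_abs_self (‖L‖ * R + 1)]⟩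
  haveI : Module.Finite ℤ Λ := ZLattice.module_finite ℝ Λ
  set d := Module.finrank ℝ V
  let b := Module.finBasisOfFinrankEq ℤ Λ (ZLattice.rank ℝ Λ : Module.finrank ℤ Λ = d)
  have hn' : (n : ℝ) ≠ 0 := by exact_mod_cast hn
  have hsmul : ∀ x : V, (n : ℤ) • (n : ℝ)⁻¹ • x = x := fun x => by
    rw [natCast_zsmul, ← Nat.cast_smul_eq_nsmul ℝ, smul_inv_smul₀ hn']
  let Ψ : (Fin d → ℤ) →+ Submodule.torsionBy ℤ A (n : ℤ) :=
    AddMonoidHom.mk' (fun c => ⟨E ((n : ℝ)⁻¹ • (b.equivFun.symm c : V)), by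
      rw [Submodule.mem_torsionBy_iff, ← map_zsmul, hsmul]
      exact (hΛ _).1 (b.equivFun.symm c).2⟩) fun c c' => Subtype.ext (by
        show E _ = E _ + E _
        rw [map_add, Submodule.coe_add, smul_add, map_add])
  have hΨ : Function.Surjective Ψ := by
    rintro ⟨x, hx⟩
    obtain ⟨v, -, rfl⟩ := hsurj x
    rw [Submodule.mem_torsionBy_iff, ← map_zsmul] at hx
    refine ⟨b.equivFun ⟨(n : ℤ) • v, (hΛ _).2 hx⟩, Subtype.ext ?_⟩
    show E ((n : ℝ)⁻¹ • (b.equivFun.symm (b.equivFun ⟨(n : ℤ) • v, (hΛ _).2 hx⟩) : V)) = E v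
    rw [LinearEquiv.symm_apply_apply]
    show E ((n : ℝ)⁻¹ • ((n : ℤ) • v)) = E v
    congr 1
    rw [natCast_zsmul, ← Nat.cast_smul_eq_nsmul ℝ, inv_smul_smul₀ hn']
  let π : (Fin d → ℤ) →+ (Fin d → ZMod n) := (Int.castAddHom (ZMod n)).compLeft (Fin d)
  have hπ : Function.Surjective π := fun x =>
    ⟨fun i => (ZMod.intCast_surjective (x i)).choose,
      funext fun i => (ZMod.intCast_surjective (x i)).choose_spec⟩
  have hker : Ψ.ker = π.ker := by
    ext c
    have h2 : π c = 0 ↔ ∀ i, (n : ℤ) ∣ c i := by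
      simp [π, funext_iff, ZMod.intCast_zmod_eq_zero_iff_dvd]
    rw [AddMonoidHom.mem_ker, AddMonoidHom.mem_ker, h2, Subtype.ext_iff]
    show E ((n : ℝ)⁻¹ • (b.equivFun.symm c : V)) = 0 ↔ _
    constructor
    · intro h i
      set m : Λ := ⟨_, (hΛ _).2 h⟩
      have e : b.equivFun.symm c = (n : ℤ) • m := Subtype.ext (hsmul _).symm
      refine ⟨b.equivFun m i, ?_⟩
      have := congrFun (congrArg b.equivFun e) i
      rw [LinearEquiv.apply_symm_apply, map_zsmul, Pi.smul_apply, smul_eq_mul] at this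
      exact this
    · intro h
      choose q hq using h
      have e : b.equivFun.symm c = (n : ℤ) • b.equivFun.symm q := by
        rw [← map_zsmul]
        exact congrArg _ (funext fun i => by simp [hq i])
      rw [e, Submodule.coe_smul_of_tower, natCast_zsmul, ← Nat.cast_smul_eq_nsmul ℝ,
        inv_smul_smul₀ hn']
      exact (hΛ _).1 (b.equivFun.symm q).2
  haveI : NeZero n := ⟨hn⟩
  rw [← Nat.card_congr (QuotientAddGroup.quotientKerEquivOfSurjective Ψ hΨ).toEquiv, hker,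
    Nat.card_congr (QuotientAddGroup.quotientKerEquivOfSurjective π hπ).toEquiv, Nat.card_fun,
    Nat.card_fin, Nat.card_zmod]

end FA.PicTors

end
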