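import Fermat.Agent.PicTors.Arc
import Mathlib.Analysis.Calculus.Deriv.Mul
import Mathlib.Analysis.Calculus.FDeriv.Analytic

/-!
# Moving points in a linear system

For points `P i` on arcs and functions `φ k` with at most simple poles there, the zeros of
`1 + ∑ c k • φ k` near the `P i` depend analytically on `c` and have the same sum as the `P i`
up to linear equivalence.
-/

set_option autoImplicit false
set_option linter.style.haveILetI false
set_option linter.unusedSectionVars false

noncomputable section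

namespace FA.PicTors

open AlgebraicCurve FA.Curve FA.ModField Filter Polynomial
open scoped Topology

variable {F : Type} [Field F] [Algebra ℂ F]

theorem eval_pt_sum {ι : Type} [Fintype ι] (Q : ι → Place ℂ F) (R : Place ℂ F) [DecidableEq (Place ℂ F)] :
    (∑ i, Finsupp.single (Q i) (1 : ℤ)) R = ((Finset.univ.filter fun i => Q i = R).card : ℤ) := by
  rw [Finset.sum_apply']
  simp only [Finsupp.single_apply]
  rw [Finset.sum_boole]

/-- The divisor of the sum of a family of places. -/
def sumPts {ι : Type} [Fintype ι] (Q : ι → Place ℂ F) : Divisor ℂ F :=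
  ∑ i, Finsupp.single (Q i) (1 : ℤ)

theorem sumPts_apply_of_inj {ι : Type} [Fintype ι] {Q : ι → Place ℂ F} (hQ : Function.Injective Q)
    (i : ι) : sumPts Q (Q i) = 1 := by
  classical
  rw [sumPts, eval_pt_sum, Finset.filter_eq' _ i |> fun h => (Finset.filter_congr
    (fun j _ => hQ.eq_iff)).trans h]
  simp

theorem sumPts_apply_of_notMem {ι : Type} [Fintype ι] {Q : ι → Place ℂ F} {R : Place ℂ F}
    (h : ∀ i, Q i ≠ R) : sumPts Q R = 0 := by
  classical
  rw [sumPts, eval_pt_sum, Finset.filter_false_of_mem fun i _ => h i]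
  simp

theorem degree_sumPts (hF : IsFunctionField ℂ F) {ι : Type} [Fintype ι] (Q : ι → Place ℂ F) :
    Divisor.degree (sumPts Q) = Fintype.card ι := by
  simp [sumPts, hF.deg_eq_one]

variable {ι : Type} [Fintype ι] (t : ι → F) (a : ι → ℂ) (γ : ι → ℂ → Place ℂ F)

/-- Distinct points on arcs. -/
structure IsFamily : Prop where
  arc : ∀ i, ∀ᶠ s in 𝓝 (a i), IsArc (t i) s (γ i)
  inj : Function.Injective fun i => γ i (a i)

variable {t a γ}

theorem IsFamily.arc_self (h : IsFamily t a γ) (i : ι) : IsArc (t i) (a i) (γ i) :=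
  (h.arc i).self_of_nhds

variable (hF : IsFunctionField ℂ F) (h : IsFamily t a γ)

include hF h in
/-- Near points are distinct and differ from the other centres. -/
theorem IsFamily.eventually_sep :
    ∀ᶠ u in 𝓝 a, (∀ i, IsArc (t i) (u i) (γ i)) ∧
      (∀ i j, i ≠ j → γ i (u i) ≠ γ j (u j) ∧ γ i (u i) ≠ γ j (a j)) ∧
      ∀ i, HasValue (γ i (u i)) (t i) (u i) := by
  haveI := place_t2 hF
  have hc : ∀ i, Tendsto (fun u : ι → ℂ => γ i (u i)) (𝓝 a) (𝓝 (γ i (a i))) := fun i =>
    (h.arc_self i).map_nhds.le.trans' (Filter.map_mono ((continuous_apply i).tendsto a))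
      |> fun h' => by simpa [Filter.Tendsto, Filter.map_map, Function.comp_def] using h'
  refine (eventually_all.2 fun i => ((continuous_apply i).tendsto a).eventually (h.arc i)).and
    (Eventually.and (eventually_all.2 fun i => eventually_all.2 fun j => ?_)
      (eventually_all.2 fun i => ((continuous_apply i).tendsto a).eventually
        ((h.arc_self i).simple.mono fun s hs => hs.1)))
  by_cases hij : i = j
  · exact Eventually.of_forall fun u h' => absurd hij h'
  have hne : γ i (a i) ≠ γ j (a j) := fun e => hij (h.inj e)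
  obtain ⟨V, W, hV, hW, hiV, hjW, hVW⟩ := t2_separation hne
  filter_upwards [(hc i).eventually (hV.mem_nhds hiV), (hc j).eventually (hW.mem_nhds hjW)]
    with u hu hu' _
  exact ⟨fun e => Set.disjoint_left.1 hVW hu (e ▸ hu'),
    fun e => Set.disjoint_left.1 hVW hu (e ▸ hjW)⟩

include hF h in
/-- A function in `L(∑ P)` with a zero, in the sense of the line bundle, near each `P i`. -/
theorem IsFamily.divisor_eq {u : ι → ℂ}
    (hu : (∀ i, IsArc (t i) (u i) (γ i)) ∧
      (∀ i j, i ≠ j → γ i (u i) ≠ γ j (u j) ∧ γ i (u i) ≠ γ j (a j)) ∧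
      ∀ i, HasValue (γ i (u i)) (t i) (u i))
    {f : F} (hf0 : f ≠ 0) (hfB : f ∈ riemannRochSpace (sumPts fun i => γ i (a i)))
    (hz : ∀ i, HasValue (γ i (u i)) ((t i - algebraMap ℂ F (a i)) * f) 0) :
    divOf hF f + sumPts (fun i => γ i (a i)) = sumPts fun i => γ i (u i) := by
  classical
  obtain ⟨-, hsep, htv⟩ := hu
  set B := sumPts fun i => γ i (a i) with hB
  set Q := fun i => γ i (u i) with hQ
  have hQinj : Function.Injective Q := fun i j e => by
    by_contra hne
    exact (hsep i j hne).1 e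
  have hge : ∀ R, 0 ≤ (divOf hF f + B) R := fun R => by
    have := (atLeast_iff hf0).1 (mem_riemannRochSpace.1 hfB R)
    rw [Finsupp.add_apply, divOf_apply]
    omega
  have hone : ∀ i, 1 ≤ (divOf hF f + B) (Q i) := fun i => by
    have hne := ne_sub_const (h.arc_self i).trans (a i)
    have h0 := hz i
    rw [hasValue_zero_iff, atLeast_iff (mul_ne_zero hne hf0), (γ i (u i)).ord_mul hne hf0] at h0
    rw [Finsupp.add_apply, divOf_apply]
    have hP : γ i (u i) = γ i (a i) ∨ ∀ j, γ j (a j) ≠ γ i (u i) := by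
      by_cases e : γ i (u i) = γ i (a i)
      · exact Or.inl e
      · refine Or.inr fun j => ?_
        by_cases hij : j = i
        · subst hij; exact fun e' => e e'.symm
        · exact fun e' => (hsep i j (Ne.symm hij)).2 e'.symm
    rcases hP with e | e
    · have hord := (h.arc_self i).simple.self_of_nhds.2
      rw [show Q i = γ i (a i) from e, hB, sumPts_apply_of_inj h.inj]
      rw [e, hord] at h0
      omega
    · rw [hB, sumPts_apply_of_notMem e]
      have hne' : u i - a i ≠ 0 := fun e0 => e i (by rw [sub_eq_zero.1 e0])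
      have hord := (((htv i).sub (hasValue_algebraMap _ (a i))).ord_eq_zero hne').2
      rw [hord] at h0
      show 1 ≤ (γ i (u i)).ord f + 0
      omega
  have hle : sumPts Q ≤ divOf hF f + B := by
    refine Finsupp.le_def.2 fun R => ?_
    by_cases hR : ∀ i, Q i ≠ R
    · rw [sumPts_apply_of_notMem hR]; exact hge R
    · push Not at hR
      obtain ⟨i, rfl⟩ := hR
      rw [sumPts_apply_of_inj hQinj]; exact hone i
  by_contra hne
  have hlt : 0 ≤ (divOf hF f + B) - sumPts Q := sub_nonneg.2 hle
  have hdeg : Divisor.degree (divOf hF f + B - sumPts Q) = 0 := by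
    rw [map_sub, map_add, degree_divOf, hB, degree_sumPts hF, degree_sumPts hF]
    ring
  refine hne (sub_eq_zero.1 ?_)
  ext R
  have h1 := hdeg
  rw [degree_eq_finset_sum hF _ (Finset.subset_insert R _)] at h1
  have := Finset.single_le_sum (f := fun R => (divOf hF f + B - sumPts Q) R)
    (fun R _ => Finsupp.le_def.1 hlt R) (Finset.mem_insert_self R
      (divOf hF f + B - sumPts Q).support)
  rw [h1] at this
  exact le_antisymm this (Finsupp.le_def.1 hlt R)

/-- The zeros of `1 + ∑ c k φ k` near the points of a family. -/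
structure Sys {κ : Type} [Fintype κ] (φ : κ → F) (H : ι → κ → ℂ → ℂ) (U : (κ → ℂ) → ι → ℂ) :
    Prop where
  zero : U 0 = a
  an : AnalyticAt ℂ U 0
  anH : ∀ i k, ∀ᶠ s in 𝓝 (a i), AnalyticAt ℂ (H i k) s
  valH : ∀ i k, ∀ᶠ s in 𝓝 (a i),
    HasValue (γ i s) ((t i - algebraMap ℂ F (a i)) * φ k) (H i k s)
  root : ∀ᶠ c in 𝓝 0, ∀ i, U c i - a i + ∑ k, c k * H i k (U c i) = 0
  div : ∀ᶠ c in 𝓝 0, (1 + ∑ k, algebraMap ℂ F (c k) * φ k) ≠ 0 ∧
    divOf hF (1 + ∑ k, algebraMap ℂ F (c k) * φ k) + sumPts (fun i => γ i (a i)) =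
      sumPts fun i => γ i (U c i)

include h in
/-- The system of roots exists. -/
theorem IsFamily.exists_sys {κ : Type} [Fintype κ] (φ : κ → F)
    (hφ : ∀ k, φ k ∈ riemannRochSpace (sumPts fun i => γ i (a i))) :
    ∃ H U, Sys (t := t) (a := a) (γ := γ) hF φ H U := by
  classical
  set B := sumPts fun i => γ i (a i)
  have hne : ∀ i, t i - algebraMap ℂ F (a i) ≠ 0 := fun i => ne_sub_const (h.arc_self i).trans _
  have hreg : ∀ i k, AtLeast (γ i (a i)) 0 ((t i - algebraMap ℂ F (a i)) * φ k) := fun i k => by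
    have h1 : AtLeast (γ i (a i)) 1 (t i - algebraMap ℂ F (a i)) :=
      Or.inr (h.arc_self i).simple.self_of_nhds.2.ge
    have h2 := mem_riemannRochSpace.1 (hφ k) (γ i (a i))
    rw [sumPts_apply_of_inj h.inj] at h2
    simpa using h1.mul h2
  choose H hH hHv using fun i k => (h.arc_self i).analytic _ (hreg i k)
  let G : ι → (κ → ℂ) × ℂ → ℂ := fun i z => z.2 - a i + ∑ k, z.1 k * H i k z.2
  have hGan : ∀ i, AnalyticAt ℂ (G i) (0, a i) := fun i =>
    (analyticAt_snd.sub analyticAt_const).add (Finset.analyticAt_fun_sum _ fun k _ =>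
      (((ContinuousLinearMap.proj k : (κ → ℂ) →L[ℂ] ℂ).analyticAt _).comp analyticAt_fst).mul
        ((hH i k).comp_of_eq analyticAt_snd rfl))
  have hG0 : ∀ i, G i (0, a i) = 0 := fun i => by simp [G]
  have hGd : ∀ i, deriv (fun z => G i (0, z)) (a i) ≠ 0 := fun i => by
    rw [show (fun z => G i (0, z)) = fun z => z - a i by funext z; simp [G]]
    simp
  choose V hVan hVa hVG using fun i => exists_analytic_root (hGan i) (hG0 i) (hGd i)
  have hU : AnalyticAt ℂ (fun c i => V i c) 0 := AnalyticAt.pi hVan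
  refine ⟨H, fun c i => V i c, funext hVa, hU, fun i k => (hH i k).eventually_analyticAt,
    hHv, eventually_all.2 hVG, ?_⟩
  -- a place to see that the function is not zero
  haveI := infinite_places hF
  obtain ⟨R, hR⟩ := (Set.finite_range fun i => γ i (a i)).infinite_compl.nonempty
  have hRreg : ∀ k, ∃ v, HasValue R (φ k) v := fun k => exists_hasValue hF (by
    have := mem_riemannRochSpace.1 (hφ k) R
    rwa [sumPts_apply_of_notMem fun i e => hR ⟨i, e⟩, neg_zero] at this)
  choose v hv using hRreg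
  have hnz : ∀ᶠ c in 𝓝 (0 : κ → ℂ), 1 + ∑ k, c k * v k ≠ 0 :=
    ((by fun_prop : Continuous fun c : κ → ℂ => 1 + ∑ k, c k * v k).tendsto 0).eventually_ne (by simp)
  have hUt : Tendsto (fun c i => V i c) (𝓝 (0 : κ → ℂ)) (𝓝 a) := by
    have := hU.continuousAt.tendsto
    rwa [show (fun i => V i 0) = a from funext hVa] at this
  have hval : ∀ᶠ c in 𝓝 (0 : κ → ℂ), ∀ i k,
      HasValue (γ i (V i c)) ((t i - algebraMap ℂ F (a i)) * φ k) (H i k (V i c)) :=
    eventually_all.2 fun i => eventually_all.2 fun k =>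
      (((continuous_apply i).tendsto a).comp hUt).eventually (hHv i k)
  filter_upwards [hnz, hval, eventually_all.2 hVG, hUt.eventually (h.eventually_sep hF)]
    with c hc hcv hcG hsep
  set f := 1 + ∑ k, algebraMap ℂ F (c k) * φ k with hf
  have hf0 : f ≠ 0 := fun h0 => hc ((((by simpa using hasValue_algebraMap R (1 : ℂ) :
    HasValue R (1 : F) 1)).add (HasValue.finsetSum (s := Finset.univ) fun k _ =>
      (hv k).smul (c k))).unique (by rw [← hf, h0]; exact hasValue_zero_iff.2 atLeast_zero))
  refine ⟨hf0, h.divisor_eq hF hsep hf0 ?_ fun i => ?_⟩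
  · refine add_mem (mem_riemannRochSpace.2 fun P => Or.inr ?_) (sum_mem fun k _ => ?_)
    · rw [P.ord_one, neg_nonpos]
      have h0 : (0 : Divisor ℂ F) ≤ sumPts fun i => γ i (a i) :=
        Finset.sum_nonneg fun i _ => Finsupp.single_nonneg.2 zero_le_one
      exact Finsupp.le_def.1 h0 P
    · rw [← Algebra.smul_def]; exact Submodule.smul_mem _ _ (hφ k)
  · have h1 := ((hsep.2.2 i).sub (hasValue_algebraMap _ (a i))).add
      (HasValue.finsetSum (s := Finset.univ) fun k _ => (hcv i k).smul (c k))
    rw [show V i c - a i + ∑ k, c k * H i k (V i c) = 0 from hcG i] at h1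
    convert h1 using 1
    rw [hf, mul_add, mul_one, Finset.mul_sum]
    congr 1
    exact Finset.sum_congr rfl fun k _ => by ring

end FA.PicTors

end
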